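import Fermat.Agent.S36.ModA.Main
import Fermat.Agent.GES.FrobSeries

set_option autoImplicit false

/-!
# MOD36-A : reductions.  In characteristic `q`: `Θ(Q^q) = Θ(Q)^q`, hence `G1/G2 = (1/G1)^(q-1)`; `Θ(ζ Q) = Θ(Q)` if `ζ = 1`.
-/

noncomputable section

namespace Fermat.Agent.S36.ModA

open ModularCurve

theorem Vz_ofZ_char {k : Type*} [CommRing k] (q : ℕ) [Fact q.Prime] [CharP k q] (f : PowerSeries ℤ) :
    Vz k q (ofZ k f) = ofZ k f ^ q := by
  have : NeZero q := ⟨(Fact.out : q.Prime).ne_zero⟩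
  rw [GES.pow_char_eq q (ofZ k f), coeffMap_ofZ, Vz_eq]

namespace WtOne

variable {r : ℕ} (D : WtOne r)

theorem coeffMap_G1i {A B : Type*} [CommRing A] [CommRing B] (σ : A →+* B) (q : ℕ) :
    coeffMap σ (D.G1i A q) = D.G1i B q := D.coeffMap_Gi σ q

theorem coeffMap_G2i {A B : Type*} [CommRing A] [CommRing B] (σ : A →+* B) (q : ℕ) :
    coeffMap σ (D.G2i A q) = D.G2i B q := by
  rw [G2i, G2i, map_mul, D.coeffMap_G, D.coeffMap_Gi]

theorem G_char {k : Type*} [CommRing k] (q : ℕ) [Fact q.Prime] [CharP k q] :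
    D.G k q = D.thS k ^ q * D.thInv k := by
  rw [G, thS, Vz_ofZ_char]

theorem Gi_char {k : Type*} [CommRing k] (q : ℕ) [Fact q.Prime] [CharP k q] :
    D.Gi k q = D.thS k * D.thInv k ^ q := by
  rw [Gi, thInv, Vz_ofZ_char]

theorem Vz_sq_ofZ_char {k : Type*} [CommRing k] (q : ℕ) [Fact q.Prime] [CharP k q]
    (f : PowerSeries ℤ) : Vz k (q ^ 2) (ofZ k f) = (ofZ k f ^ q) ^ q := by
  have hq : 0 < q := (Fact.out : q.Prime).pos
  rw [pow_two, ← Vz_Vz k hq hq, Vz_ofZ_char, map_pow, Vz_ofZ_char]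

theorem Gi_sq_char {k : Type*} [CommRing k] (q : ℕ) [Fact q.Prime] [CharP k q] :
    D.Gi k (q ^ 2) = D.thS k * (D.thInv k ^ q) ^ q := by
  rw [Gi, thInv, Vz_sq_ofZ_char q]

/-- `G1/G2 = (1/G1)^(q-1)` in characteristic `q`. -/
theorem tri_char {k : Type*} [CommRing k] (q : ℕ) [Fact q.Prime] [CharP k q] :
    D.G1 k q * D.G2i k q = D.G1i k q ^ (q - 1) := by
  have huv := D.thS_mul_thInv k
  rw [G1, G2i, G1i, D.G_char q, D.Gi_char q, D.Gi_sq_char q]
  obtain ⟨p, rfl⟩ : ∃ p, q = p + 1 := ⟨q - 1, by have := (Fact.out : q.Prime).pos; omega⟩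
  rw [Nat.add_sub_cancel]
  generalize D.thS k = u at *
  generalize D.thInv k = v at *
  have e1 : u ^ (p + 1) * v * (u * (v ^ (p + 1)) ^ (p + 1) * (u ^ (p + 1) * v)) =
      (u * v) ^ (2 * p + 3) * v ^ (p * p) := by ring
  have e2 : (u * v ^ (p + 1)) ^ p = (u * v) ^ p * v ^ (p * p) := by ring
  rw [e1, e2, huv, one_pow, one_pow]

end WtOne

end Fermat.Agent.S36.ModA
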