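import Fermat.Agent.S36.ModA.Int24
import Fermat.Agent.S34.Mod.IntOver

set_option autoImplicit false

/-!
# MOD36-A / task A-IntU (FORMAL) : `(Θ¹²/Δ)^{±2}` is integral over `ℚ[j]`

Same tools as `Int24.lean` (read its header; cite `intJ_iff`, `evz_one_eq`, `Vz_Vz`).  With `X d = Vz ℚ d (dS ℚ) * dInv ℚ = d^(-12) Ug d` (`X d`, `(X d)⁻¹` are `IntJ`, `S28.intJ_Ug`):
`ofZ ℚ (serP P) ^ 24 = V_{d1}(e)^(24 p)/(V_{d2}(e)^(24 m) V_{d3}(e)^(24 n))`, `V_d (dS) = single d 1 * V_d(e)^24`; the powers of `Q` cancel by the balance `d1 p = d2 m + d3 n`, so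
`Θ^24 = V_{d1}(dS)^p/(V_{d2}(dS)^m V_{d3}(dS)^n)` and, since `p = m + n + 2`, `(Θ^12 dInv)^2 = Θ^24 dInv^2 = X d1^p * ((X d2)⁻¹^m * (X d3)⁻¹^n)`.
-/

noncomputable section

namespace Fermat.Agent.S36.ModA

open ModularCurve Fermat.Agent.Mod

/-- the variable `Q`. -/
def intuT : LaurentSeries ℚ := HahnSeries.single (1 : ℤ) 1

/-- `Δ(Q^d)/Δ(Q)`. -/
def intuX (d : ℕ) : LaurentSeries ℚ := Vz ℚ d (S28.dS ℚ) * S28.dInv ℚ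

/-- `Δ(Q)/Δ(Q^d)`. -/
def intuXi (d : ℕ) : LaurentSeries ℚ := Vz ℚ d (S28.dInv ℚ) * S28.dS ℚ

theorem intuX_mul_Xi (d : ℕ) : intuX d * intuXi d = 1 := by
  have h1 : S28.dS ℚ * S28.dInv ℚ = 1 := S28.dS_mul_dInv ℚ
  have h2 : Vz ℚ d (S28.dS ℚ) * Vz ℚ d (S28.dInv ℚ) = 1 := by rw [← map_mul, h1, map_one]
  calc intuX d * intuXi d
      = (Vz ℚ d (S28.dS ℚ) * Vz ℚ d (S28.dInv ℚ)) * (S28.dS ℚ * S28.dInv ℚ) := by
        rw [intuX, intuXi]; ring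
    _ = 1 := by rw [h1, h2, one_mul]

theorem intu_natCast_eq (d : ℕ) :
    (d : LaurentSeries ℚ) = algebraMap ℚ (LaurentSeries ℚ) (d : ℚ) :=
  (map_natCast _ d).symm

theorem intu_Ug_eq (d : ℕ) : S28.Ug d = algebraMap ℚ (LaurentSeries ℚ) ((d : ℚ) ^ 12) * intuX d := by
  rw [S28.Ug, evz_one_eq, intuX, map_pow, ← intu_natCast_eq]
  ring

theorem intuX_int {d : ℕ} (hd : 0 < d) : IntOver ℚ (jqModC ℚ) (intuX d) := by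
  have h := (intJ_iff _).1 (S28.intJ_Ug d hd.ne').1
  have hd0 : ((d : ℚ) ^ 12) ≠ 0 := pow_ne_zero _ (by exact_mod_cast hd.ne')
  have h2 := (intOver_algebraMap (K := ℚ) (jqModC ℚ) (((d : ℚ) ^ 12)⁻¹)).mul h
  rw [intu_Ug_eq, ← mul_assoc, ← map_mul, inv_mul_cancel₀ hd0, map_one, one_mul] at h2
  exact h2

theorem intuXi_int {d : ℕ} (hd : 0 < d) : IntOver ℚ (jqModC ℚ) (intuXi d) := by
  have h := (intJ_iff _).1 (S28.intJ_Ug d hd.ne').2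
  have hd0 : ((d : ℚ) ^ 12) ≠ 0 := pow_ne_zero _ (by exact_mod_cast hd.ne')
  have h2 := (intOver_algebraMap (K := ℚ) (jqModC ℚ) ((d : ℚ) ^ 12)).mul h
  have e : (intuX d)⁻¹ = intuXi d := (eq_inv_of_mul_eq_one_right (intuX_mul_Xi d)).symm
  rw [intu_Ug_eq, mul_inv, e, ← mul_assoc, ← map_inv₀, ← map_mul, mul_inv_cancel₀ hd0, map_one,
    one_mul] at h2
  exact h2

theorem intu_dS_eq : S28.dS ℚ = intuT * ofZ ℚ etaProd ^ 24 := by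
  rw [← ofZ_pow]
  rfl

theorem intu_Vz_T {d : ℕ} (hd : 0 < d) : Vz ℚ d intuT = intuT ^ d := by
  have : NeZero d := ⟨hd.ne'⟩
  rw [Vz_eq, intuT, qExpand_single, HahnSeries.single_pow, one_pow]
  simp

theorem intuX_eq {d : ℕ} (hd : 0 < d) :
    intuX d = intuT ^ d * Vz ℚ d (ofZ ℚ etaProd) ^ 24 * S28.dInv ℚ := by
  rw [intuX, intu_dS_eq, map_mul, map_pow, intu_Vz_T hd]

theorem intu_serP (P : Par) (hP : P.Good) :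
    ofZ ℚ (serP P) * (Vz ℚ P.d2 (ofZ ℚ etaProd) ^ P.m * Vz ℚ P.d3 (ofZ ℚ etaProd) ^ P.n) =
      Vz ℚ P.d1 (ofZ ℚ etaProd) ^ P.p := by
  have h0 : ofZ ℚ etaProd * ofZ ℚ (etaProd.invOfUnit 1) = 1 :=
    ofZ_mul_inv ℚ etaProd constantCoeff_etaProd
  have h : ∀ d : ℕ, Vz ℚ d (ofZ ℚ (etaProd.invOfUnit 1)) * Vz ℚ d (ofZ ℚ etaProd) = 1 := by
    intro d
    rw [← map_mul, mul_comm, h0, map_one]
  rw [serP, ofZ_mul, ofZ_mul, ofZ_pow, ofZ_pow, ofZ_pow, ← Vz_ofZ ℚ hP.h1, ← Vz_ofZ ℚ hP.h2,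
    ← Vz_ofZ ℚ hP.h3]
  calc _ = Vz ℚ P.d1 (ofZ ℚ etaProd) ^ P.p *
        ((Vz ℚ P.d2 (ofZ ℚ (etaProd.invOfUnit 1)) * Vz ℚ P.d2 (ofZ ℚ etaProd)) ^ P.m *
          (Vz ℚ P.d3 (ofZ ℚ (etaProd.invOfUnit 1)) * Vz ℚ P.d3 (ofZ ℚ etaProd)) ^ P.n) := by
        ring
    _ = _ := by rw [h, h, one_pow, one_pow, mul_one, mul_one]

theorem intu_key (P : Par) (hP : P.Good) (hw : P.p = P.m + P.n + 2) :
    (ofZ ℚ (serP P) ^ 12 * S28.dInv ℚ) ^ 2 * (intuX P.d2 ^ P.m * intuX P.d3 ^ P.n) =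
      intuX P.d1 ^ P.p := by
  rw [intuX_eq hP.h1, intuX_eq hP.h2, intuX_eq hP.h3]
  calc _ = (ofZ ℚ (serP P) * (Vz ℚ P.d2 (ofZ ℚ etaProd) ^ P.m *
        Vz ℚ P.d3 (ofZ ℚ etaProd) ^ P.n)) ^ 24 * intuT ^ (P.d2 * P.m + P.d3 * P.n) *
          S28.dInv ℚ ^ (P.m + P.n + 2) := by ring
    _ = _ := by
        rw [intu_serP P hP, ← hP.bal, ← hw]
        ring

theorem serP_intU (P : Par) (hP : P.Good) (hw : P.p = P.m + P.n + 2) :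
    IntOver ℚ (jqModC ℚ) ((ofZ ℚ (serP P) ^ 12 * S28.dInv ℚ) ^ 2) ∧
    IntOver ℚ (jqModC ℚ) ((ofZ ℚ ((serP P).invOfUnit 1) ^ 12 * S28.dS ℚ) ^ 2) := by
  have key := intu_key P hP hw
  have m1 := intuX_mul_Xi P.d1
  have m2 := intuX_mul_Xi P.d2
  have m3 := intuX_mul_Xi P.d3
  have hΘ : ofZ ℚ (serP P) * ofZ ℚ ((serP P).invOfUnit 1) = 1 :=
    ofZ_mul_inv ℚ (serP P) (constantCoeff_serP P)
  have hd : S28.dS ℚ * S28.dInv ℚ = 1 := S28.dS_mul_dInv ℚ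
  have e1 : (ofZ ℚ (serP P) ^ 12 * S28.dInv ℚ) ^ 2 =
      intuX P.d1 ^ P.p * (intuXi P.d2 ^ P.m * intuXi P.d3 ^ P.n) := by
    rw [← key]
    calc _ = (ofZ ℚ (serP P) ^ 12 * S28.dInv ℚ) ^ 2 *
          ((intuX P.d2 * intuXi P.d2) ^ P.m * (intuX P.d3 * intuXi P.d3) ^ P.n) := by
          rw [m2, m3, one_pow, one_pow, mul_one, mul_one]
      _ = _ := by ring
  have e2 : (ofZ ℚ ((serP P).invOfUnit 1) ^ 12 * S28.dS ℚ) ^ 2 =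
      intuXi P.d1 ^ P.p * (intuX P.d2 ^ P.m * intuX P.d3 ^ P.n) := by
    have a1 : (ofZ ℚ (serP P) ^ 12 * S28.dInv ℚ) ^ 2 *
        (ofZ ℚ ((serP P).invOfUnit 1) ^ 12 * S28.dS ℚ) ^ 2 = 1 := by
      calc _ = (ofZ ℚ (serP P) * ofZ ℚ ((serP P).invOfUnit 1)) ^ 24 *
            (S28.dS ℚ * S28.dInv ℚ) ^ 2 := by ring
        _ = 1 := by rw [hΘ, hd, one_pow, one_pow, one_mul]
    have a2 : (ofZ ℚ (serP P) ^ 12 * S28.dInv ℚ) ^ 2 *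
        (intuXi P.d1 ^ P.p * (intuX P.d2 ^ P.m * intuX P.d3 ^ P.n)) = 1 := by
      rw [e1]
      calc _ = (intuX P.d1 * intuXi P.d1) ^ P.p * ((intuX P.d2 * intuXi P.d2) ^ P.m *
            (intuX P.d3 * intuXi P.d3) ^ P.n) := by ring
        _ = 1 := by rw [m1, m2, m3, one_pow, one_pow, one_pow, one_mul, one_mul]
    have hne : (ofZ ℚ (serP P) ^ 12 * S28.dInv ℚ) ^ 2 ≠ 0 := left_ne_zero_of_mul_eq_one a1
    exact mul_left_cancel₀ hne (a1.trans a2.symm)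
  rw [e1, e2]
  exact ⟨((intuX_int hP.h1).pow _).mul (((intuXi_int hP.h2).pow _).mul ((intuXi_int hP.h3).pow _)),
    ((intuXi_int hP.h1).pow _).mul (((intuX_int hP.h2).pow _).mul ((intuX_int hP.h3).pow _))⟩

end Fermat.Agent.S36.ModA
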