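import Fermat.Agent.S36.ModA.DeltaQ

set_option autoImplicit false

/-!
# MOD36-A / task A-Wh24 : 24-th powers of quotients of eta quotients lie in `Wh N`

## A-Wh24
`discriminant z = eta z ^ 24` (definition), so `EQ P z ^ 24 = Δ(d1 z)^p/(Δ(d2 z)^m Δ(d3 z)^n)` and
`(pre a 0 1 (EQ P) * EQI P)^24 = (DQ (d1 a) * DQI d1)^p * ((DQ d2 * DQI (d2 a))^m * (DQ d3 * DQI (d3 a))^n)` pointwise (`field_simp`, all `Δ ≠ 0`);
`pre a 0 1 (pre d 0 1 f) = pre (d * a) 0 1 f` for `0 < a, d` (`expandB_coe_ofComplex`).  `Wh N` is a subring.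
-/

open UpperHalfPlane ModularForm CongruenceSubgroup
open scoped MatrixGroups Manifold

noncomputable section

namespace Fermat.Agent.S36.ModA

open ModularCurve Fermat.Agent.S24 Fermat.Agent.NV

theorem pre_pre (f : ℍ → ℂ) {a d : ℕ} (ha : 0 < a) (hd : 0 < d) :
    pre a 0 1 (pre d 0 1 f) = pre (d * a) 0 1 f := by
  funext z
  have h := expandB_coe_ofComplex a 0 1 ha one_pos z
  rw [pre, pre, pre, h]
  congr 2
  push_cast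
  ring

theorem wh24_pre_disc {d : ℕ} (hd : 0 < d) (z : ℍ) :
    pre d 0 1 discriminant z = eta ((d : ℂ) * z) ^ 24 := by
  have h := expandB_coe_ofComplex d 0 1 hd one_pos z
  rw [pre, discriminant, h]
  simp

theorem wh24_eta_ne_zero {d : ℕ} (hd : 0 < d) (z : ℍ) : eta ((d : ℂ) * z) ≠ 0 := by
  apply eta_ne_zero
  show 0 < ((d : ℂ) * z).im
  rw [Complex.mul_im]
  simp only [Complex.natCast_re, Complex.natCast_im, zero_mul, add_zero]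
  exact mul_pos (Nat.cast_pos.2 hd) z.im_pos

theorem wh24_pre_EQ (P : Par) {a : ℕ} (ha : 0 < a) (z : ℍ) :
    pre a 0 1 (EQ P) z = eta (((P.d1 * a : ℕ) : ℂ) * z) ^ P.p /
      (eta (((P.d2 * a : ℕ) : ℂ) * z) ^ P.m * eta (((P.d3 * a : ℕ) : ℂ) * z) ^ P.n) := by
  have h := expandB_coe_ofComplex a 0 1 ha one_pos z
  have e : ∀ d : ℕ, (d : ℂ) * (((a : ℂ) * z + (0 : ℕ)) / (1 : ℕ)) = ((d * a : ℕ) : ℂ) * z := by
    intro d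
    push_cast
    ring
  rw [pre, EQ, h, e, e, e]

theorem wh24_alg (A1 A2 A3 E1 E2 E3 e : ℂ) (h1 : A1 ≠ 0) (h2 : A2 ≠ 0) (h3 : A3 ≠ 0) (h4 : E1 ≠ 0)
    (h5 : E2 ≠ 0) (h6 : E3 ≠ 0) (h7 : e ≠ 0) (p m n : ℕ) :
    ((A1 ^ p / (A2 ^ m * A3 ^ n)) * ((E2 ^ m * E3 ^ n) / E1 ^ p)) ^ 24 =
      (A1 ^ 24 / e ^ 24 * (e ^ 24 / E1 ^ 24)) ^ p *
        ((E2 ^ 24 / e ^ 24 * (e ^ 24 / A2 ^ 24)) ^ m * (E3 ^ 24 / e ^ 24 * (e ^ 24 / A3 ^ 24)) ^ n) := by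
  have e1 : A1 ^ 24 / e ^ 24 * (e ^ 24 / E1 ^ 24) = A1 ^ 24 / E1 ^ 24 := by field_simp
  have e2 : E2 ^ 24 / e ^ 24 * (e ^ 24 / A2 ^ 24) = E2 ^ 24 / A2 ^ 24 := by field_simp
  have e3 : E3 ^ 24 / e ^ 24 * (e ^ 24 / A3 ^ 24) = E3 ^ 24 / A3 ^ 24 := by field_simp
  rw [e1, e2, e3]
  simp only [div_pow, mul_pow]
  field_simp
  ring

theorem EQ_wh24 (P : Par) (hP : P.Good) {a N : ℕ} [NeZero N] (ha : 0 < a) (h1 : P.d1 * a ∣ N)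
    (h2 : P.d2 * a ∣ N) (h3 : P.d3 * a ∣ N) : (pre a 0 1 (EQ P) * EQI P) ^ 24 ∈ Wh N := by
  have e : (pre a 0 1 (EQ P) * EQI P) ^ 24 = (DQ (P.d1 * a) * DQI P.d1) ^ P.p *
      ((DQ P.d2 * DQI (P.d2 * a)) ^ P.m * (DQ P.d3 * DQI (P.d3 * a)) ^ P.n) := by
    funext z
    simp only [Pi.mul_apply, Pi.pow_apply, DQ, DQI, wh24_pre_disc hP.h1, wh24_pre_disc hP.h2,
      wh24_pre_disc hP.h3, wh24_pre_disc (Nat.mul_pos hP.h1 ha), wh24_pre_disc (Nat.mul_pos hP.h2 ha),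
      wh24_pre_disc (Nat.mul_pos hP.h3 ha), wh24_pre_EQ P ha, EQI]
    exact wh24_alg _ _ _ _ _ _ _ (wh24_eta_ne_zero (Nat.mul_pos hP.h1 ha) z)
      (wh24_eta_ne_zero (Nat.mul_pos hP.h2 ha) z) (wh24_eta_ne_zero (Nat.mul_pos hP.h3 ha) z)
      (wh24_eta_ne_zero hP.h1 z) (wh24_eta_ne_zero hP.h2 z) (wh24_eta_ne_zero hP.h3 z)
      (eta_ne_zero z.2) _ _ _
  rw [e]
  exact mul_mem (pow_mem (mul_mem (DQ_mem_Wh h1) (DQI_mem_Wh ((Dvd.intro _ rfl).trans h1))) _)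
    (mul_mem (pow_mem (mul_mem (DQ_mem_Wh ((Dvd.intro _ rfl).trans h2)) (DQI_mem_Wh h2)) _)
      (pow_mem (mul_mem (DQ_mem_Wh ((Dvd.intro _ rfl).trans h3)) (DQI_mem_Wh h3)) _))

end Fermat.Agent.S36.ModA
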