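import Fermat.Agent.S36.ModA.DeltaQ

set_option autoImplicit false

/-!
# MOD36-A / task A-WhU : `Θ²⁴/Δ²` and its inverse lie in `Wh N` (eta quotients of weight one: `p = m + n + 2`)

`discriminant z = eta z ^ 24` (definition), `pre d 0 1 discriminant z = eta (d z) ^ 24` (`S24.expandB_coe_ofComplex d 0 1 hd one_pos z`), so pointwise
`EQ P z ^ 24 / Δ z ^ 2 = DQ d1 z ^ p * (DQI d2 z ^ m * DQI d3 z ^ n)` (because `p = m + n + 2`; `field_simp`, all `Δ ≠ 0`: generalize the values first) and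
`Δ z ^ 2 * EQI P z ^ 24 = DQI d1 z ^ p * (DQ d2 z ^ m * DQ d3 z ^ n)`.  `Wh N` is a subring: `DQ_mem_Wh`, `DQI_mem_Wh`, `mul_mem`, `pow_mem`.
-/

open UpperHalfPlane ModularForm CongruenceSubgroup
open scoped MatrixGroups Manifold

noncomputable section

namespace Fermat.Agent.S36.ModA

open ModularCurve Fermat.Agent.S24 Fermat.Agent.NV

theorem whU_pre_disc {d : ℕ} (hd : 0 < d) (z : ℍ) :
    pre d 0 1 discriminant z = eta ((d : ℂ) * z) ^ 24 := by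
  have h := expandB_coe_ofComplex d 0 1 hd one_pos z
  rw [pre, discriminant, h]
  simp

theorem whU_eta_ne_zero {d : ℕ} (hd : 0 < d) (z : ℍ) : eta ((d : ℂ) * z) ≠ 0 := by
  apply eta_ne_zero
  show 0 < ((d : ℂ) * z).im
  rw [Complex.mul_im]
  simp only [Complex.natCast_re, Complex.natCast_im, zero_mul, add_zero]
  exact mul_pos (Nat.cast_pos.2 hd) z.im_pos

theorem whU_alg (a b c e : ℂ) (ha : a ≠ 0) (hb : b ≠ 0) (hc : c ≠ 0) (he : e ≠ 0) (m n : ℕ) :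
    (a ^ (m + n + 2) / (b ^ m * c ^ n)) ^ 24 / (e ^ 24) ^ 2 =
      (a ^ 24 / e ^ 24) ^ (m + n + 2) * ((e ^ 24 / b ^ 24) ^ m * (e ^ 24 / c ^ 24) ^ n) := by
  simp only [div_pow, mul_pow]
  field_simp
  ring

theorem whU_algi (a b c e : ℂ) (ha : a ≠ 0) (hb : b ≠ 0) (hc : c ≠ 0) (he : e ≠ 0) (m n : ℕ) :
    (e ^ 24) ^ 2 * ((b ^ m * c ^ n) / a ^ (m + n + 2)) ^ 24 =
      (e ^ 24 / a ^ 24) ^ (m + n + 2) * ((b ^ 24 / e ^ 24) ^ m * (c ^ 24 / e ^ 24) ^ n) := by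
  simp only [div_pow, mul_pow]
  field_simp
  ring

theorem EQ_whU (P : Par) (hP : P.Good) (hw : P.p = P.m + P.n + 2) {N : ℕ} [NeZero N] (h1 : P.d1 ∣ N)
    (h2 : P.d2 ∣ N) (h3 : P.d3 ∣ N) : (fun z => EQ P z ^ 24 / discriminant z ^ 2) ∈ Wh N := by
  have e : (fun z => EQ P z ^ 24 / discriminant z ^ 2) =
      DQ P.d1 ^ P.p * (DQI P.d2 ^ P.m * DQI P.d3 ^ P.n) := by
    funext z
    simp only [Pi.mul_apply, Pi.pow_apply, DQ, DQI, whU_pre_disc hP.h1, whU_pre_disc hP.h2,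
      whU_pre_disc hP.h3, EQ, hw]
    exact whU_alg _ _ _ _ (whU_eta_ne_zero hP.h1 z) (whU_eta_ne_zero hP.h2 z)
      (whU_eta_ne_zero hP.h3 z) (eta_ne_zero z.2) _ _
  rw [e]
  exact mul_mem (pow_mem (DQ_mem_Wh h1) _)
    (mul_mem (pow_mem (DQI_mem_Wh h2) _) (pow_mem (DQI_mem_Wh h3) _))

theorem EQ_whUi (P : Par) (hP : P.Good) (hw : P.p = P.m + P.n + 2) {N : ℕ} [NeZero N] (h1 : P.d1 ∣ N)
    (h2 : P.d2 ∣ N) (h3 : P.d3 ∣ N) : (fun z => discriminant z ^ 2 * EQI P z ^ 24) ∈ Wh N := by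
  have e : (fun z => discriminant z ^ 2 * EQI P z ^ 24) =
      DQI P.d1 ^ P.p * (DQ P.d2 ^ P.m * DQ P.d3 ^ P.n) := by
    funext z
    simp only [Pi.mul_apply, Pi.pow_apply, DQ, DQI, whU_pre_disc hP.h1, whU_pre_disc hP.h2,
      whU_pre_disc hP.h3, EQI, hw]
    exact whU_algi _ _ _ _ (whU_eta_ne_zero hP.h1 z) (whU_eta_ne_zero hP.h2 z)
      (whU_eta_ne_zero hP.h3 z) (eta_ne_zero z.2) _ _
  rw [e]
  exact mul_mem (pow_mem (DQI_mem_Wh h1) _)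
    (mul_mem (pow_mem (DQ_mem_Wh h2) _) (pow_mem (DQ_mem_Wh h3) _))

end Fermat.Agent.S36.ModA
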