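import Fermat.Agent.S36.ModA.Slash
import Fermat.Agent.S36.ModA.Wh24
import Fermat.Agent.S36.ModA.IntU
import Fermat.Agent.S36.ModA.WhU

set_option autoImplicit false

/-!
# MOD36-A : the two instances `wt9 : WtOne 9`, `wt4 : WtOne 4` (assembly, proved from the leaves)
-/

open UpperHalfPlane ModularForm CongruenceSubgroup
open scoped MatrixGroups Manifold

noncomputable section

namespace Fermat.Agent.S36.ModA

open ModularCurve Fermat.Agent.S24 Fermat.Agent.NV Fermat.Agent.Mod

/-- `Θ₉ = η(z)³/η(3z)`. -/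
def wt9 : WtOne 9 where
  Th := EQ par9
  ThI := EQI par9
  chi := chiR 9
  ser := serP par9
  mul_inv := EQ_mul_EQI par9 good9.h1 good9.h2 good9.h3
  bd := isBd_EQ par9 good9
  bdI := isBd_EQI par9 good9
  ser0 := constantCoeff_serP par9
  tinf := TInf_EQ par9 good9
  slash := slash9
  chi_sq := chiR_sq 9 (Or.inl rfl)
  chi_mul := chiR_mul 9
  chi_add := chiR_add 9 (Or.inl rfl)
  wh24 := fun a ha => by
    have : NeZero (9 * a) := ⟨by omega⟩
    exact EQ_wh24 par9 good9 ha (Dvd.intro_left 9 (by simp [par9]))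
      (Dvd.intro_left 3 (by simp only [par9]; ring)) (Dvd.intro_left 9 (by simp [par9]))
  int24 := fun a ha => serP_int24 par9 good9 a ha
  whU := EQ_whU par9 good9 rfl (by decide) (by decide) (by decide)
  whUi := EQ_whUi par9 good9 rfl (by decide) (by decide) (by decide)
  intU := serP_intU par9 good9 rfl

/-- `Θ₄ = η(2z)¹⁰/(η(z)⁴η(4z)⁴)`. -/
def wt4 : WtOne 4 where
  Th := EQ par4
  ThI := EQI par4
  chi := chiR 4
  ser := serP par4
  mul_inv := EQ_mul_EQI par4 good4.h1 good4.h2 good4.h3
  bd := isBd_EQ par4 good4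
  bdI := isBd_EQI par4 good4
  ser0 := constantCoeff_serP par4
  tinf := TInf_EQ par4 good4
  slash := slash4
  chi_sq := chiR_sq 4 (Or.inr rfl)
  chi_mul := chiR_mul 4
  chi_add := chiR_add 4 (Or.inr rfl)
  wh24 := fun a ha => by
    have : NeZero (4 * a) := ⟨by omega⟩
    exact EQ_wh24 par4 good4 ha (Dvd.intro_left 2 (by simp only [par4]; ring))
      (Dvd.intro_left 4 (by simp [par4])) (Dvd.intro_left 1 (by simp [par4]))
  int24 := fun a ha => serP_int24 par4 good4 a ha
  whU := EQ_whU par4 good4 rfl (by decide) (by decide) (by decide)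
  whUi := EQ_whUi par4 good4 rfl (by decide) (by decide) (by decide)
  intU := serP_intU par4 good4 rfl

end Fermat.Agent.S36.ModA
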