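import Fermat.Agent.S36.ModA.Eta

set_option autoImplicit false

/-!
# MOD36-A / task A-Aut : calculus of weight one automorphy `Aut1 Θ γ m : Θ(γ z) = m (c z + d) Θ(z)`

TOOLS: `Fermat.Agent.S24.expandB_coe_smul` (`↑(g • z) = (a z + b)/(c z + d)`), `expandB_denom_ne` (`c z + d ≠ 0`),
`UpperHalfPlane.denom_cocycle` or a direct computation with the entries of `γ * γ'`
(`Matrix.SpecialLinearGroup.coe_mul`, `Matrix.mul_fin_two` / `Matrix.mul_apply, Fin.sum_univ_two`), `mul_smul`, `UpperHalfPlane.ext`.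
* `Aut1.mul`: `c''z + d'' = (c (γ'z) + d)(c'z + d')`.
* `aut1_neg`: `(-γ) • z = γ • z` (`ModularGroup.SL_neg_smul`), entries change sign.
* `aut1_UN`: `U_N z = F(F z - 1)`, `F = frk N`.  With `w : ℍ`, `↑w = ↑(F z) - 1`: `Θ(U z) = Θ(F w) = κ w Θs(w) = κ w ω⁻¹ Θs(F z)` and
  `Θ z = Θ(F (F z)) = κ (F z) Θs(F z)`; `w / F z = 1 - 1/F z = 1 + N z`.
-/

open UpperHalfPlane ModularForm CongruenceSubgroup
open scoped MatrixGroups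

noncomputable section

namespace Fermat.Agent.S36.ModA

open Fermat.Agent.S24

theorem aut1_one (Θ : ℍ → ℂ) : Aut1 Θ 1 1 := by
  intro z
  simp

/-- the form in which automorphy is used: `w' = γ w` given by the equation `w' (c w + d) = a w + b`. -/
theorem Aut1.of_coe {Θ : ℍ → ℂ} {γ : SL(2, ℤ)} {m : ℂ} (h : Aut1 Θ γ m) {w w' : ℍ}
    (hw : (w' : ℂ) * (((γ 1 0 : ℤ) : ℂ) * (w : ℂ) + ((γ 1 1 : ℤ) : ℂ)) =
      ((γ 0 0 : ℤ) : ℂ) * (w : ℂ) + ((γ 0 1 : ℤ) : ℂ)) :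
    Θ w' = m * (((γ 1 0 : ℤ) : ℂ) * (w : ℂ) + ((γ 1 1 : ℤ) : ℂ)) * Θ w := by
  rw [← h w]
  congr 1
  apply UpperHalfPlane.ext
  rw [expandB_coe_smul, eq_div_iff (expandB_denom_ne γ w)]
  exact hw

theorem Aut1.mul {Θ : ℍ → ℂ} {γ γ' : SL(2, ℤ)} {m m' : ℂ} (h : Aut1 Θ γ m) (h' : Aut1 Θ γ' m') :
    Aut1 Θ (γ * γ') (m * m') := by
  intro z
  rw [mul_smul, h (γ' • z), h' z, expandB_coe_smul]
  have hd := expandB_denom_ne γ' z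
  have e10 : (γ * γ') 1 0 = γ 1 0 * γ' 0 0 + γ 1 1 * γ' 1 0 := by
    rw [Matrix.SpecialLinearGroup.coe_mul, Matrix.mul_apply, Fin.sum_univ_two]
  have e11 : (γ * γ') 1 1 = γ 1 0 * γ' 0 1 + γ 1 1 * γ' 1 1 := by
    rw [Matrix.SpecialLinearGroup.coe_mul, Matrix.mul_apply, Fin.sum_univ_two]
  rw [e10, e11]
  push_cast
  set Q : ℂ := ((γ' 1 0 : ℤ) : ℂ) * (z : ℂ) + ((γ' 1 1 : ℤ) : ℂ) with hQ
  set P : ℂ := ((γ' 0 0 : ℤ) : ℂ) * (z : ℂ) + ((γ' 0 1 : ℤ) : ℂ) with hP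
  have key : (((γ 1 0 : ℤ) : ℂ) * (P / Q) + ((γ 1 1 : ℤ) : ℂ)) * Q =
      ((γ 1 0 : ℤ) : ℂ) * P + ((γ 1 1 : ℤ) : ℂ) * Q := by
    field_simp
  calc m * (((γ 1 0 : ℤ) : ℂ) * (P / Q) + ((γ 1 1 : ℤ) : ℂ)) * (m' * Q * Θ z)
      = m * m' * ((((γ 1 0 : ℤ) : ℂ) * (P / Q) + ((γ 1 1 : ℤ) : ℂ)) * Q) * Θ z := by ring
    _ = _ := by rw [key, hP, hQ]; ring

theorem Aut1.inv {Θ : ℍ → ℂ} {γ : SL(2, ℤ)} {m : ℂ} (h : Aut1 Θ γ m) (hm : m ≠ 0) :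
    Aut1 Θ γ⁻¹ m⁻¹ := by
  intro z
  have h1 := h (γ⁻¹ • z)
  rw [smul_inv_smul] at h1
  rw [h1, expandB_coe_smul]
  have hd := expandB_denom_ne γ⁻¹ z
  have hdet : γ 0 0 * γ 1 1 - γ 0 1 * γ 1 0 = 1 := by
    have := γ.det_coe
    rwa [Matrix.det_fin_two] at this
  have hdet' : ((γ 0 0 : ℤ) : ℂ) * ((γ 1 1 : ℤ) : ℂ) - ((γ 0 1 : ℤ) : ℂ) * ((γ 1 0 : ℤ) : ℂ) = 1 := by
    exact_mod_cast hdet
  have e : ((γ⁻¹ : SL(2, ℤ)) : Matrix (Fin 2) (Fin 2) ℤ) = !![γ 1 1, -γ 0 1; -γ 1 0, γ 0 0] := by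
    rw [Matrix.SpecialLinearGroup.SL2_inv_expl]
    rfl
  have e00 : (γ⁻¹ : SL(2, ℤ)) 0 0 = γ 1 1 := by rw [e]; rfl
  have e01 : (γ⁻¹ : SL(2, ℤ)) 0 1 = -γ 0 1 := by rw [e]; rfl
  have e10 : (γ⁻¹ : SL(2, ℤ)) 1 0 = -γ 1 0 := by rw [e]; rfl
  have e11 : (γ⁻¹ : SL(2, ℤ)) 1 1 = γ 0 0 := by rw [e]; rfl
  rw [e10, e11] at hd
  rw [e00, e01, e10, e11]
  push_cast at hd ⊢
  set Q : ℂ := -((γ 1 0 : ℤ) : ℂ) * (z : ℂ) + ((γ 0 0 : ℤ) : ℂ) with hQ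
  set P : ℂ := ((γ 1 1 : ℤ) : ℂ) * (z : ℂ) + -((γ 0 1 : ℤ) : ℂ) with hP
  have key : (((γ 1 0 : ℤ) : ℂ) * (P / Q) + ((γ 1 1 : ℤ) : ℂ)) * Q = 1 := by
    have : (((γ 1 0 : ℤ) : ℂ) * (P / Q) + ((γ 1 1 : ℤ) : ℂ)) * Q =
        ((γ 1 0 : ℤ) : ℂ) * P + ((γ 1 1 : ℤ) : ℂ) * Q := by
      field_simp
    rw [this, hP, hQ]
    linear_combination hdet'
  generalize Θ (γ⁻¹ • z) = t
  calc t = m⁻¹ * m * 1 * t := by field_simp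
    _ = _ := by rw [← key]; ring

theorem Aut1.neg {Θ : ℍ → ℂ} {γ : SL(2, ℤ)} {m : ℂ} (h : Aut1 Θ γ m) : Aut1 Θ (-γ) (-m) := by
  intro z
  rw [ModularGroup.SL_neg_smul, h z]
  have e10 : (-γ : SL(2, ℤ)) 1 0 = -γ 1 0 := by simp
  have e11 : (-γ : SL(2, ℤ)) 1 1 = -γ 1 1 := by simp
  rw [e10, e11]
  push_cast
  ring

theorem aut1_T {Θ : ℍ → ℂ} (hT : ∀ z w : ℍ, (w : ℂ) = z + 1 → Θ w = Θ z) : Aut1 Θ ModularGroup.T 1 := by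
  intro z
  rw [hT z (ModularGroup.T • z) (by rw [modular_T_smul, coe_vadd]; push_cast; ring)]
  simp [ModularGroup.T]

theorem aut1_UN {Θ Θs : ℍ → ℂ} {N : ℕ} (hN : 0 < N) {κ ω : ℂ} (hκ : κ ≠ 0) (hω : ω ≠ 0)
    (hF : ∀ z : ℍ, Θ (frk N z) = κ * (z : ℂ) * Θs z)
    (hT : ∀ z w : ℍ, (w : ℂ) = z + 1 → Θs w = ω * Θs z) : Aut1 Θ (UN N) ω⁻¹ := by
  intro z
  have hN' : (N : ℂ) ≠ 0 := by exact_mod_cast hN.ne'
  have hz := z.ne_zero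
  set w : ℍ := ModularGroup.T⁻¹ • frk N z with hw
  have cw : (w : ℂ) = -1 / (N * (z : ℂ)) - 1 := by
    rw [hw, expA_coe_T_inv_smul, coe_frk hN]
  have hden := expandB_denom_ne (UN N) z
  have u00 : (UN (N : ℤ)) 0 0 = 1 := rfl
  have u01 : (UN (N : ℤ)) 0 1 = 0 := rfl
  have u10 : (UN (N : ℤ)) 1 0 = N := rfl
  have u11 : (UN (N : ℤ)) 1 1 = 1 := rfl
  rw [u10, u11] at hden ⊢
  push_cast at hden ⊢
  have e1 : UN (N : ℤ) • z = frk N w := by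
    apply UpperHalfPlane.ext
    rw [expandB_coe_smul, coe_frk hN, cw, u00, u01, u10, u11]
    push_cast
    have h2 : (N : ℂ) * (-1 / (N * (z : ℂ)) - 1) = -((N : ℂ) * z + 1) / z := by
      field_simp
      ring
    rw [h2]
    field_simp
    ring
  have e2 : Θs (frk N z) = ω * Θs w := hT w (frk N z) (by rw [cw, coe_frk hN]; ring)
  have e3 : Θ z = κ * (-1 / (N * (z : ℂ))) * Θs (frk N z) := by
    have := hF (frk N z)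
    rwa [frk_frk hN, coe_frk hN] at this
  rw [e1, hF w, e3, e2, cw]
  field_simp
  ring

end Fermat.Agent.S36.ModA
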