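import Fermat.Agent.S36.ModA.Defs

set_option autoImplicit false

/-!
# MOD36-A / task A-Chi : elementary properties of `chiR` (`χ₋₄` for `r = 4`, `χ₋₃` otherwise)

Unfold `chiR`; case analysis on residues: `Int.emod_emod_of_dvd`, `Int.mul_emod`, `Int.add_mul_emod_self_left`, `omega`, `decide` on `d % 4 ∈ {0,1,2,3}` (`Int.emod_nonneg`, `Int.emod_lt_of_pos`, `interval_cases`).
`IsCoprime d 9 → d % 3 ≠ 0`, `IsCoprime d 4 → d % 2 = 1` (from `a d + b r = 1`, `omega`).
-/

namespace Fermat.Agent.S36.ModA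

theorem chiR_sq (r : ℕ) (hr : r = 9 ∨ r = 4) (d : ℤ) (h : IsCoprime d (r : ℤ)) : chiR r d * chiR r d = 1 := by
  obtain ⟨a, b, hab⟩ := h
  rcases hr with rfl | rfl
  · have h3 : d % 3 = 1 ∨ d % 3 = 2 := by
      have h0 : d % 3 ≠ 0 := by
        intro h0
        obtain ⟨m, hm⟩ := Int.dvd_of_emod_eq_zero h0
        rw [hm] at hab
        push_cast at hab
        have : (3 : ℤ) ∣ 1 := ⟨a * m + b * 3, by linarith⟩
        omega
      omega
    unfold chiR
    rcases h3 with h3 | h3 <;> simp [h3]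
  · have h4 : d % 4 = 1 ∨ d % 4 = 3 := by
      have h0 : d % 2 ≠ 0 := by
        intro h0
        obtain ⟨m, hm⟩ := Int.dvd_of_emod_eq_zero h0
        rw [hm] at hab
        push_cast at hab
        have : (2 : ℤ) ∣ 1 := ⟨a * m + b * 2, by linarith⟩
        omega
      omega
    unfold chiR
    rcases h4 with h4 | h4 <;> simp [h4]

theorem chiR_mul (r : ℕ) (d e : ℤ) : chiR r (d * e) = chiR r d * chiR r e := by
  unfold chiR
  by_cases hr : r = 4
  · simp only [hr, if_true]
    have hd : d % 4 = 0 ∨ d % 4 = 1 ∨ d % 4 = 2 ∨ d % 4 = 3 := by omega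
    have he : e % 4 = 0 ∨ e % 4 = 1 ∨ e % 4 = 2 ∨ e % 4 = 3 := by omega
    rcases hd with hd | hd | hd | hd <;> rcases he with he | he | he | he <;>
      simp [Int.mul_emod, hd, he]
  · simp only [hr, if_false]
    have hd : d % 3 = 0 ∨ d % 3 = 1 ∨ d % 3 = 2 := by omega
    have he : e % 3 = 0 ∨ e % 3 = 1 ∨ e % 3 = 2 := by omega
    rcases hd with hd | hd | hd <;> rcases he with he | he | he <;>
      simp [Int.mul_emod, hd, he]

theorem chiR_add (r : ℕ) (hr : r = 9 ∨ r = 4) (d k : ℤ) : chiR r (d + r * k) = chiR r d := by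
  unfold chiR
  rcases hr with rfl | rfl
  · have : (d + ((9 : ℕ) : ℤ) * k) % 3 = d % 3 := by push_cast; omega
    have h94 : ¬ ((9 : ℕ) = 4) := by norm_num
    simp only [h94, if_false, this]
  · have : (d + ((4 : ℕ) : ℤ) * k) % 4 = d % 4 := by push_cast; omega
    rw [if_pos rfl, if_pos rfl, this]

/-- `χ₋₄(-d) = -χ₋₄(d)`, `χ₋₃(-d) = -χ₋₃(d)`. -/
theorem chiR_neg (r : ℕ) (d : ℤ) : chiR r (-d) = - chiR r d := by
  unfold chiR
  by_cases hr : r = 4
  · simp only [hr, if_true]
    have hd : d % 4 = 0 ∨ d % 4 = 1 ∨ d % 4 = 2 ∨ d % 4 = 3 := by omega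
    rcases hd with hd | hd | hd | hd
    · have : (-d) % 4 = 0 := by omega
      simp [hd, this]
    · have : (-d) % 4 = 3 := by omega
      simp [hd, this]
    · have : (-d) % 4 = 2 := by omega
      simp [hd, this]
    · have : (-d) % 4 = 1 := by omega
      simp [hd, this]
  · simp only [hr, if_false]
    have hd : d % 3 = 0 ∨ d % 3 = 1 ∨ d % 3 = 2 := by omega
    rcases hd with hd | hd | hd
    · have : (-d) % 3 = 0 := by omega
      simp [hd, this]
    · have : (-d) % 3 = 2 := by omega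
      simp [hd, this]
    · have : (-d) % 3 = 1 := by omega
      simp [hd, this]

/-- `χ₋₃` only depends on `d mod 3`. -/
theorem chiR9_add (d k : ℤ) : chiR 9 (d + 3 * k) = chiR 9 d := by
  unfold chiR
  have : (d + 3 * k) % 3 = d % 3 := by omega
  have h94 : ¬ ((9 : ℕ) = 4) := by norm_num
  simp only [h94, if_false, this]

end Fermat.Agent.S36.ModA
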