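import Fermat.Agent.S36.ModA.Defs
import Fermat.Agent.NV.InvC
import Fermat.Agent.S36.Descent.Rat

set_option autoImplicit false

/-!
# MOD36-A / task A-Crit : a `Γ₀(N)`-invariant function in `Wh N` with rational `q`-expansion `x` gives `x ∈ F_{N,ℚ}`

PROOF.  `NV.exists_ev N y hy hinv : ∃ u w : C24.A0 N, w ≠ 0 ∧ ∀ z, PhiB N w z * y z = PhiB N u z`.  Apply `TInf N` (a ring hom on `perSub N`, injective):
`C24.TInf_PhiB N a : TInf N ⟨PhiB N a, _⟩ = qExpand ℂ N (coeffMap iotaC a)`, `NV.TInf_level (one_dvd N) ⟨y, h1⟩ : TInf N ⟨y, _⟩ = qExpand ℂ (N / 1) (TInf 1 ⟨y, h1⟩)`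
(`qExpand_congr` for `N / 1 = N`), `qExpand_injective`.  So `coeffMap iotaC w * coeffMap _ x = coeffMap iotaC u`, `coeffMap iotaC w ≠ 0` (`C24.phi_coeffMap_injective`).
`coeffMap_iotaC_mem`: `Algebra.adjoin_induction` on `a ∈ C24.A0 N = Algebra.adjoin Kc (fGens N)`; generators `C24.Jser d = jqNModC Kc d` (`C24.phi_Jser_of_ne`, unfold `jqNModC`; `coeffMap_qExpand`, `coeffMap_jqModC`, `jqModCd_mem_full`), constants: `algebraMap_laurentSeries_eq_single`, `coeffMap_single`.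
Finally `S36.Descent.Rat.mem_of_coeffMap_mem (algebraMap ℚ ℂ) N x` (check its namespace in `S36/Descent/Rat.lean`).
-/

open UpperHalfPlane ModularForm CongruenceSubgroup
open scoped MatrixGroups Manifold

noncomputable section

namespace Fermat.Agent.S36.ModA

open ModularCurve Fermat.Agent.S24 Fermat.Agent.NV Fermat.Agent.Mod

theorem coeffMap_iotaC_mem (N : ℕ) [NeZero N] (a : LaurentSeries C24.Kc) (ha : a ∈ C24.A0 N) :
    coeffMap C24.iotaC a ∈ FK ℂ N := by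
  change a ∈ Algebra.adjoin C24.Kc (C24.fGens N) at ha
  induction ha using Algebra.adjoin_induction with
  | mem x hx =>
    obtain ⟨d, hd, rfl⟩ := hx
    have hd0 : NeZero d := ⟨fun h => NeZero.ne N (by subst h; simpa using hd)⟩
    rw [C24.phi_Jser_of_ne, jqNModC, coeffMap_qExpand, coeffMap_jqModC]
    exact jqModCd_mem_full ℂ N hd
  | algebraMap c =>
    rw [algebraMap_laurentSeries_eq_single, coeffMap_single, ← algebraMap_laurentSeries_eq_single]
    exact (FK ℂ N).algebraMap_mem _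
  | add x y _ _ hx hy =>
    rw [map_add]
    exact add_mem hx hy
  | mul x y _ _ hx hy =>
    rw [map_mul]
    exact mul_mem hx hy

theorem mem_FK_complex (N : ℕ) [NeZero N] (y : ℍ → ℂ) (hy : y ∈ Wh N) (hinv : IsEqv N 1 y)
    (h1 : y ∈ perSub 1) : TInf 1 ⟨y, h1⟩ ∈ FK ℂ N := by
  obtain ⟨u, w, hw, h⟩ := exists_ev N y hy hinv
  have : NeZero (N / 1) := ⟨by rw [Nat.div_one]; exact NeZero.ne N⟩
  have hyN := TInf_level (one_dvd N) ⟨y, h1⟩
  rw [qExpand_congr (Nat.div_one N)] at hyN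
  have e : (⟨(C24.PhiB N w : ℍ → ℂ), C24.Btil_le_perSub N (C24.PhiB N w).2⟩ : perSub N) *
      ⟨y, perSub_le_of_dvd (one_dvd N) h1⟩ =
      ⟨(C24.PhiB N u : ℍ → ℂ), C24.Btil_le_perSub N (C24.PhiB N u).2⟩ :=
    Subtype.ext (funext h)
  have e2 := congrArg (TInf N) e
  rw [map_mul, C24.TInf_PhiB, C24.TInf_PhiB, hyN, ← map_mul] at e2
  have e3 := qExpand_injective (R := ℂ) N e2
  have hw0 : coeffMap C24.iotaC (w : LaurentSeries C24.Kc) ≠ 0 := by
    intro h0
    apply hw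
    apply Subtype.ext
    exact C24.phi_coeffMap_injective C24.iotaC C24.iotaC.injective (h0.trans (map_zero _).symm)
  have e4 : TInf 1 ⟨y, h1⟩ = coeffMap C24.iotaC (u : LaurentSeries C24.Kc) /
      coeffMap C24.iotaC (w : LaurentSeries C24.Kc) := by
    rw [eq_div_iff hw0, mul_comm]
    exact e3
  rw [e4]
  exact div_mem (coeffMap_iotaC_mem N _ u.2) (coeffMap_iotaC_mem N _ w.2)

theorem mem_FK_of_fun (N : ℕ) [NeZero N] (x : LaurentSeries ℚ) (y : ℍ → ℂ) (hy : y ∈ Wh N)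
    (hinv : IsEqv N 1 y) (h1 : y ∈ perSub 1)
    (hx : TInf 1 ⟨y, h1⟩ = coeffMap (algebraMap ℚ ℂ) x) : x ∈ FK ℚ N := by
  apply S36.Descent.Rat.mem_of_coeffMap_mem (algebraMap ℚ ℂ) N x
  rw [← hx]
  exact mem_FK_complex N y hy hinv h1

end Fermat.Agent.S36.ModA
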