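import Fermat.Agent.S36.ModA.Defs

set_option autoImplicit false

/-!
# MOD36-A / task A-Cyclo : a universal field with a primitive `q`-th root of unity; twists

## A-Cyclo
`E = CyclotomicField q ℚ`, `ζE = IsCyclotomicExtension.zeta q ℚ E` (`zeta_spec`), `(zeta_spec.powerBasis ℚ).lift ζ _`; `minpoly ℚ ζE = cyclotomic q ℚ` (`Polynomial.cyclotomic_eq_minpoly_rat`), `IsPrimitiveRoot.isRoot_cyclotomic`.

`twist_eq`, `twist_Vz`: compare coefficients (`S24.twist_coeff`, `S28.twist_coeff`, `qExpand_coeff_mul`, `qExpand_coeff_of_not_dvd`; `Vz A d = qExpand A (d - 1 + 1)`).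
-/

noncomputable section

namespace Fermat.Agent.S36.ModA

open ModularCurve Fermat.Agent

theorem exists_cyclo_hom (q : ℕ) [NeZero q] : ∃ (E : Type) (_ : Field E) (ζE : Eˣ),
    IsPrimitiveRoot ζE q ∧ ∀ (F : Type) [Field F] [CharZero F] (ζ : Fˣ), IsPrimitiveRoot ζ q →
      ∃ τ : E →+* F, τ (ζE : E) = (ζ : F) := by
  have : NeZero ((q : ℕ) : ℚ) := ⟨Nat.cast_ne_zero.2 (NeZero.ne q)⟩
  have inst : IsCyclotomicExtension {q} ℚ (CyclotomicField q ℚ) :=
    CyclotomicField.isCyclotomicExtension q ℚ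
  have hz : IsPrimitiveRoot (IsCyclotomicExtension.zeta q ℚ (CyclotomicField q ℚ)) q :=
    IsCyclotomicExtension.zeta_spec q ℚ (CyclotomicField q ℚ)
  have hz0 : IsCyclotomicExtension.zeta q ℚ (CyclotomicField q ℚ) ≠ 0 :=
    hz.ne_zero (NeZero.ne q)
  refine ⟨CyclotomicField q ℚ, inferInstance, Units.mk0 _ hz0, ?_, ?_⟩
  · rw [← IsPrimitiveRoot.coe_units_iff]
    exact hz
  · intro F _ _ ζ hζ
    have hζ' : IsPrimitiveRoot (ζ : F) q := IsPrimitiveRoot.coe_units_iff.2 hζ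
    have hmin : minpoly ℚ (IsCyclotomicExtension.zeta q ℚ (CyclotomicField q ℚ))
        = Polynomial.cyclotomic q ℚ :=
      (Polynomial.cyclotomic_eq_minpoly_rat hz (NeZero.pos q)).symm
    have hroot : Polynomial.aeval (ζ : F) (minpoly ℚ (hz.powerBasis ℚ).gen) = 0 := by
      rw [IsPrimitiveRoot.powerBasis_gen, hmin, Polynomial.aeval_def, Polynomial.eval₂_eq_eval_map,
        Polynomial.map_cyclotomic]
      exact hζ'.isRoot_cyclotomic (NeZero.pos q)
    refine ⟨((hz.powerBasis ℚ).lift (ζ : F) hroot).toRingHom, ?_⟩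
    have := (hz.powerBasis ℚ).lift_gen (ζ : F) hroot
    rw [IsPrimitiveRoot.powerBasis_gen] at this
    exact this

theorem twist_eq (u : ℂˣ) (x : LaurentSeries ℂ) : S24.twist u x = S28.twist u x := by
  ext n
  rw [S24.twist_coeff, S28.twist_coeff, Units.val_zpow_eq_zpow_val]

theorem twist_Vz {A : Type*} [CommRing A] (u : Aˣ) {d : ℕ} (hd : 0 < d) (x : LaurentSeries A) :
    S28.twist u (Vz A d x) = Vz A d (S28.twist (u ^ d) x) := by
  have : NeZero d := ⟨hd.ne'⟩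
  rw [Vz_eq]
  ext n
  rw [S28.twist_coeff]
  by_cases hn : (d : ℤ) ∣ n
  · obtain ⟨k, rfl⟩ := hn
    rw [qExpand_coeff_mul, qExpand_coeff_mul, S28.twist_coeff, zpow_mul, zpow_natCast]
  · rw [qExpand_coeff_of_not_dvd _ _ hn, qExpand_coeff_of_not_dvd _ _ hn, mul_zero]

end Fermat.Agent.S36.ModA
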