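import Fermat.Agent.S34.Mod.Defs
import Fermat.Agent.NV.Level

set_option autoImplicit false

/-!
# S36, chapter MOD36-A (the weight one unit `Θ`) : definitions

`Θ₉(z) = η(z)³/η(3z)` (on `Γ₀(9)`, character `χ₋₃`), `Θ₄(z) = η(2z)¹⁰/(η(z)⁴ η(4z)⁴)` (on `Γ₀(4)`, character `χ₋₄`).
Everything downstream is stated for an abstract `D : WtOne r` (a nowhere vanishing holomorphic weight one form on `Γ₀(r)` with a
quadratic character and integral `q`-expansion `1 + …`); the two instances are `wt9 : WtOne 9`, `wt4 : WtOne 4` (`ModA/Inst.lean`).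

* `Vz A d`     : `f(Q) ↦ f(Q^d)` (total in `d`, junk for `d = 0`);
* `D.thS A`    : the `q`-series of `Θ` over `A`;  `D.thInv A` its inverse;
* `D.G A a`    : `Θ(Q^a)/Θ(Q)`;  `D.Gi A a` its inverse;
* `D.y a`      : the function `Θ(a z)/Θ(z)` on `ℍ`.
So `G1 = D.G K q`, `G2 = Vz K q (D.G K q)`.
-/

open UpperHalfPlane ModularForm CongruenceSubgroup
open scoped MatrixGroups Manifold

noncomputable section

namespace Fermat.Agent.S36.ModA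

open ModularCurve Fermat.Agent.S24 Fermat.Agent.NV Fermat.Agent.Mod

/-- `f(Q) ↦ f(Q^d)`, total in `d`. -/
def Vz (A : Type*) [CommRing A] (d : ℕ) : LaurentSeries A →+* LaurentSeries A := qExpand A (d - 1 + 1)

theorem Vz_eq (A : Type*) [CommRing A] (d : ℕ) [NeZero d] : Vz A d = qExpand A d := by
  ext1 f
  exact qExpand_congr (by have := NeZero.ne d; omega) f

/-- an integral power series as a Laurent series over `A`. -/
def ofZ (A : Type*) [CommRing A] (f : PowerSeries ℤ) : LaurentSeries A :=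
  HahnSeries.ofPowerSeries ℤ A (f.map (Int.castRingHom A))

/-- parameters of the eta quotient `η(d1 z)^p / (η(d2 z)^m η(d3 z)^n)`. -/
structure Par where
  d1 : ℕ
  p : ℕ
  d2 : ℕ
  m : ℕ
  d3 : ℕ
  n : ℕ

/-- `η(z)³/η(3z)`. -/
def par9 : Par := ⟨1, 3, 3, 1, 1, 0⟩

/-- `η(3z)³/η(z)`, the Fricke dual of `par9`. -/
def par9s : Par := ⟨3, 3, 1, 1, 1, 0⟩

/-- `η(2z)¹⁰/(η(z)⁴η(4z)⁴)`. -/
def par4 : Par := ⟨2, 10, 1, 4, 4, 4⟩

/-- the eta quotient as a function on `ℍ`. -/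
def EQ (P : Par) (z : ℍ) : ℂ :=
  eta (P.d1 * (z : ℂ)) ^ P.p / (eta (P.d2 * (z : ℂ)) ^ P.m * eta (P.d3 * (z : ℂ)) ^ P.n)

/-- its inverse. -/
def EQI (P : Par) (z : ℍ) : ℂ :=
  (eta (P.d2 * (z : ℂ)) ^ P.m * eta (P.d3 * (z : ℂ)) ^ P.n) / eta (P.d1 * (z : ℂ)) ^ P.p

/-- `∏ (1 - qⁿ)` on `ℍ`. -/
def Pf (z : ℍ) : ℂ := ∏' n : ℕ, (1 - eta_q n (z : ℂ))

/-- `∏ (1 - qⁿ)⁻¹` on `ℍ`. -/
def PfI (z : ℍ) : ℂ := (Pf z)⁻¹

/-- `f(X) ↦ f(X^d)` on integral power series. -/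
def expZ (d : ℕ) (f : PowerSeries ℤ) : PowerSeries ℤ :=
  PowerSeries.mk fun k => if d ∣ k then PowerSeries.coeff (k / d) f else 0

/-- the formal eta quotient (without the power of `q`). -/
def serP (P : Par) : PowerSeries ℤ :=
  expZ P.d1 etaProd ^ P.p * (expZ P.d2 (etaProd.invOfUnit 1) ^ P.m * expZ P.d3 (etaProd.invOfUnit 1) ^ P.n)

/-- the quadratic characters `χ₋₄` (for `r = 4`) and `χ₋₃` (otherwise). -/
def chiR (r : ℕ) (d : ℤ) : ℤ :=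
  if r = 4 then (if d % 4 = 1 then 1 else if d % 4 = 3 then -1 else 0)
  else (if d % 3 = 1 then 1 else if d % 3 = 2 then -1 else 0)

/-- `(1 0; N 1)`. -/
def UN (N : ℤ) : SL(2, ℤ) := ⟨!![1, 0; N, 1], by simp [Matrix.det_fin_two_of]⟩

/-- weight one automorphy of `Θ` under `γ` with multiplier `m`. -/
def Aut1 (Θ : ℍ → ℂ) (γ : SL(2, ℤ)) (m : ℂ) : Prop :=
  ∀ z : ℍ, Θ (γ • z) = m * (((γ 1 0 : ℤ) : ℂ) * (z : ℂ) + ((γ 1 1 : ℤ) : ℂ)) * Θ z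

/-- a nowhere vanishing holomorphic form of weight one on `Γ₀(r)` with quadratic character and `q`-expansion in `1 + Qℤ[[Q]]`,
whose 24-th power is a quotient of `Δ(δ z)`'s. -/
structure WtOne (r : ℕ) where
  /-- the form -/
  Th : ℍ → ℂ
  /-- its inverse -/
  ThI : ℍ → ℂ
  /-- the character -/
  chi : ℤ → ℤ
  /-- the `q`-series -/
  ser : PowerSeries ℤ
  mul_inv : ∀ z, Th z * ThI z = 1
  bd : IsBd 1 Th
  bdI : IsBd 1 ThI
  ser0 : PowerSeries.constantCoeff ser = 1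
  tinf : TInf 1 ⟨Th, bd.isPer⟩ = ofZ ℂ ser
  slash : ∀ γ ∈ Gamma0 r, Aut1 Th γ (chi (γ 1 1))
  chi_sq : ∀ d : ℤ, IsCoprime d (r : ℤ) → chi d * chi d = 1
  chi_mul : ∀ d e : ℤ, chi (d * e) = chi d * chi e
  chi_add : ∀ d k : ℤ, chi (d + r * k) = chi d
  wh24 : ∀ a : ℕ, 0 < a → (pre a 0 1 Th * ThI) ^ 24 ∈ Wh (r * a)
  int24 : ∀ a : ℕ, 0 < a →
    IntOver ℚ (jqModC ℚ) ((Vz ℚ a (ofZ ℚ ser) * ofZ ℚ (ser.invOfUnit 1)) ^ 24) ∧
    IntOver ℚ (jqModC ℚ) ((ofZ ℚ ser * Vz ℚ a (ofZ ℚ (ser.invOfUnit 1))) ^ 24)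
  whU : (fun z => Th z ^ 24 / discriminant z ^ 2) ∈ Wh r
  whUi : (fun z => discriminant z ^ 2 * ThI z ^ 24) ∈ Wh r
  intU : IntOver ℚ (jqModC ℚ) ((ofZ ℚ ser ^ 12 * S28.dInv ℚ) ^ 2) ∧
    IntOver ℚ (jqModC ℚ) ((ofZ ℚ (ser.invOfUnit 1) ^ 12 * S28.dS ℚ) ^ 2)

namespace WtOne

variable {r : ℕ} (D : WtOne r)

/-- the `q`-series of `Θ` over `A`. -/
def thS (A : Type*) [CommRing A] : LaurentSeries A := ofZ A D.ser

/-- the `q`-series of `Θ⁻¹` over `A`. -/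
def thInv (A : Type*) [CommRing A] : LaurentSeries A := ofZ A (D.ser.invOfUnit 1)

/-- `Θ(Q^a)/Θ(Q)`. -/
def G (A : Type*) [CommRing A] (a : ℕ) : LaurentSeries A := Vz A a (D.thS A) * D.thInv A

/-- `Θ(Q)/Θ(Q^a)`. -/
def Gi (A : Type*) [CommRing A] (a : ℕ) : LaurentSeries A := D.thS A * Vz A a (D.thInv A)

/-- `z ↦ Θ(a z)/Θ(z)`. -/
def y (a : ℕ) : ℍ → ℂ := pre a 0 1 D.Th * D.ThI

/-- `z ↦ Θ(z)/Θ(a z)`. -/
def yI (a : ℕ) : ℍ → ℂ := D.Th * pre a 0 1 D.ThI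

end WtOne

end Fermat.Agent.S36.ModA
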