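import Fermat.Agent.S36.ModA.EQser
import Fermat.Agent.NV.InvC

set_option autoImplicit false

/-!
# MOD36-A / task A-DeltaQ : `Δ(δ z)/Δ(z)` and its inverse lie in `Wh N` (`δ ∣ N`)

## A-DeltaQ  (`act_DQ`, `DQ_mem_Wh`, `DQI_mem_Wh`)
`mem_Wh : b ∈ Wh N ↔ ∀ g, act g b ∈ perSub N`, `act g f z = f (g⁻¹ • z)`.
`act_DQ`: COPY the proof of `S24.act_jd_eq_pre` (file `S24/ExpandB.lean`: Hermite normal form `expandB_triangular_int`, `γ = (r s; -z' x)`, `γ • (δ h z) = (A z + b)/D + k`), replacing the invariance of `jFun` by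
`S24.expandB_discriminant_smul (g) (z) : Δ (g • z) = (c z + d)^12 Δ z` (look at its exact statement) and `Δ (w + k) = Δ w`.  With `h = g⁻¹ = (a b; c d)`, `Q = c z + d`: the proof there shows `-z' (δ h z) + x = D / Q`, so
`Δ((A z + b)/D) = Δ(γ (δ h z)) = (D/Q)^12 Δ(δ h z)` and `Δ(h z) = Q^12 Δ(z)`, whence `Δ(δ h z)/Δ(h z) = D^(-12) Δ((A z + b)/D)/Δ(z)`.
`DQ_mem_Wh`: `pre A b D Δ ∈ perSub N` (`S24.isBd_pre (isBd_discriminant 1)`, `D ∣ δ ∣ N`), `1/Δ ∈ perSub N` (`IsPer` with `m = 1`: `(1/Δ) * Δ^1 = 1`), constants (`isBd_const`).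
`DQI_mem_Wh`: `Δ(z)/pre A b D Δ z = (Δ z ^ A / pre A b D Δ z) * (1/Δ z)^(A-1)`, `S24.expandC_isBd_quot`.

-/

open UpperHalfPlane ModularForm CongruenceSubgroup
open scoped MatrixGroups Manifold

noncomputable section

namespace Fermat.Agent.S36.ModA

open ModularCurve Fermat.Agent.S24 Fermat.Agent.NV

/-- `Δ(δ z)/Δ(z)`. -/
def DQ (δ : ℕ) : ℍ → ℂ := fun z => pre δ 0 1 discriminant z / discriminant z

/-- `Δ(z)/Δ(δ z)`. -/
def DQI (δ : ℕ) : ℍ → ℂ := fun z => discriminant z / pre δ 0 1 discriminant z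

theorem disc_smul (g : SL(2, ℤ)) (z : ℍ) :
    discriminant (g • z) = (((g 1 0 : ℤ) : ℂ) * (z : ℂ) + ((g 1 1 : ℤ) : ℂ)) ^ 12 * discriminant z := by
  rw [expandB_discriminant_smul]
  congr 1

theorem disc_add_int (w w' : ℍ) (k : ℤ) (h : (w' : ℂ) = w + k) : discriminant w' = discriminant w := by
  have h1 := disc_smul (ModularGroup.T ^ k) w
  have h2 : ModularGroup.T ^ k • w = w' := by
    apply UpperHalfPlane.ext
    rw [modular_T_zpow_smul, coe_vadd, h]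
    push_cast
    ring
  rw [h2] at h1
  rw [h1, ModularGroup.coe_T_zpow]
  simp

theorem act_DQ (g : SL(2, ℤ)) {δ : ℕ} (hδ : 0 < δ) :
    ∃ A b D : ℕ, A * D = δ ∧ 0 < A ∧ 0 < D ∧
      ∀ z : ℍ, act g (DQ δ) z = ((D : ℂ) ^ 12)⁻¹ * (pre A b D discriminant z / discriminant z) := by
  set h : SL(2, ℤ) := g⁻¹ with hh
  have hdet : h 0 0 * h 1 1 - h 0 1 * h 1 0 = 1 := by
    have := h.det_coe
    rwa [Matrix.det_fin_two] at this
  obtain ⟨r, s, z', x, A, D, hrs, hAD, hA, hD, h1, h2, h3, h4⟩ :=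
    expandB_triangular_int δ hδ.ne' _ _ _ _ hdet
  set B : ℤ := r * (δ * h 0 1) + s * h 1 1 with hB
  have hDz : (0 : ℤ) < D := by exact_mod_cast hD
  obtain ⟨b, hb⟩ : ∃ b : ℕ, (b : ℤ) = B % D := by
    exact ⟨(B % D).toNat, Int.toNat_of_nonneg (Int.emod_nonneg _ hDz.ne')⟩
  set k : ℤ := B / D with hk
  have hBk : B = b + D * k := by
    rw [hb, hk]; exact (Int.emod_add_mul_ediv B D).symm
  let γ : SL(2, ℤ) := ⟨!![r, s; -z', x], by rw [Matrix.det_fin_two_of]; linarith⟩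
  refine ⟨A, b, D, hAD, hA, hD, ?_⟩
  intro z
  rw [act_apply, ← hh]
  unfold DQ pre
  set w' : ℍ := ofComplex (((δ : ℂ) * ((h • z : ℍ) : ℂ) + (0 : ℕ)) / (1 : ℕ)) with hw'
  set w : ℍ := ofComplex (((A : ℂ) * z + b) / D) with hw
  have cw' : (w' : ℂ) = (δ : ℂ) * ((h • z : ℍ) : ℂ) := by
    rw [hw', expandB_coe_ofComplex δ 0 1 hδ one_pos]
    simp
  have cw : (w : ℂ) = ((A : ℂ) * z + b) / D := expandB_coe_ofComplex A b D hA hD z
  have hden := expandB_denom_ne h z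
  have hDc : (D : ℂ) ≠ 0 := by exact_mod_cast hD.ne'
  have g00 : γ 0 0 = r := rfl
  have g01 : γ 0 1 = s := rfl
  have g10 : γ 1 0 = -z' := rfl
  have g11 : γ 1 1 = x := rfl
  have e1 : (r : ℂ) * (δ * (h 0 0 : ℤ)) + s * (h 1 0 : ℤ) = A := by exact_mod_cast h1
  have e2 : -(z' : ℂ) * (δ * (h 0 0 : ℤ)) + x * (h 1 0 : ℤ) = 0 := by exact_mod_cast h2
  have e3 : -(z' : ℂ) * (δ * (h 0 1 : ℤ)) + x * (h 1 1 : ℤ) = D := by exact_mod_cast h3
  have e4 : (r : ℂ) * (δ * (h 0 1 : ℤ)) + s * (h 1 1 : ℤ) = b + D * k := by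
    rw [hB] at hBk
    exact_mod_cast hBk
  set P : ℂ := (h 0 0 : ℤ) * (z : ℂ) + (h 0 1 : ℤ) with hP
  set Q : ℂ := (h 1 0 : ℤ) * (z : ℂ) + (h 1 1 : ℤ) with hQ
  have n1 : (r : ℂ) * (δ * (P / Q)) + s = ((A : ℂ) * z + b + D * k) / Q := by
    rw [eq_div_iff hden]
    have : ((r : ℂ) * (δ * (P / Q)) + s) * Q = r * (δ * P) + s * Q := by field_simp
    rw [this, hP, hQ]
    linear_combination (z : ℂ) * e1 + e4
  have n2 : ((-z' : ℤ) : ℂ) * (δ * (P / Q)) + x = (D : ℂ) / Q := by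
    rw [eq_div_iff hden]
    have : (((-z' : ℤ) : ℂ) * (δ * (P / Q)) + x) * Q = -(z' : ℂ) * (δ * P) + x * Q := by
      push_cast
      field_simp
    rw [this, hP, hQ]
    linear_combination (z : ℂ) * e2 + e3
  have hsm : ((h • z : ℍ) : ℂ) = P / Q := expandB_coe_smul h z
  -- Δ (γ w') = Δ w
  have a1 : discriminant (γ • w') = discriminant w := by
    apply disc_add_int _ _ k
    rw [expandB_coe_smul, cw, cw', hsm, g00, g01, g10, g11, n1, n2]
    field_simp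
  have a2 := disc_smul γ w'
  rw [a1, g10, g11, cw', hsm, n2] at a2
  have a3 := disc_smul h z
  rw [← hQ] at a3
  rw [a3, a2]
  have hΔ := discriminant_ne_zero z
  have hΔ' := discriminant_ne_zero w'
  field_simp

theorem DQ_mem_Wh {N δ : ℕ} [NeZero N] (h : δ ∣ N) : DQ δ ∈ Wh N := by
  have hN : 0 < N := Nat.pos_of_ne_zero (NeZero.ne N)
  have hδ : 0 < δ := Nat.pos_of_dvd_of_pos h hN
  rw [mem_Wh]
  intro g
  obtain ⟨A, b, D, hAD, hA, hD, hz⟩ := act_DQ g hδ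
  have hDN : D ∣ N := (Dvd.intro_left A hAD).trans h
  refine ⟨1, ?_⟩
  have h1 : IsBd N (pre A b D discriminant) := isBd_pre (isBd_discriminant 1) hA hD hDN
  have h2 := (isBd_const N ((D : ℂ) ^ 12)⁻¹).mul h1
  convert h2 using 1
  funext z
  simp only [Pi.mul_apply, pow_one]
  rw [hz z]
  have := discriminant_ne_zero z
  field_simp

theorem DQI_mem_Wh {N δ : ℕ} [NeZero N] (h : δ ∣ N) : DQI δ ∈ Wh N := by
  have hN : 0 < N := Nat.pos_of_ne_zero (NeZero.ne N)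
  have hδ : 0 < δ := Nat.pos_of_dvd_of_pos h hN
  rw [mem_Wh]
  intro g
  obtain ⟨A, b, D, hAD, hA, hD, hz⟩ := act_DQ g hδ
  have hDN : D ∣ N := (Dvd.intro_left A hAD).trans h
  refine ⟨A - 1, ?_⟩
  have h1 := expandC_isBd_quot (N := N) b hA hD hDN
  have h2 := (isBd_const N ((D : ℂ) ^ 12)).mul h1
  convert h2 using 1
  funext z
  simp only [Pi.mul_apply, Pi.pow_apply]
  have e1 : act g (DQI δ) z = (act g (DQ δ) z)⁻¹ := by
    simp only [act_apply, DQ, DQI]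
    rw [inv_div]
  rw [e1, hz z]
  have hΔ := discriminant_ne_zero z
  have hΔ' : pre A b D discriminant z ≠ 0 := discriminant_ne_zero _
  have hDc : (D : ℂ) ≠ 0 := by exact_mod_cast hD.ne'
  obtain ⟨A', rfl⟩ : ∃ A', A = A' + 1 := ⟨A - 1, by omega⟩
  simp only [Nat.add_sub_cancel]
  field_simp
  ring

end Fermat.Agent.S36.ModA
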