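import Fermat.Agent.S36.ModA.Defs

set_option autoImplicit false

/-!
# MOD36-A / task A-Eta : the two transformation laws of `η` and of the eta quotients `EQ P`

MATHLIB: `ModularForm.eta z = 𝕢 24 z * ∏' n, (1 - eta_q n z)` (`Function.Periodic.qParam`, `eta_q n z = 𝕢 1 z ^ (n+1)`),
`ModularForm.eta_comp_eq_csqrt_I_inv : upperHalfPlaneSet.EqOn (η ∘ (-1 / ·)) ((sqrt I)⁻¹ • (sqrt * η))`,
`sqrt_eq_exp : z ≠ 0 → Complex.sqrt z = exp (log z / 2)`, `Complex.log_ofReal_mul : 0 < r → x ≠ 0 → log (r * x) = Real.log r + log x`,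
`ModularForm.eta_ne_zero`.

* `eta_add_one`: `𝕢 1 (z+1) = 𝕢 1 z` (`Complex.exp_periodic`), `𝕢 24 (z+1) = exp (2πi/24) 𝕢 24 z` (`Complex.exp_add`).
* `exists_eta_fricke`: `κ = (sqrt I)⁻¹`, `c n = exp (Real.log n / 2)`, `s z = sqrt z`: apply `eta_comp_eq_csqrt_I_inv` at `n z ∈ ℍ`.
* `EQ_fricke`: `d * (-1 / (N z)) = -1 / ((N / d) z)`; the factor is
  `κ^(p-m-n) c(N/d1)^p / (c(N/d2)^m c(N/d3)^n) * s z ^ (p-m-n)`, `p - m - n = 2`, `s z ^ 2 = z`.
-/

open UpperHalfPlane ModularForm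
open scoped Real

noncomputable section

namespace Fermat.Agent.S36.ModA

theorem eta_add_one (z : ℂ) : eta (z + 1) = Complex.exp (2 * π * Complex.I / 24) * eta z := by
  have h1 : ∀ n, eta_q n (z + 1) = eta_q n z := by
    intro n
    simp only [eta_q, Function.Periodic.qParam]
    congr 1
    have : 2 * (π : ℂ) * Complex.I * (z + 1) / ((1 : ℝ) : ℂ) = 2 * π * Complex.I * z / ((1 : ℝ) : ℂ) + 2 * π * Complex.I := by
      push_cast; ring
    rw [this, Complex.exp_periodic]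
  have h2 : Function.Periodic.qParam 24 (z + 1) = Complex.exp (2 * π * Complex.I / 24) * Function.Periodic.qParam 24 z := by
    simp only [Function.Periodic.qParam]
    rw [← Complex.exp_add]
    congr 1
    push_cast
    ring
  unfold eta
  simp only [h1]
  rw [h2, mul_assoc]

theorem eta_add_nat (d : ℕ) (z : ℂ) : eta (z + d) = Complex.exp (2 * π * Complex.I * d / 24) * eta z := by
  induction d with
  | zero => simp
  | succ d ih =>
    have : z + ((d + 1 : ℕ) : ℂ) = (z + d) + 1 := by push_cast; ring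
    rw [this, eta_add_one, ih, ← mul_assoc, ← Complex.exp_add]
    congr 2
    push_cast
    ring

theorem exists_eta_fricke : ∃ (κ : ℂ) (c : ℕ → ℂ) (s : ℍ → ℂ), κ ≠ 0 ∧ (∀ n, 0 < n → c n ≠ 0) ∧
    (∀ z : ℍ, s z ^ 2 = (z : ℂ)) ∧
    ∀ (n : ℕ) (z : ℍ), 0 < n → eta (-1 / (n * (z : ℂ))) = κ * c n * s z * eta (n * (z : ℂ)) := by
  refine ⟨(Complex.sqrt Complex.I)⁻¹, fun n => Complex.exp (Real.log n / 2), fun z => Complex.sqrt z, ?_, ?_, ?_, ?_⟩
  · rw [sqrt_eq_exp Complex.I_ne_zero]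
    exact inv_ne_zero (Complex.exp_ne_zero _)
  · intro n _
    exact Complex.exp_ne_zero _
  · intro z
    show Complex.sqrt (z : ℂ) ^ 2 = z
    rw [sqrt_eq_exp z.ne_zero, ← Complex.exp_nat_mul]
    have : ((2 : ℕ) : ℂ) * (Complex.log z / 2) = Complex.log z := by push_cast; ring
    rw [this, Complex.exp_log z.ne_zero]
  · intro n z hn
    have hn' : (0 : ℝ) < n := by exact_mod_cast hn
    have hz : (n : ℂ) * (z : ℂ) ∈ upperHalfPlaneSet := by
      show 0 < ((n : ℂ) * (z : ℂ)).im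
      have : ((n : ℂ) * (z : ℂ)).im = n * z.im := by
        simp
      rw [this]
      exact mul_pos hn' z.im_pos
    have h := eta_comp_eq_csqrt_I_inv hz
    simp only [Function.comp_apply, Pi.smul_apply, Pi.mul_apply, smul_eq_mul] at h
    rw [h]
    show _ = (Complex.sqrt Complex.I)⁻¹ * Complex.exp (Real.log n / 2) * Complex.sqrt (z : ℂ) * eta (n * (z : ℂ))
    have hne : (n : ℂ) * (z : ℂ) ≠ 0 := mul_ne_zero (by exact_mod_cast hn.ne') z.ne_zero
    rw [sqrt_eq_exp hne, sqrt_eq_exp z.ne_zero]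
    have hl : Complex.log ((n : ℂ) * (z : ℂ)) = Real.log n + Complex.log z := by
      have := Complex.log_ofReal_mul hn' z.ne_zero
      simpa using this
    rw [hl, add_div, Complex.exp_add]
    ring

/-- the Fricke involution `z ↦ -1/(N z)`. -/
def frk (N : ℕ) (z : ℍ) : ℍ := ofComplex (-1 / (N * (z : ℂ)))

theorem frk_im_pos {N : ℕ} (hN : 0 < N) (z : ℍ) : 0 < (-1 / ((N : ℂ) * (z : ℂ))).im := by
  have hN' : (0 : ℝ) < N := by exact_mod_cast hN
  have h1 : (-1 / ((N : ℂ) * (z : ℂ))).im = (N * z.im) / Complex.normSq ((N : ℂ) * (z : ℂ)) := by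
    rw [Complex.div_im]
    simp
    ring
  rw [h1]
  have hne : (N : ℂ) * (z : ℂ) ≠ 0 := mul_ne_zero (by exact_mod_cast hN.ne') z.ne_zero
  exact div_pos (mul_pos hN' z.im_pos) (Complex.normSq_pos.mpr hne)

theorem coe_frk {N : ℕ} (hN : 0 < N) (z : ℍ) : ((frk N z : ℍ) : ℂ) = -1 / (N * (z : ℂ)) := by
  rw [frk, ofComplex_apply_of_im_pos (frk_im_pos hN z)]

theorem frk_frk {N : ℕ} (hN : 0 < N) (z : ℍ) : frk N (frk N z) = z := by
  apply UpperHalfPlane.ext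
  rw [coe_frk hN, coe_frk hN]
  have hN' : (N : ℂ) ≠ 0 := by exact_mod_cast hN.ne'
  have := z.ne_zero
  field_simp

theorem mul_mem_uhp {d : ℕ} (hd : 0 < d) (z : ℍ) : (d : ℂ) * (z : ℂ) ∈ upperHalfPlaneSet := by
  show 0 < ((d : ℂ) * (z : ℂ)).im
  have : ((d : ℂ) * (z : ℂ)).im = d * z.im := by simp
  rw [this]
  exact mul_pos (by exact_mod_cast hd) z.im_pos

theorem eta_mul_ne_zero {d : ℕ} (hd : 0 < d) (z : ℍ) : eta (d * (z : ℂ)) ≠ 0 :=
  eta_ne_zero (mul_mem_uhp hd z)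

theorem EQ_ne_zero (P : Par) (h1 : 0 < P.d1) (h2 : 0 < P.d2) (h3 : 0 < P.d3) (z : ℍ) : EQ P z ≠ 0 := by
  unfold EQ
  exact div_ne_zero (pow_ne_zero _ (eta_mul_ne_zero h1 z))
    (mul_ne_zero (pow_ne_zero _ (eta_mul_ne_zero h2 z)) (pow_ne_zero _ (eta_mul_ne_zero h3 z)))

theorem EQ_mul_EQI (P : Par) (h1 : 0 < P.d1) (h2 : 0 < P.d2) (h3 : 0 < P.d3) (z : ℍ) :
    EQ P z * EQI P z = 1 := by
  unfold EQ EQI
  have a1 := pow_ne_zero P.p (eta_mul_ne_zero h1 z)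
  have a2 := pow_ne_zero P.m (eta_mul_ne_zero h2 z)
  have a3 := pow_ne_zero P.n (eta_mul_ne_zero h3 z)
  rw [div_mul_div_comm, mul_comm, div_self (mul_ne_zero (mul_ne_zero a2 a3) a1)]

/-- translation law. -/
theorem EQ_T (P : Par) (k : ℤ) (hk : ((P.d1 * P.p : ℕ) : ℤ) = (P.d2 * P.m + P.d3 * P.n : ℕ) + k) (z w : ℍ)
    (h : (w : ℂ) = z + 1) : EQ P w = Complex.exp (2 * π * Complex.I * k / 24) * EQ P z := by
  have key : ∀ d : ℕ, eta (d * (w : ℂ)) = Complex.exp (2 * π * Complex.I * d / 24) * eta (d * (z : ℂ)) := by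
    intro d
    rw [h, mul_add, mul_one, eta_add_nat]
  unfold EQ
  rw [key, key, key, mul_pow, mul_pow, mul_pow, ← Complex.exp_nat_mul, ← Complex.exp_nat_mul,
    ← Complex.exp_nat_mul]
  have e1 : Complex.exp ((P.p : ℂ) * (2 * π * Complex.I * P.d1 / 24)) =
      Complex.exp (2 * π * Complex.I * k / 24) * (Complex.exp ((P.m : ℂ) * (2 * π * Complex.I * P.d2 / 24)) *
        Complex.exp ((P.n : ℂ) * (2 * π * Complex.I * P.d3 / 24))) := by
    rw [← Complex.exp_add, ← Complex.exp_add]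
    congr 1
    have hk' : ((P.d1 : ℂ) * P.p) = (P.d2 * P.m + P.d3 * P.n) + k := by exact_mod_cast hk
    linear_combination (2 * π * Complex.I / 24) * hk'
  rw [e1]
  have x2 := Complex.exp_ne_zero ((P.m : ℂ) * (2 * π * Complex.I * P.d2 / 24))
  have x3 := Complex.exp_ne_zero ((P.n : ℂ) * (2 * π * Complex.I * P.d3 / 24))
  by_cases hz : eta (P.d2 * (z : ℂ)) ^ P.m * eta (P.d3 * (z : ℂ)) ^ P.n = 0
  · have : Complex.exp ((P.m : ℂ) * (2 * π * Complex.I * P.d2 / 24)) * eta (P.d2 * (z : ℂ)) ^ P.m *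
        (Complex.exp ((P.n : ℂ) * (2 * π * Complex.I * P.d3 / 24)) * eta (P.d3 * (z : ℂ)) ^ P.n) = 0 := by
      linear_combination (Complex.exp ((P.m : ℂ) * (2 * π * Complex.I * P.d2 / 24)) * Complex.exp ((P.n : ℂ) * (2 * π * Complex.I * P.d3 / 24))) * hz
    rw [this, hz]
    simp
  · have y2 : eta (P.d2 * (z : ℂ)) ^ P.m ≠ 0 := left_ne_zero_of_mul hz
    have y3 : eta (P.d3 * (z : ℂ)) ^ P.n ≠ 0 := right_ne_zero_of_mul hz
    field_simp

/-- Fricke law for eta quotients of weight one. -/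
theorem EQ_fricke (P : Par) (N : ℕ) (hN : 0 < N) (h1 : P.d1 ∣ N) (h2 : P.d2 ∣ N) (h3 : P.d3 ∣ N)
    (hw : P.p = P.m + P.n + 2) :
    ∃ κ : ℂ, κ ≠ 0 ∧ ∀ z : ℍ, EQ P (frk N z) =
      κ * (z : ℂ) * EQ ⟨N / P.d1, P.p, N / P.d2, P.m, N / P.d3, P.n⟩ z := by
  obtain ⟨κ, c, s, hκ, hc, hs, hη⟩ := exists_eta_fricke
  have key : ∀ d : ℕ, d ∣ N → ∀ z : ℍ, eta (d * ((frk N z : ℍ) : ℂ)) =
      κ * c (N / d) * s z * eta ((N / d : ℕ) * (z : ℂ)) := by
    intro d hd z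
    obtain ⟨e, rfl⟩ := hd
    have hd0 : 0 < d := Nat.pos_of_mul_pos_right hN |> fun _ => Nat.pos_of_ne_zero (by rintro rfl; simp at hN)
    have he0 : 0 < e := Nat.pos_of_ne_zero (by rintro rfl; simp at hN)
    rw [Nat.mul_div_cancel_left _ hd0, ← hη e z he0, coe_frk hN]
    congr 1
    have hd' : (d : ℂ) ≠ 0 := by exact_mod_cast hd0.ne'
    have he' : (e : ℂ) ≠ 0 := by exact_mod_cast he0.ne'
    have := z.ne_zero
    push_cast
    field_simp
  have pos : ∀ d : ℕ, d ∣ N → 0 < N / d := fun d hd => Nat.div_pos (Nat.le_of_dvd hN hd) (Nat.pos_of_dvd_of_pos hd hN)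
  refine ⟨κ ^ 2 * (c (N / P.d1) ^ P.p / (c (N / P.d2) ^ P.m * c (N / P.d3) ^ P.n)), ?_, ?_⟩
  · exact mul_ne_zero (pow_ne_zero _ hκ) (div_ne_zero (pow_ne_zero _ (hc _ (pos _ h1)))
      (mul_ne_zero (pow_ne_zero _ (hc _ (pos _ h2))) (pow_ne_zero _ (hc _ (pos _ h3)))))
  · intro z
    unfold EQ
    rw [key _ h1, key _ h2, key _ h3]
    have c2 := pow_ne_zero P.m (hc _ (pos _ h2))
    have c3 := pow_ne_zero P.n (hc _ (pos _ h3))
    have y2 := pow_ne_zero P.m (eta_mul_ne_zero (pos _ h2) z)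
    have y3 := pow_ne_zero P.n (eta_mul_ne_zero (pos _ h3) z)
    have hs0 : s z ≠ 0 := by
      intro h0
      have := hs z
      rw [h0] at this
      exact z.ne_zero (by simpa using this.symm)
    have k2 := pow_ne_zero P.m hκ
    have k3 := pow_ne_zero P.n hκ
    have s2 := pow_ne_zero P.m hs0
    have s3 := pow_ne_zero P.n hs0
    have y1 : ∀ (a b c' d : ℂ) (k : ℕ), (a * b * c' * d) ^ k = a ^ k * b ^ k * c' ^ k * d ^ k := by
      intro a b c' d k; rw [mul_pow, mul_pow, mul_pow]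
    rw [y1, y1, y1]
    have hκp : κ ^ P.p = κ ^ P.m * κ ^ P.n * κ ^ 2 := by rw [hw, pow_add, pow_add]
    have hsp : s z ^ P.p = s z ^ P.m * s z ^ P.n * (z : ℂ) := by rw [hw, pow_add, pow_add, hs z]
    rw [hκp, hsp]
    generalize eta (((N / P.d1 : ℕ) : ℂ) * (z : ℂ)) ^ P.p = E1 at *
    generalize eta (((N / P.d2 : ℕ) : ℂ) * (z : ℂ)) ^ P.m = E2 at *
    generalize eta (((N / P.d3 : ℕ) : ℂ) * (z : ℂ)) ^ P.n = E3 at *
    generalize c (N / P.d1) ^ P.p = C1 at *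
    generalize c (N / P.d2) ^ P.m = C2 at *
    generalize c (N / P.d3) ^ P.n = C3 at *
    generalize κ ^ P.m = K2 at *
    generalize κ ^ P.n = K3 at *
    generalize s z ^ P.m = S2 at *
    generalize s z ^ P.n = S3 at *
    field_simp

end Fermat.Agent.S36.ModA
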