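import Fermat.Agent.S36.ModA.Pf
import Fermat.Agent.S36.ModA.Eta

set_option autoImplicit false

/-!
# MOD36-A / task A-EQser : balanced eta quotients (`d1 p = d2 m + d3 n`) are bounded at `i∞`, with `q`-expansion `serP P`

`eta w = 𝕢 24 w * ∏' n, (1 - eta_q n w)` (definition), and for `0 < d`: `pre d 0 1 Pf z = ∏' n, (1 - eta_q n (d z))`
(`S24.expandB_coe_ofComplex d 0 1 hd one_pos z : ↑(ofComplex ((d z + 0)/1)) = (d z + 0)/1`).
The factors `𝕢 24 (d z) = exp (2πi d z/24)` cancel because `d1 p = d2 m + d3 n` (`← Complex.exp_nat_mul`, `← Complex.exp_add`).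
Then `IsBd.mul`, `IsBd.pow`, `S24.isBd_pre (hf : IsBd 1 f) ha hδ hδN : IsBd N (pre a b δ f)`; `NV.TInf_pre` (with `b = 0`, `δ = 1`, `M = 1`: `rootU 1 0 = 1` is `S24.expandC_rootU_zero`, `S24.twist_one`),
`TInf` is a ring hom on `perSub 1` (products of subtypes are `rfl`), `Vz_ofZ`, `ofZ_mul`, `ofZ_pow`, `TInf_Pf`, `TInf_PfI`.
-/

open UpperHalfPlane ModularForm
open scoped MatrixGroups Manifold

noncomputable section

namespace Fermat.Agent.S36.ModA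

open ModularCurve Fermat.Agent.S24 Fermat.Agent.NV

/-- positivity and balance of the parameters. -/
structure Par.Good (P : Par) : Prop where
  h1 : 0 < P.d1
  h2 : 0 < P.d2
  h3 : 0 < P.d3
  bal : P.d1 * P.p = P.d2 * P.m + P.d3 * P.n

theorem good9 : par9.Good := ⟨by decide, by decide, by decide, by decide⟩

theorem good4 : par4.Good := ⟨by decide, by decide, by decide, by decide⟩

namespace EQser

theorem pre_Pf {d : ℕ} (hd : 0 < d) (z : ℍ) :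
    pre d 0 1 Pf z = ∏' n : ℕ, (1 - eta_q n ((d : ℂ) * (z : ℂ))) := by
  rw [pre, Pf, expandB_coe_ofComplex d 0 1 hd one_pos]
  simp

theorem pre_PfI {d : ℕ} (hd : 0 < d) (z : ℍ) :
    pre d 0 1 PfI z = (∏' n : ℕ, (1 - eta_q n ((d : ℂ) * (z : ℂ))))⁻¹ := by
  rw [← pre_Pf hd]
  rfl

theorem mul_mem {d : ℕ} (hd : 0 < d) (z : ℍ) : 0 < ((d : ℂ) * (z : ℂ)).im := by
  have : ((d : ℂ) * (z : ℂ)).im = d * (z : ℂ).im := by simp
  rw [this]
  exact mul_pos (by exact_mod_cast hd) z.2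

theorem q24_bal (P : Par) (hP : P.Good) (w : ℂ) :
    Function.Periodic.qParam 24 ((P.d1 : ℂ) * w) ^ P.p =
      Function.Periodic.qParam 24 ((P.d2 : ℂ) * w) ^ P.m *
        Function.Periodic.qParam 24 ((P.d3 : ℂ) * w) ^ P.n := by
  simp only [Function.Periodic.qParam]
  rw [← Complex.exp_nat_mul, ← Complex.exp_nat_mul, ← Complex.exp_nat_mul, ← Complex.exp_add]
  congr 1
  have hb : (P.d1 : ℂ) * P.p = P.d2 * P.m + P.d3 * P.n := by exact_mod_cast hP.bal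
  push_cast
  linear_combination (2 * Real.pi * Complex.I * w / 24) * hb

end EQser

theorem EQ_eq_Pf (P : Par) (hP : P.Good) :
    EQ P = pre P.d1 0 1 Pf ^ P.p * (pre P.d2 0 1 PfI ^ P.m * pre P.d3 0 1 PfI ^ P.n) := by
  funext z
  simp only [Pi.mul_apply, Pi.pow_apply, EQser.pre_Pf hP.h1, EQser.pre_PfI hP.h2,
    EQser.pre_PfI hP.h3, EQ, eta, mul_pow, EQser.q24_bal P hP]
  have a2 : Function.Periodic.qParam 24 ((P.d2 : ℂ) * (z : ℂ)) ≠ 0 :=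
    Function.Periodic.qParam_ne_zero _
  have a3 : Function.Periodic.qParam 24 ((P.d3 : ℂ) * (z : ℂ)) ≠ 0 :=
    Function.Periodic.qParam_ne_zero _
  have b2 := eta_tprod_ne_zero (EQser.mul_mem hP.h2 z)
  have b3 := eta_tprod_ne_zero (EQser.mul_mem hP.h3 z)
  generalize Function.Periodic.qParam 24 ((P.d2 : ℂ) * (z : ℂ)) = A2 at *
  generalize Function.Periodic.qParam 24 ((P.d3 : ℂ) * (z : ℂ)) = A3 at *
  generalize ∏' n : ℕ, (1 - eta_q n ((P.d1 : ℂ) * (z : ℂ))) = B1 at *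
  generalize ∏' n : ℕ, (1 - eta_q n ((P.d2 : ℂ) * (z : ℂ))) = B2 at *
  generalize ∏' n : ℕ, (1 - eta_q n ((P.d3 : ℂ) * (z : ℂ))) = B3 at *
  simp only [inv_pow]
  field_simp

theorem EQI_eq_Pf (P : Par) (hP : P.Good) :
    EQI P = pre P.d1 0 1 PfI ^ P.p * (pre P.d2 0 1 Pf ^ P.m * pre P.d3 0 1 Pf ^ P.n) := by
  funext z
  simp only [Pi.mul_apply, Pi.pow_apply, EQser.pre_PfI hP.h1, EQser.pre_Pf hP.h2,
    EQser.pre_Pf hP.h3, EQI, eta, mul_pow, EQser.q24_bal P hP]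
  have a2 : Function.Periodic.qParam 24 ((P.d2 : ℂ) * (z : ℂ)) ≠ 0 :=
    Function.Periodic.qParam_ne_zero _
  have a3 : Function.Periodic.qParam 24 ((P.d3 : ℂ) * (z : ℂ)) ≠ 0 :=
    Function.Periodic.qParam_ne_zero _
  have b1 := eta_tprod_ne_zero (EQser.mul_mem hP.h1 z)
  generalize Function.Periodic.qParam 24 ((P.d2 : ℂ) * (z : ℂ)) = A2 at *
  generalize Function.Periodic.qParam 24 ((P.d3 : ℂ) * (z : ℂ)) = A3 at *
  generalize ∏' n : ℕ, (1 - eta_q n ((P.d1 : ℂ) * (z : ℂ))) = B1 at *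
  generalize ∏' n : ℕ, (1 - eta_q n ((P.d2 : ℂ) * (z : ℂ))) = B2 at *
  generalize ∏' n : ℕ, (1 - eta_q n ((P.d3 : ℂ) * (z : ℂ))) = B3 at *
  simp only [inv_pow]
  field_simp

theorem isBd_EQ (P : Par) (hP : P.Good) : IsBd 1 (EQ P) := by
  rw [EQ_eq_Pf P hP]
  exact ((isBd_pre isBd_Pf hP.h1 one_pos (one_dvd 1)).pow _).mul
    (((isBd_pre isBd_PfI hP.h2 one_pos (one_dvd 1)).pow _).mul
      ((isBd_pre isBd_PfI hP.h3 one_pos (one_dvd 1)).pow _))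

theorem isBd_EQI (P : Par) (hP : P.Good) : IsBd 1 (EQI P) := by
  rw [EQI_eq_Pf P hP]
  exact ((isBd_pre isBd_PfI hP.h1 one_pos (one_dvd 1)).pow _).mul
    (((isBd_pre isBd_Pf hP.h2 one_pos (one_dvd 1)).pow _).mul
      ((isBd_pre isBd_Pf hP.h3 one_pos (one_dvd 1)).pow _))

theorem TInf_pre_one {f : ℍ → ℂ} (hf : f ∈ perSub 1) {d : ℕ} (hd : 0 < d) :
    TInf 1 ⟨pre d 0 1 f, pre_mem_perSub hf hd one_pos (one_dvd 1)⟩ = Vz ℂ d (TInf 1 ⟨f, hf⟩) := by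
  have : NeZero (d * (1 / 1)) := ⟨by simpa using hd.ne'⟩
  have h := NV.TInf_pre (b := 0) hf (M := 1) hd one_pos (one_dvd 1)
  rw [Nat.cast_zero, NV.rootU_zero, twist_one] at h
  rw [h, Vz]
  exact Mod.EtaExp.qExpand_congr (by simp; omega) _

theorem TInf_EQ (P : Par) (hP : P.Good) : TInf 1 ⟨EQ P, (isBd_EQ P hP).isPer⟩ = ofZ ℂ (serP P) := by
  have h1 : (⟨EQ P, (isBd_EQ P hP).isPer⟩ : perSub 1) =
      ⟨pre P.d1 0 1 Pf, pre_mem_perSub isBd_Pf.isPer hP.h1 one_pos (one_dvd 1)⟩ ^ P.p *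
        (⟨pre P.d2 0 1 PfI, pre_mem_perSub isBd_PfI.isPer hP.h2 one_pos (one_dvd 1)⟩ ^ P.m *
          ⟨pre P.d3 0 1 PfI, pre_mem_perSub isBd_PfI.isPer hP.h3 one_pos (one_dvd 1)⟩ ^ P.n) :=
    Subtype.ext (EQ_eq_Pf P hP)
  rw [h1, map_mul, map_mul, map_pow, map_pow, map_pow, TInf_pre_one isBd_Pf.isPer hP.h1,
    TInf_pre_one isBd_PfI.isPer hP.h2, TInf_pre_one isBd_PfI.isPer hP.h3, TInf_Pf, TInf_PfI, Vz_ofZ ℂ hP.h1, Vz_ofZ ℂ hP.h2, Vz_ofZ ℂ hP.h3, serP, ofZ_mul, ofZ_mul,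
    ofZ_pow, ofZ_pow, ofZ_pow]

theorem constantCoeff_serP (P : Par) : PowerSeries.constantCoeff (serP P) = 1 := by
  rw [serP, map_mul, map_mul, map_pow, map_pow, map_pow, constantCoeff_expZ, constantCoeff_expZ,
    constantCoeff_expZ, constantCoeff_etaProd, PowerSeries.constantCoeff_invOfUnit]
  simp

end Fermat.Agent.S36.ModA
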