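import Fermat.Agent.S36.ModA.Pf

set_option autoImplicit false

/-!
# MOD36-A / task A-GSer (formal) : the series `D.G A a = Θ(Q^a)/Θ(Q)`

Only `Vz_G` is left: `Vz b (Vz a Θ * Θ⁻¹) = Vz (a b) Θ * Vz b Θ⁻¹` and `G (a b) * Gi b = Vz (a b) Θ * Θ⁻¹ * (Θ * Vz b Θ⁻¹)`; `Vz A b (Vz A a x) = Vz A (a * b) x` from `qExpand_qExpand` (`Vz_eq` with `NeZero` instances, `qExpand_congr`).
-/

noncomputable section

namespace Fermat.Agent.S36.ModA

open ModularCurve

namespace WtOne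

variable {r : ℕ} (D : WtOne r)

theorem coeffMap_thS {A B : Type*} [CommRing A] [CommRing B] (σ : A →+* B) :
    coeffMap σ (D.thS A) = D.thS B := coeffMap_ofZ σ _

theorem coeffMap_thInv {A B : Type*} [CommRing A] [CommRing B] (σ : A →+* B) :
    coeffMap σ (D.thInv A) = D.thInv B := coeffMap_ofZ σ _

theorem coeffMap_G {A B : Type*} [CommRing A] [CommRing B] (σ : A →+* B) (a : ℕ) :
    coeffMap σ (D.G A a) = D.G B a := by
  rw [G, G, map_mul, coeffMap_Vz, coeffMap_thS, coeffMap_thInv]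

theorem coeffMap_Gi {A B : Type*} [CommRing A] [CommRing B] (σ : A →+* B) (a : ℕ) :
    coeffMap σ (D.Gi A a) = D.Gi B a := by
  rw [Gi, Gi, map_mul, coeffMap_Vz, coeffMap_thS, coeffMap_thInv]

theorem thS_mul_thInv (A : Type*) [CommRing A] : D.thS A * D.thInv A = 1 :=
  ofZ_mul_inv A D.ser D.ser0

theorem G_mul_Gi (A : Type*) [CommRing A] (a : ℕ) : D.G A a * D.Gi A a = 1 := by
  have h1 := D.thS_mul_thInv A
  have h2 : Vz A a (D.thS A) * Vz A a (D.thInv A) = 1 := by rw [← map_mul, h1, map_one]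
  calc D.G A a * D.Gi A a
      = (D.thS A * D.thInv A) * (Vz A a (D.thS A) * Vz A a (D.thInv A)) := by rw [G, Gi]; ring
    _ = 1 := by rw [h1, h2, one_mul]

/-- `G2 = V_b G_a = G_{ab}/G_b`. -/
theorem Vz_G (A : Type*) [CommRing A] {a b : ℕ} (ha : 0 < a) (hb : 0 < b) :
    Vz A b (D.G A a) = D.G A (a * b) * D.Gi A b := by
  have : NeZero a := ⟨ha.ne'⟩
  have : NeZero b := ⟨hb.ne'⟩
  have : NeZero (a * b) := ⟨(Nat.mul_pos ha hb).ne'⟩
  have : NeZero (b * a) := ⟨(Nat.mul_pos hb ha).ne'⟩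
  have h0 : ∀ x : LaurentSeries A, Vz A b (Vz A a x) = Vz A (a * b) x := by
    intro x
    rw [Vz_eq, Vz_eq, Vz_eq, qExpand_qExpand]
    exact ModularCurve.qExpand_congr (Nat.mul_comm b a) x
  have h1 := D.thS_mul_thInv A
  calc Vz A b (D.G A a) = Vz A (a * b) (D.thS A) * Vz A b (D.thInv A) := by
        rw [G, map_mul, h0]
    _ = Vz A (a * b) (D.thS A) * Vz A b (D.thInv A) * (D.thS A * D.thInv A) := by
        rw [h1, mul_one]
    _ = D.G A (a * b) * D.Gi A b := by rw [G, Gi]; ring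

end WtOne

end Fermat.Agent.S36.ModA
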