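import Fermat.Agent.S36.ModA.Crit
import Fermat.Agent.S36.ModA.Aut
import Fermat.Agent.S36.ModA.GSer
import Fermat.Agent.S36.ModA.EQser
import Fermat.Agent.NV.RootPer

set_option autoImplicit false

/-!
# MOD36-A / task A-GFun (analytic) : `y_a(z) = Θ(a z)/Θ(z)` is `Γ₀(r a)`-invariant, in `Wh (r a)`, with expansion `G_a`; `G_a ∈ F_{ra,ℚ}`

* `D.y a = pre a 0 1 D.Th * D.ThI`: `S24.isBd_pre D.bd ha one_pos (one_dvd 1)`, `IsBd.mul`.  `TInf` ring hom, `TInf_pre_one` (file `EQser`), `D.tinf`;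
  `TInf 1 ⟨D.ThI, _⟩ = D.thInv ℂ` because `TInf(Th) * TInf(ThI) = TInf 1 = 1` (`D.mul_inv`) and `D.thS_mul_thInv ℂ`.
* `y_eqv`: for `γ = (α β; c d) ∈ Γ₀(r a)` let `γ' = (α, a β; c / a, d) ∈ Γ₀(r)` (determinant: `a * (c / a) = c`).  `w = ofComplex (a z)`, `w' = ofComplex (a (γ z))` satisfy the hypothesis of `Aut1.of_coe (D.slash γ' _)`
  (`S24.expandB_coe_ofComplex a 0 1`, `S24.expandB_coe_smul`, `S24.expandB_denom_ne`): `Th(a γ z) = χ(d) (c z + d) Th(a z)`; `D.slash γ _ z : Th(γ z) = χ(d) (c z + d) Th(z)` (`Γ₀(r a) ≤ Γ₀(r)`);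
  `ThI = 1/Th` (`D.mul_inv`), `χ(d) ≠ 0` (`D.chi_sq`, `d` is prime to `r` by the determinant), `c z + d ≠ 0`.
  (`IsEqv N χ h := ∀ (γ : Gamma0 N) z, h (γ • z) = χ γ * h z`, here `χ = 1`.)
* `y_mem_Wh`: `NV.mem_Wh_of_pow (m := 24) (χ := 1)` (`SmallTriv` of the trivial character is trivial), `D.wh24 a ha`, `MDiff` from `(isBd_y ..).2.1`.
* `G_mem_rat`: `mem_FK_of_fun (r * a) (D.G ℚ a) (D.y a)`, `coeffMap_G`.
-/

open UpperHalfPlane ModularForm CongruenceSubgroup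
open scoped MatrixGroups Manifold

noncomputable section

namespace Fermat.Agent.S36.ModA

open ModularCurve Fermat.Agent.S24 Fermat.Agent.NV Fermat.Agent.Mod

namespace WtOne

variable {r : ℕ} (D : WtOne r)

theorem isBd_y {a : ℕ} (ha : 0 < a) : IsBd 1 (D.y a) :=
  (isBd_pre D.bd ha one_pos (one_dvd 1)).mul D.bdI

theorem isBd_yI {a : ℕ} (ha : 0 < a) : IsBd 1 (D.yI a) :=
  D.bd.mul (isBd_pre D.bdI ha one_pos (one_dvd 1))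

theorem TInf_ThI : TInf 1 ⟨D.ThI, D.bdI.isPer⟩ = D.thInv ℂ := by
  have h1 : (⟨D.Th, D.bd.isPer⟩ : perSub 1) * ⟨D.ThI, D.bdI.isPer⟩ = 1 :=
    Subtype.ext (funext D.mul_inv)
  have h2 := congrArg (TInf 1) h1
  rw [map_mul, map_one, D.tinf] at h2
  have h3 := D.thS_mul_thInv ℂ
  calc TInf 1 ⟨D.ThI, D.bdI.isPer⟩
      = TInf 1 ⟨D.ThI, D.bdI.isPer⟩ * (D.thS ℂ * D.thInv ℂ) := by rw [h3, mul_one]
    _ = (ofZ ℂ D.ser * TInf 1 ⟨D.ThI, D.bdI.isPer⟩) * D.thInv ℂ := by rw [thS]; ring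
    _ = D.thInv ℂ := by rw [h2, one_mul]

theorem TInf_y {a : ℕ} (ha : 0 < a) : TInf 1 ⟨D.y a, (D.isBd_y ha).isPer⟩ = D.G ℂ a := by
  have h1 : (⟨D.y a, (D.isBd_y ha).isPer⟩ : perSub 1) =
      ⟨pre a 0 1 D.Th, pre_mem_perSub D.bd.isPer ha one_pos (one_dvd 1)⟩ *
        ⟨D.ThI, D.bdI.isPer⟩ := rfl
  rw [h1, map_mul, TInf_pre_one D.bd.isPer ha, D.tinf, TInf_ThI, G, thS]

theorem TInf_yI {a : ℕ} (ha : 0 < a) : TInf 1 ⟨D.yI a, (D.isBd_yI ha).isPer⟩ = D.Gi ℂ a := by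
  have h1 : (⟨D.yI a, (D.isBd_yI ha).isPer⟩ : perSub 1) =
      ⟨D.Th, D.bd.isPer⟩ *
        ⟨pre a 0 1 D.ThI, pre_mem_perSub D.bdI.isPer ha one_pos (one_dvd 1)⟩ := rfl
  rw [h1, map_mul, TInf_pre_one D.bdI.isPer ha, D.tinf, TInf_ThI, Gi, thS]

theorem y_eqv {a : ℕ} (ha : 0 < a) : IsEqv (r * a) 1 (D.y a) := by
  intro γ z
  obtain ⟨γ, hγ⟩ := γ
  have hc : (((r * a : ℕ) : ℤ)) ∣ γ 1 0 := by
    rw [Gamma0_mem] at hγ
    exact (ZMod.intCast_zmod_eq_zero_iff_dvd _ _).1 hγ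
  obtain ⟨k, hk⟩ := hc
  have hdet : γ 0 0 * γ 1 1 - γ 0 1 * γ 1 0 = 1 := by
    have := γ.det_coe
    rwa [Matrix.det_fin_two] at this
  -- the conjugated matrix
  set γ' : SL(2, ℤ) := ⟨!![γ 0 0, a * γ 0 1; r * k, γ 1 1], by
    rw [Matrix.det_fin_two_of]
    rw [hk] at hdet
    push_cast at hdet
    linear_combination hdet⟩ with hγ'
  have g00 : γ' 0 0 = γ 0 0 := rfl
  have g01 : γ' 0 1 = a * γ 0 1 := rfl
  have g10 : γ' 1 0 = r * k := rfl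
  have g11 : γ' 1 1 = γ 1 1 := rfl
  have hγ'm : γ' ∈ Gamma0 r := by
    rw [Gamma0_mem, g10]
    simp
  have hγm : γ ∈ Gamma0 r := by
    rw [Gamma0_mem, hk]
    simp
  set w : ℍ := ofComplex (((a : ℂ) * z + (0 : ℕ)) / (1 : ℕ)) with hw
  set w' : ℍ := ofComplex (((a : ℂ) * ((γ • z : ℍ) : ℂ) + (0 : ℕ)) / (1 : ℕ)) with hw'
  have cw : (w : ℂ) = a * z := by
    rw [hw, expandB_coe_ofComplex a 0 1 ha one_pos]
    simp
  have cw' : (w' : ℂ) = a * ((γ • z : ℍ) : ℂ) := by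
    rw [hw', expandB_coe_ofComplex a 0 1 ha one_pos]
    simp
  have hden := expandB_denom_ne γ z
  have hkC : ((γ 1 0 : ℤ) : ℂ) = (r : ℂ) * a * k := by
    rw [hk]; push_cast; ring
  have e1 := Aut1.of_coe (D.slash γ' hγ'm) (w := w) (w' := w') (by
    rw [cw, cw', expandB_coe_smul, g00, g01, g10, g11]
    push_cast
    have e : (r : ℂ) * k * (a * z) + ((γ 1 1 : ℤ) : ℂ) =
        ((γ 1 0 : ℤ) : ℂ) * z + ((γ 1 1 : ℤ) : ℂ) := by rw [hkC]; ring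
    rw [e]
    generalize ((γ 1 0 : ℤ) : ℂ) * (z : ℂ) + ((γ 1 1 : ℤ) : ℂ) = Q at hden ⊢
    field_simp)
  have e2 := D.slash γ hγm z
  have e3 : ((γ' 1 0 : ℤ) : ℂ) * (w : ℂ) + ((γ' 1 1 : ℤ) : ℂ) =
      ((γ 1 0 : ℤ) : ℂ) * (z : ℂ) + ((γ 1 1 : ℤ) : ℂ) := by
    rw [cw, g10, g11, hkC]; push_cast; ring
  rw [e3, g11] at e1
  have e4 := D.mul_inv (γ • z)
  have e5 := D.mul_inv z
  show D.Th w' * D.ThI (γ • z) = ((1 : ℂˣ) : ℂ) * (D.Th w * D.ThI z)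
  rw [Units.val_one, one_mul, e1]
  rw [e2] at e4
  generalize ((D.chi (γ 1 1) : ℤ) : ℂ) * (((γ 1 0 : ℤ) : ℂ) * (z : ℂ) + ((γ 1 1 : ℤ) : ℂ)) = X at *
  linear_combination (D.Th w * D.ThI z) * e4 - (X * D.Th w * D.ThI (γ • z)) * e5

theorem y_mem_Wh {a : ℕ} (ha : 0 < a) : D.y a ∈ Wh (r * a) :=
  NV.mem_Wh_of_pow (m := 24) (by norm_num) (χ := 1) (fun _ _ => rfl) (D.isBd_y ha).2.1
    (D.y_eqv ha) (D.wh24 a ha)

theorem G_mem_rat (hr : 0 < r) {a : ℕ} (ha : 0 < a) : D.G ℚ a ∈ FK ℚ (r * a) := by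
  have : NeZero (r * a) := ⟨(Nat.mul_pos hr ha).ne'⟩
  exact mem_FK_of_fun (r * a) (D.G ℚ a) (D.y a) (D.y_mem_Wh ha) (D.y_eqv ha) (D.isBd_y ha).isPer
    (by rw [D.TInf_y ha, coeffMap_G])

end WtOne

end Fermat.Agent.S36.ModA
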