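import Fermat.Agent.S36.ModA.GFun
import Fermat.Agent.S34.Mod.BCRel
import Fermat.Agent.S34.Mod.IntOver

set_option autoImplicit false

/-!
# MOD36-A / task A-GMem : `G_a^{±1} ∈ F_{N,K}` (`r a ∣ N`) and integrality over `K[j]`, for every field `K` of characteristic zero

`G_mem`: `D.G_mem_rat`, `full_degeneracyC_le`, `Mod.coeffMap_mem_FK (algebraMap ℚ K)`, `D.coeffMap_G`.  `Gi = G⁻¹` in the field `LaurentSeries K` (`D.G_mul_Gi`, `eq_inv_of_mul_eq_one_right`), `inv_mem`.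
`intOver_G`: `D.int24` (its two components are `(D.G ℚ a)^24`, `(D.Gi ℚ a)^24` by `rfl`), integrality of a 24-th root (`IsIntegral.of_pow`; `RingHom.IsIntegralElem f x` is `@IsIntegral _ _ _ _ f.toAlgebra x`, or use `Mod.intOver_iff_isIntegral`),
`Mod.IntOver.up (algebraMap ℚ K)`, `coeffMap_jqModC`, `D.coeffMap_G`.
-/

noncomputable section

namespace Fermat.Agent.S36.ModA

open ModularCurve Fermat.Agent.Mod

namespace WtOne

variable {r : ℕ} (D : WtOne r)

theorem G_mem (hr : 0 < r) (K : Type) [Field K] [CharZero K] {a N : ℕ} [NeZero N] (ha : 0 < a)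
    (h : r * a ∣ N) : D.G K a ∈ FK K N := by
  haveI : NeZero (r * a) := ⟨(Nat.mul_pos hr ha).ne'⟩
  apply full_degeneracyC_le K h
  have h1 := coeffMap_mem_FK (algebraMap ℚ K) (r * a) (D.G_mem_rat hr ha)
  rwa [D.coeffMap_G] at h1

theorem Gi_mem (hr : 0 < r) (K : Type) [Field K] [CharZero K] {a N : ℕ} [NeZero N] (ha : 0 < a)
    (h : r * a ∣ N) : D.Gi K a ∈ FK K N := by
  have e : D.Gi K a = (D.G K a)⁻¹ := eq_inv_of_mul_eq_one_right (D.G_mul_Gi K a)
  rw [e]
  exact inv_mem (D.G_mem hr K ha h)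

theorem intOver_G (K : Type) [Field K] [CharZero K] {a : ℕ} (ha : 0 < a) :
    IntOver K (jqModC K) (D.G K a) := by
  have h1 : IntOver ℚ (jqModC ℚ) (D.G ℚ a ^ 24) := (D.int24 a ha).1
  have h2 : IntOver ℚ (jqModC ℚ) (D.G ℚ a) := by
    rw [intOver_iff_isIntegral] at h1 ⊢
    exact IsIntegral.of_pow (by norm_num) h1
  have h3 := IntOver.up (algebraMap ℚ K) h2
  rwa [coeffMap_jqModC, D.coeffMap_G] at h3

theorem intOver_Gi (K : Type) [Field K] [CharZero K] {a : ℕ} (ha : 0 < a) :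
    IntOver K (jqModC K) (D.Gi K a) := by
  have h1 : IntOver ℚ (jqModC ℚ) (D.Gi ℚ a ^ 24) := (D.int24 a ha).2
  have h2 : IntOver ℚ (jqModC ℚ) (D.Gi ℚ a) := by
    rw [intOver_iff_isIntegral] at h1 ⊢
    exact IsIntegral.of_pow (by norm_num) h1
  have h3 := IntOver.up (algebraMap ℚ K) h2
  rwa [coeffMap_jqModC, D.coeffMap_Gi] at h3

end WtOne

end Fermat.Agent.S36.ModA
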