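import Fermat.Agent.S36.ModA.Defs

set_option autoImplicit false

/-!
# MOD36-A / task A-Gen : `Γ₀(3)` and `Γ₀(4)` are generated by `-1`, `T`, `U_N = (1 0; N 1)` (induction principle)

PURE INTEGER / 2x2 MATRIX ARGUMENT (Euclid).  For `γ = (a b; c d)`, `N ∣ c`:
`γ T^k = (a, b + k a; c, d + k c)`, `γ U_N^l = (a + l N b, b; c + l N d, d)`.
Strong induction on `|c|` (`Int.natAbs (γ 1 0)`).
* `c = 0`: `a d = 1`, so `γ = ± T^b'`: from `h1` by `hT/hT'` (induction on `b`) and `hneg`.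
* `c ≠ 0`: choose `k` with `2 |d + k c| ≤ |c|` (`balanced` below), `d' = d + k c ≠ 0` (else `c ∣ 1` from the determinant, but `N ∣ c`);
  choose `l` with `2 |c + l (N d')| ≤ N |d'|`.  Then `4 |c'| ≤ 2 N |d'| ≤ N |c|`, so `|c'| < |c|` if `N = 3`; if `N = 4` we get `|c'| ≤ |c|` with
  equality only if `2 |d'| = |c|`, but then `d' ∣ c`, and `gcd (c, d') = 1` gives `|d'| = 1`, `|c| = 2`, contradicting `4 ∣ c`.
  `γ' = γ T^k U^l ∈ Γ₀(N)` satisfies `P` by induction, and `γ = γ' U^(-l) T^(-k)`: use `mul_zpow_T`, `mul_zpow_U`.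
-/

open CongruenceSubgroup
open scoped MatrixGroups

namespace Fermat.Agent.S36.ModA

theorem balanced (d c : ℤ) (hc : c ≠ 0) : ∃ k : ℤ, 2 * |d + k * c| ≤ |c| := by
  have h0 := Int.emod_nonneg d hc
  have h1 := Int.emod_lt_abs d hc
  have h2 := Int.emod_add_mul_ediv d c
  by_cases h : 2 * (d % c) ≤ |c|
  · refine ⟨-(d / c), ?_⟩
    have : d + -(d / c) * c = d % c := by linarith
    rw [this, abs_of_nonneg h0]; exact h
  · push Not at h
    rcases abs_choice c with hc' | hc'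
    · refine ⟨-(d / c) - 1, ?_⟩
      have : d + (-(d / c) - 1) * c = -(|c| - d % c) := by rw [hc']; linarith
      rw [this, abs_neg, abs_of_nonneg (by linarith)]
      linarith
    · refine ⟨-(d / c) + 1, ?_⟩
      have : d + (-(d / c) + 1) * c = -(|c| - d % c) := by rw [hc']; linarith
      rw [this, abs_neg, abs_of_nonneg (by linarith)]
      linarith

theorem UN_mem_Gamma0 (N : ℕ) : UN N ∈ Gamma0 N := by
  rw [Gamma0_mem]
  simp [UN]

theorem T_mem_Gamma0 (N : ℕ) : ModularGroup.T ∈ Gamma0 N := by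
  rw [Gamma0_mem]
  simp [ModularGroup.T]

theorem coe_UN (N : ℤ) : ((UN N : SL(2, ℤ)) : Matrix (Fin 2) (Fin 2) ℤ) = !![1, 0; N, 1] := rfl

theorem coe_UN_inv (N : ℤ) :
    (((UN N)⁻¹ : SL(2, ℤ)) : Matrix (Fin 2) (Fin 2) ℤ) = !![1, 0; -N, 1] := by
  simp [Matrix.SpecialLinearGroup.coe_inv, coe_UN, Matrix.adjugate_fin_two]

theorem coe_UN_zpow (N : ℤ) (l : ℤ) :
    ((UN N ^ l : SL(2, ℤ)) : Matrix (Fin 2) (Fin 2) ℤ) = !![1, 0; l * N, 1] := by
  induction l with
  | zero => rw [zpow_zero, Matrix.SpecialLinearGroup.coe_one, Matrix.one_fin_two]; simp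
  | succ n h =>
    simp_rw [zpow_add, zpow_one, Matrix.SpecialLinearGroup.coe_mul, h, coe_UN, Matrix.mul_fin_two]
    congrm !![?_, ?_; ?_, ?_] <;> ring
  | pred n h =>
    simp_rw [zpow_sub, zpow_one, Matrix.SpecialLinearGroup.coe_mul, h, coe_UN_inv,
      Matrix.mul_fin_two]
    congrm !![?_, ?_; ?_, ?_] <;> ring

theorem mul_zpow_of {G : Type*} [Group G] (H : Subgroup G) (P : G → Prop) (g : G) (hg : g ∈ H)
    (h : ∀ γ ∈ H, P γ → P (γ * g)) (h' : ∀ γ ∈ H, P γ → P (γ * g⁻¹)) (k : ℤ) :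
    ∀ γ ∈ H, P γ → P (γ * g ^ k) := by
  intro γ hγ hP
  induction k with
  | zero => simpa using hP
  | succ n ih =>
    rw [zpow_add, zpow_one, ← mul_assoc]
    exact h _ (H.mul_mem hγ (H.zpow_mem hg _)) ih
  | pred n ih =>
    rw [zpow_sub, zpow_one, ← mul_assoc]
    exact h' _ (H.mul_mem hγ (H.zpow_mem hg _)) ih

theorem gen_det (γ : SL(2, ℤ)) : γ 0 0 * γ 1 1 - γ 0 1 * γ 1 0 = 1 := by
  have := γ.det_coe
  rwa [Matrix.det_fin_two] at this

theorem gen_mul_T (γ : SL(2, ℤ)) (k : ℤ) :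
    (γ * ModularGroup.T ^ k) 1 0 = γ 1 0 ∧ (γ * ModularGroup.T ^ k) 1 1 = γ 1 1 + k * γ 1 0 := by
  constructor
  · rw [Matrix.SpecialLinearGroup.coe_mul, ModularGroup.coe_T_zpow, Matrix.mul_apply,
      Fin.sum_univ_two]
    simp
  · rw [Matrix.SpecialLinearGroup.coe_mul, ModularGroup.coe_T_zpow, Matrix.mul_apply,
      Fin.sum_univ_two]
    simp
    ring

theorem gen_mul_U (γ : SL(2, ℤ)) (N l : ℤ) :
    (γ * UN N ^ l) 1 0 = γ 1 0 + l * (N * γ 1 1) ∧ (γ * UN N ^ l) 1 1 = γ 1 1 := by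
  constructor
  · rw [Matrix.SpecialLinearGroup.coe_mul, coe_UN_zpow, Matrix.mul_apply, Fin.sum_univ_two]
    simp
    ring
  · rw [Matrix.SpecialLinearGroup.coe_mul, coe_UN_zpow, Matrix.mul_apply, Fin.sum_univ_two]
    simp

theorem gen_dvd {N : ℕ} {γ : SL(2, ℤ)} (h : γ ∈ Gamma0 N) : (N : ℤ) ∣ γ 1 0 := by
  rw [Gamma0_mem] at h
  exact (ZMod.intCast_zmod_eq_zero_iff_dvd _ _).1 h

theorem Gamma0_induction (N : ℕ) (hN : N = 3 ∨ N = 4) (P : SL(2, ℤ) → Prop) (h1 : P 1)
    (hneg : ∀ γ ∈ Gamma0 N, P γ → P (-γ))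
    (hT : ∀ γ ∈ Gamma0 N, P γ → P (γ * ModularGroup.T))
    (hT' : ∀ γ ∈ Gamma0 N, P γ → P (γ * ModularGroup.T⁻¹))
    (hU : ∀ γ ∈ Gamma0 N, P γ → P (γ * UN N))
    (hU' : ∀ γ ∈ Gamma0 N, P γ → P (γ * (UN N)⁻¹)) :
    ∀ γ ∈ Gamma0 N, P γ := by
  have hTk := mul_zpow_of (Gamma0 N) P ModularGroup.T (T_mem_Gamma0 N) hT hT'
  have hUl := mul_zpow_of (Gamma0 N) P (UN N) (UN_mem_Gamma0 N) hU hU'
  intro γ
  induction hn : (γ 1 0).natAbs using Nat.strong_induction_on generalizing γ with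
  | _ n ih =>
  intro hγ
  by_cases hc : γ 1 0 = 0
  · have hdet := gen_det γ
    rw [hc, mul_zero, sub_zero] at hdet
    have hTb : ∀ b : ℤ, P (ModularGroup.T ^ b) := by
      intro b
      have := hTk b 1 (one_mem _) h1
      rwa [one_mul] at this
    rcases Int.eq_one_or_neg_one_of_mul_eq_one' hdet with ⟨ha, hd⟩ | ⟨ha, hd⟩
    · have : γ = ModularGroup.T ^ (γ 0 1) := by
        apply Subtype.ext
        rw [ModularGroup.coe_T_zpow, Matrix.eta_fin_two γ.1]
        congrm !![?_, ?_; ?_, ?_]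
        · exact ha
        · rfl
        · exact hc
        · exact hd
      rw [this]
      exact hTb _
    · have : γ = -(ModularGroup.T ^ (-(γ 0 1))) := by
        apply Subtype.ext
        rw [Matrix.SpecialLinearGroup.coe_neg, ModularGroup.coe_T_zpow, Matrix.eta_fin_two γ.1]
        ext i j
        fin_cases i <;> fin_cases j <;> simp [ha, hd, hc]
      rw [this]
      exact hneg _ (zpow_mem (T_mem_Gamma0 N) _) (hTb _)
  · obtain ⟨k, hk⟩ := balanced (γ 1 1) (γ 1 0) hc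
    obtain ⟨c1, d1⟩ := gen_mul_T γ k
    have hγ1 : γ * ModularGroup.T ^ k ∈ Gamma0 N := mul_mem hγ (zpow_mem (T_mem_Gamma0 N) _)
    have hdet1 := gen_det (γ * ModularGroup.T ^ k)
    obtain ⟨m, hm⟩ := gen_dvd hγ
    have hN0 : (N : ℤ) ≠ 0 := by rcases hN with rfl | rfl <;> norm_num
    have hd1 : (γ * ModularGroup.T ^ k) 1 1 ≠ 0 := by
      intro h0
      rw [h0, c1, hm, mul_zero, zero_sub] at hdet1
      have h3 : (N : ℤ) ∣ 1 := ⟨-((γ * ModularGroup.T ^ k) 0 1) * m, by linarith⟩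
      have := Int.le_of_dvd one_pos h3
      rcases hN with rfl | rfl <;> norm_num at this
    obtain ⟨l, hl⟩ := balanced ((γ * ModularGroup.T ^ k) 1 0) (N * (γ * ModularGroup.T ^ k) 1 1)
      (mul_ne_zero hN0 hd1)
    obtain ⟨c2, -⟩ := gen_mul_U (γ * ModularGroup.T ^ k) N l
    have hγ2 : γ * ModularGroup.T ^ k * UN N ^ l ∈ Gamma0 N :=
      mul_mem hγ1 (zpow_mem (UN_mem_Gamma0 N) _)
    rw [← d1] at hk
    rw [← c2, abs_mul] at hl
    have hlt : ((γ * ModularGroup.T ^ k * UN N ^ l) 1 0).natAbs < n := by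
      rw [← hn]
      rw [c1] at hdet1
      generalize (γ * ModularGroup.T ^ k * UN N ^ l) 1 0 = c' at hl ⊢
      generalize (γ * ModularGroup.T ^ k) 1 1 = d' at hl hk hdet1 hd1
      generalize (γ * ModularGroup.T ^ k) 0 0 = a' at hdet1
      generalize (γ * ModularGroup.T ^ k) 0 1 = b' at hdet1
      generalize γ 1 0 = c at hl hk hdet1 hc hm ⊢
      rw [← Int.ofNat_lt, ← Int.abs_eq_natAbs, ← Int.abs_eq_natAbs]
      have hcpos : 0 < |c| := abs_pos.2 hc
      rcases hN with rfl | rfl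
      · have : |((3 : ℕ) : ℤ)| = 3 := by norm_num
        rw [this] at hl
        linarith
      · have : |((4 : ℕ) : ℤ)| = 4 := by norm_num
        rw [this] at hl
        by_contra hge
        push Not at hge
        have h2 : 2 * |d'| = |c| := by linarith
        have hdu : d' ∣ 1 := by
          rcases abs_choice d' with e1 | e1 <;> rcases abs_choice c with e2 | e2 <;>
            rw [e1, e2] at h2
          · exact ⟨a' - 2 * b', by rw [← hdet1, ← h2]; ring⟩
          · exact ⟨a' + 2 * b', by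
              have : c = -(2 * d') := by linarith
              rw [← hdet1, this]; ring⟩
          · exact ⟨a' + 2 * b', by
              have : c = -(2 * d') := by linarith
              rw [← hdet1, this]; ring⟩
          · exact ⟨a' - 2 * b', by
              have : c = 2 * d' := by linarith
              rw [← hdet1, this]; ring⟩
        have hd1' : |d'| = 1 := by
          rcases Int.isUnit_iff.1 (isUnit_of_dvd_one hdu) with h | h <;> rw [h] <;> norm_num
        rw [hd1'] at h2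
        rw [hm, abs_mul] at h2
        have : |((4 : ℕ) : ℤ)| = 4 := by norm_num
        rw [this] at h2
        omega
    have hP2 := ih _ hlt (γ * ModularGroup.T ^ k * UN N ^ l) rfl hγ2
    have hP1 := hUl (-l) _ hγ2 hP2
    have e1 : γ * ModularGroup.T ^ k * UN N ^ l * UN N ^ (-l) = γ * ModularGroup.T ^ k := by
      rw [zpow_neg, mul_inv_cancel_right]
    rw [e1] at hP1
    have hP0 := hTk (-k) _ hγ1 hP1
    rwa [zpow_neg, mul_inv_cancel_right] at hP0

end Fermat.Agent.S36.ModA
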