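import Fermat.Agent.S36.ModA.EQser
import Fermat.Agent.S28.UnitG

set_option autoImplicit false

/-!
# MOD36-A / task A-Int24 (FORMAL, no analysis) : `(Θ(Q^a)/Θ(Q))^{±24}` is integral over `ℚ[j]`

INPUT: `S28.intJ_Ug (d) (hd : d ≠ 0) : IntJ (Ug d) ∧ IntJ (Ug d)⁻¹`, `Ug d = (d : LaurentSeries ℚ)^12 * evz 1 d (dS ℚ) * dInv ℚ` (`= d¹² Δ(Q^d)/Δ(Q)`),
`IntJ x := (pe ℚ jq).IsIntegralElem x`; `IntJ.mul`, `IntJ.pe`, `intJ_rQ` (constants), `S28.intJSub` (the subring).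
`intJ_iff`: `pe ℚ jq` and `aeval (jqModC ℚ)` are the same ring hom `ℚ[X] →+* LaurentSeries ℚ` (`Polynomial.ringHom_ext`; `rQ ℚ c` is the constant series).
`evz 1 d = ev 1 (d-1+1) = (qExpand ℚ (d-1+1)).comp (twist 1)`, `twist 1 = id` (`S28.twist_coeff`), so `evz 1 d = Vz ℚ d`.

With `e = ofZ ℚ etaProd`, `e' = ofZ ℚ (etaProd.invOfUnit 1)` (`e e' = 1`, `ofZ_mul_inv`, `constantCoeff_etaProd`): `dS ℚ = single 1 1 * e^24`, `dInv ℚ = single (-1) 1 * e'^24`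
(`dedekindEtaUnit = etaProd^24`; `dInv` is THE inverse of `dS`: `S28.dS_mul_dInv`).  Put `X d = Vz ℚ d (dS ℚ) * dInv ℚ = d^(-12) Ug d` : `X d` and `(X d)⁻¹` are `IntJ` for `d ≠ 0`.
`ofZ ℚ (serP P) = V_{d1} e^p * (V_{d2} e'^m * V_{d3} e'^n)` (`Vz_ofZ`, `ofZ_mul`, `ofZ_pow`), its inverse is `ofZ ℚ ((serP P).invOfUnit 1)` (`ofZ_mul_inv`, `constantCoeff_serP`) `= V_{d1} e'^p * (V_{d2} e^m * V_{d3} e^n)`.
`Vz a ∘ Vz d = Vz (a d)` (`qExpand_qExpand`).  Everything lives in the FIELD `LaurentSeries ℚ`; the powers of `Q = single 1 1` cancel (no balance condition needed for the quotient):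
`(V_a Θ/Θ)^24 = (X (a d1)/X d1)^p * ((X d2/X (a d2))^m * (X d3/X (a d3))^n)`.
-/

noncomputable section

namespace Fermat.Agent.S36.ModA

open ModularCurve Fermat.Agent.Mod

theorem intJ_iff (x : LaurentSeries ℚ) : S28.IntJ x ↔ IntOver ℚ (jqModC ℚ) x := by
  have h : S28.pe ℚ jq =
      ((Polynomial.aeval (jqModC ℚ) : Polynomial ℚ →ₐ[ℚ] LaurentSeries ℚ) :
        Polynomial ℚ →+* LaurentSeries ℚ) := by
    apply Polynomial.ringHom_ext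
    · intro a
      rw [S28.pe_apply, Polynomial.eval₂_C]
      simp [S28.rQ]
    · rw [S28.pe_apply, Polynomial.eval₂_X]
      simp [jqModC_rat]
  unfold S28.IntJ IntOver
  rw [h]

theorem evz_one_eq (d : ℕ) : S28.evz (1 : ℚˣ) d = Vz ℚ d := by
  ext1 x
  rw [S28.evz, S28.ev, Vz, RingHom.comp_apply]
  congr 1
  ext n
  rw [S28.twist_coeff]
  simp

theorem Vz_Vz (A : Type*) [CommRing A] {a d : ℕ} (ha : 0 < a) (hd : 0 < d) (x : LaurentSeries A) :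
    Vz A a (Vz A d x) = Vz A (a * d) x := by
  have : NeZero a := ⟨ha.ne'⟩
  have : NeZero d := ⟨hd.ne'⟩
  have : NeZero (a * d) := ⟨(Nat.mul_pos ha hd).ne'⟩
  rw [Vz_eq, Vz_eq, Vz_eq, qExpand_qExpand]

namespace Int24

/-- `Δ(Q^d)/Δ(Q)`. -/
def XX (d : ℕ) : LaurentSeries ℚ := Vz ℚ d (S28.dS ℚ) * S28.dInv ℚ

theorem intJ_natCast_inv (d : ℕ) : S28.IntJ ((d : LaurentSeries ℚ) ^ 12)⁻¹ := by
  have := S28.IG.intJ_rQ (((d : ℚ) ^ 12)⁻¹)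
  rwa [map_inv₀, map_pow, map_natCast] at this

theorem intJ_natCast (d : ℕ) : S28.IntJ ((d : LaurentSeries ℚ) ^ 12) := by
  have := S28.IG.intJ_rQ ((d : ℚ) ^ 12)
  rwa [map_pow, map_natCast] at this

theorem Ug_eq (d : ℕ) : S28.Ug d = (d : LaurentSeries ℚ) ^ 12 * XX d := by
  rw [S28.Ug, XX, evz_one_eq, mul_assoc]

theorem intJ_XX {d : ℕ} (hd : 0 < d) : S28.IntJ (XX d) ∧ S28.IntJ (XX d)⁻¹ := by
  obtain ⟨h1, h2⟩ := S28.intJ_Ug d hd.ne'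
  have hd0 : ((d : LaurentSeries ℚ) ^ 12) ≠ 0 := by
    apply pow_ne_zero
    have : (d : LaurentSeries ℚ) = S28.rQ ℚ (d : ℚ) := by rw [map_natCast]
    rw [this]
    exact (map_ne_zero _).2 (Nat.cast_ne_zero.2 hd.ne')
  rw [Ug_eq] at h1 h2
  constructor
  · have := (intJ_natCast_inv d).mul h1
    rwa [inv_mul_cancel_left₀ hd0] at this
  · have := (intJ_natCast d).mul h2
    rwa [mul_inv, mul_inv_cancel_left₀ hd0] at this

end Int24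

theorem serP_int24 (P : Par) (hP : P.Good) (a : ℕ) (ha : 0 < a) :
    IntOver ℚ (jqModC ℚ) ((Vz ℚ a (ofZ ℚ (serP P)) * ofZ ℚ ((serP P).invOfUnit 1)) ^ 24) ∧
    IntOver ℚ (jqModC ℚ) ((ofZ ℚ (serP P) * Vz ℚ a (ofZ ℚ ((serP P).invOfUnit 1))) ^ 24) := by
  obtain ⟨b, rfl⟩ : ∃ b, a = b + 1 := ⟨a - 1, by omega⟩
  rw [← intJ_iff, ← intJ_iff]
  set e : LaurentSeries ℚ := ofZ ℚ etaProd with he
  set e' : LaurentSeries ℚ := ofZ ℚ (etaProd.invOfUnit 1) with he'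
  set Q : LaurentSeries ℚ := HahnSeries.single (1 : ℤ) 1 with hQ
  have hee : e * e' = 1 := ofZ_mul_inv ℚ etaProd constantCoeff_etaProd
  have hQ0 : Q ≠ 0 := by
    rw [hQ]; exact HahnSeries.single_ne_zero one_ne_zero
  have hE' : ∀ d, Vz ℚ d e' = (Vz ℚ d e)⁻¹ := by
    intro d
    apply eq_inv_of_mul_eq_one_right
    rw [← map_mul, hee, map_one]
  have hE0 : ∀ d, Vz ℚ d e ≠ 0 := by
    intro d h0
    have := congrArg (Vz ℚ d) hee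
    rw [map_mul, h0, zero_mul, map_one] at this
    exact zero_ne_one this
  have hdS : S28.dS ℚ = Q * e ^ 24 := by
    rw [S28.dS, he, ← ofZ_pow]
    rfl
  have hVQ : ∀ d, 0 < d → Vz ℚ d Q = Q ^ d := by
    intro d hd
    have : NeZero d := ⟨hd.ne'⟩
    rw [Vz_eq, hQ, qExpand_single, HahnSeries.single_pow]
    simp
  have hD0 : S28.dInv ℚ ≠ 0 := by
    intro h0
    have := S28.dS_mul_dInv (A := ℚ)
    rw [h0, mul_zero] at this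
    exact zero_ne_one this
  -- the key identity
  have key : ∀ d, 0 < d → Int24.XX ((b + 1) * d) * (Int24.XX d)⁻¹ =
      (Vz ℚ ((b + 1) * d) e * (Vz ℚ d e)⁻¹) ^ 24 * Q ^ (b * d) := by
    intro d hd
    have hbd : 0 < (b + 1) * d := Nat.mul_pos (Nat.succ_pos b) hd
    rw [Int24.XX, Int24.XX, hdS, map_mul, map_mul, map_pow, map_pow, hVQ _ hd, hVQ _ hbd]
    have h1 := hE0 d
    have h2 := hE0 ((b + 1) * d)
    field_simp
    ring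
  have hΘ : ofZ ℚ (serP P) =
      Vz ℚ P.d1 e ^ P.p * ((Vz ℚ P.d2 e)⁻¹ ^ P.m * (Vz ℚ P.d3 e)⁻¹ ^ P.n) := by
    rw [serP, ofZ_mul, ofZ_mul, ofZ_pow, ofZ_pow, ofZ_pow, ← Vz_ofZ ℚ hP.h1, ← Vz_ofZ ℚ hP.h2,
      ← Vz_ofZ ℚ hP.h3, hE', hE']
  have hΘ' : ofZ ℚ ((serP P).invOfUnit 1) = (ofZ ℚ (serP P))⁻¹ :=
    eq_inv_of_mul_eq_one_right (ofZ_mul_inv ℚ _ (constantCoeff_serP P))
  have hVΘ : Vz ℚ (b + 1) (ofZ ℚ (serP P)) = Vz ℚ ((b + 1) * P.d1) e ^ P.p *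
      ((Vz ℚ ((b + 1) * P.d2) e)⁻¹ ^ P.m * (Vz ℚ ((b + 1) * P.d3) e)⁻¹ ^ P.n) := by
    rw [hΘ, map_mul, map_mul, map_pow, map_pow, map_pow, map_inv₀, map_inv₀,
      Vz_Vz ℚ ha hP.h1, Vz_Vz ℚ ha hP.h2, Vz_Vz ℚ ha hP.h3]
  have hq : (Q ^ (b * P.d1)) ^ P.p = (Q ^ (b * P.d2)) ^ P.m * (Q ^ (b * P.d3)) ^ P.n := by
    rw [← pow_mul, ← pow_mul, ← pow_mul, ← pow_add]
    congr 1
    calc b * P.d1 * P.p = b * (P.d1 * P.p) := by ring
      _ = b * (P.d2 * P.m + P.d3 * P.n) := by rw [hP.bal]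
      _ = _ := by ring
  have hpow : ∀ {x : LaurentSeries ℚ}, S28.IntJ x → ∀ k : ℕ, S28.IntJ (x ^ k) := by
    intro x hx k
    exact pow_mem (S := S28.IG.intJSub) hx k
  have hY : ∀ d, 0 < d → S28.IntJ (Int24.XX ((b + 1) * d) * (Int24.XX d)⁻¹) ∧
      S28.IntJ (Int24.XX ((b + 1) * d) * (Int24.XX d)⁻¹)⁻¹ := by
    intro d hd
    have hbd : 0 < (b + 1) * d := Nat.mul_pos (Nat.succ_pos b) hd
    refine ⟨(Int24.intJ_XX hbd).1.mul (Int24.intJ_XX hd).2, ?_⟩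
    rw [mul_inv, inv_inv]
    exact (Int24.intJ_XX hbd).2.mul (Int24.intJ_XX hd).1
  have T1 : (Vz ℚ (b + 1) (ofZ ℚ (serP P)) * ofZ ℚ ((serP P).invOfUnit 1)) ^ 24 =
      (Int24.XX ((b + 1) * P.d1) * (Int24.XX P.d1)⁻¹) ^ P.p *
        ((Int24.XX ((b + 1) * P.d2) * (Int24.XX P.d2)⁻¹)⁻¹ ^ P.m *
          (Int24.XX ((b + 1) * P.d3) * (Int24.XX P.d3)⁻¹)⁻¹ ^ P.n) := by
    rw [key _ hP.h1, key _ hP.h2, key _ hP.h3, hΘ', hVΘ, hΘ]
    have a1 := hE0 P.d1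
    have a2 := hE0 P.d2
    have a3 := hE0 P.d3
    have b1 := hE0 ((b + 1) * P.d1)
    have b2 := hE0 ((b + 1) * P.d2)
    have b3 := hE0 ((b + 1) * P.d3)
    have q2 : Q ^ (b * P.d2) ≠ 0 := pow_ne_zero _ hQ0
    have q3 : Q ^ (b * P.d3) ≠ 0 := pow_ne_zero _ hQ0
    generalize Vz ℚ P.d1 e = y1 at *
    generalize Vz ℚ P.d2 e = y2 at *
    generalize Vz ℚ P.d3 e = y3 at *
    generalize Vz ℚ ((b + 1) * P.d1) e = x1 at *
    generalize Vz ℚ ((b + 1) * P.d2) e = x2 at *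
    generalize Vz ℚ ((b + 1) * P.d3) e = x3 at *
    generalize Q ^ (b * P.d1) = q1 at *
    generalize Q ^ (b * P.d2) = q2' at *
    generalize Q ^ (b * P.d3) = q3' at *
    simp only [mul_pow, inv_pow, mul_inv, inv_inv]
    rw [hq]
    have c1 := pow_ne_zero P.p a1
    have c2 := pow_ne_zero P.m a2
    have c3 := pow_ne_zero P.n a3
    have d1 := pow_ne_zero P.p b1
    have d2 := pow_ne_zero P.m b2
    have d3 := pow_ne_zero P.n b3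
    have r2 := pow_ne_zero P.m q2
    have r3 := pow_ne_zero P.n q3
    simp only [← pow_mul, mul_comm 24]
    simp only [pow_mul]
    generalize y1 ^ P.p = Y1 at *
    generalize y2 ^ P.m = Y2 at *
    generalize y3 ^ P.n = Y3 at *
    generalize x1 ^ P.p = X1 at *
    generalize x2 ^ P.m = X2 at *
    generalize x3 ^ P.n = X3 at *
    generalize q2' ^ P.m = R2 at *
    generalize q3' ^ P.n = R3 at *
    field_simp
  have T2 : (ofZ ℚ (serP P) * Vz ℚ (b + 1) (ofZ ℚ ((serP P).invOfUnit 1))) ^ 24 =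
      ((Vz ℚ (b + 1) (ofZ ℚ (serP P)) * ofZ ℚ ((serP P).invOfUnit 1)) ^ 24)⁻¹ := by
    rw [hΘ', map_inv₀, ← inv_pow, mul_inv, inv_inv, mul_comm]
  constructor
  · rw [T1]
    exact (hpow (hY _ hP.h1).1 _).mul ((hpow (hY _ hP.h2).2 _).mul (hpow (hY _ hP.h3).2 _))
  · rw [T2, T1, mul_inv, mul_inv, ← inv_pow, ← inv_pow, ← inv_pow, inv_inv, inv_inv]
    exact (hpow (hY _ hP.h1).2 _).mul ((hpow (hY _ hP.h2).1 _).mul (hpow (hY _ hP.h3).1 _))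

end Fermat.Agent.S36.ModA
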