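import Fermat.Agent.S36.ModA.MidExp
import Fermat.Agent.S36.ModA.Inst

set_option autoImplicit false

/-!
# MOD36-A : THE INTERFACE (task A-Main: formal consequences of `GMem`, `W_G`, `Mid_G`)

`D : WtOne r` (instances `wt9`, `wt4`), `N = q² M`, `q ∤ M`, `r ∣ M`, `K` any field of characteristic zero.
`G1 = Θ(Q^q)/Θ(Q)`, `G2 = Θ(Q^{q²})/Θ(Q^q) = V_q G1`; both are images of units of `ℤ[[Q]]` with constant term `1`.

All proofs are field computations in `LaurentSeries K` from: `D.G_mul_Gi`, `D.thS_mul_thInv`, `D.Vz_G`, `map_mul φ` (write `⟨a * b, _⟩ = ⟨a, _⟩ * ⟨b, _⟩`, `Subtype.ext rfl`), `(D.chi q)^2 = 1`, `(q : LaurentSeries K) ≠ 0`.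
-/

open UpperHalfPlane ModularForm CongruenceSubgroup
open scoped MatrixGroups Manifold

noncomputable section

namespace Fermat.Agent.S36.ModA

open ModularCurve Fermat.Agent.S24 Fermat.Agent.NV Fermat.Agent.Mod

namespace WtOne

variable {r : ℕ} (D : WtOne r)

/-- `Θ(Q^q)/Θ(Q)`. -/
def G1 (A : Type*) [CommRing A] (q : ℕ) : LaurentSeries A := D.G A q

/-- `Θ(Q^{q²})/Θ(Q^q)`. -/
def G2 (A : Type*) [CommRing A] (q : ℕ) : LaurentSeries A := D.G A (q ^ 2) * D.Gi A q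

/-- `Θ(Q)/Θ(Q^q)`. -/
def G1i (A : Type*) [CommRing A] (q : ℕ) : LaurentSeries A := D.Gi A q

/-- `Θ(Q^q)/Θ(Q^{q²})`. -/
def G2i (A : Type*) [CommRing A] (q : ℕ) : LaurentSeries A := D.Gi A (q ^ 2) * D.G A q

theorem G1_mul_G1i (A : Type*) [CommRing A] (q : ℕ) : D.G1 A q * D.G1i A q = 1 := D.G_mul_Gi A q

theorem G2_mul_G2i (A : Type*) [CommRing A] (q : ℕ) : D.G2 A q * D.G2i A q = 1 := by
  have h1 := D.G_mul_Gi A q
  have h2 := D.G_mul_Gi A (q ^ 2)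
  calc D.G2 A q * D.G2i A q = (D.G A q * D.Gi A q) * (D.G A (q ^ 2) * D.Gi A (q ^ 2)) := by
        rw [G2, G2i]; ring
    _ = 1 := by rw [h1, h2, one_mul]

theorem G2_eq_Vz (A : Type*) [CommRing A] {q : ℕ} (hq : 0 < q) : D.G2 A q = Vz A q (D.G1 A q) := by
  rw [G2, G1, D.Vz_G A hq hq, pow_two]

theorem coeffMap_G1 {A B : Type*} [CommRing A] [CommRing B] (σ : A →+* B) (q : ℕ) :
    coeffMap σ (D.G1 A q) = D.G1 B q := D.coeffMap_G σ q

theorem coeffMap_G2 {A B : Type*} [CommRing A] [CommRing B] (σ : A →+* B) (q : ℕ) :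
    coeffMap σ (D.G2 A q) = D.G2 B q := by
  rw [G2, G2, map_mul, D.coeffMap_G, D.coeffMap_Gi]

/-- `G1`, `G2` and their inverses come from integral power series with constant term one. -/
theorem exists_ofZ {q : ℕ} (hq : 0 < q) : ∃ g1 g2 : PowerSeries ℤ,
    PowerSeries.constantCoeff g1 = 1 ∧ PowerSeries.constantCoeff g2 = 1 ∧
    ∀ (A : Type) [CommRing A], D.G1 A q = ofZ A g1 ∧ D.G2 A q = ofZ A g2 ∧
      D.G1i A q = ofZ A (g1.invOfUnit 1) ∧ D.G2i A q = ofZ A (g2.invOfUnit 1) := by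
  have hq2 : 0 < q ^ 2 := pow_pos hq 2
  have hinv : PowerSeries.constantCoeff (D.ser.invOfUnit 1) = 1 := by
    rw [PowerSeries.constantCoeff_invOfUnit]; simp
  have hc1 : PowerSeries.constantCoeff (expZ q D.ser * D.ser.invOfUnit 1) = 1 := by
    rw [map_mul, constantCoeff_expZ, D.ser0, hinv, one_mul]
  have hc2 : PowerSeries.constantCoeff
      ((expZ (q ^ 2) D.ser * D.ser.invOfUnit 1) * (D.ser * expZ q (D.ser.invOfUnit 1))) = 1 := by
    rw [map_mul, map_mul, map_mul, constantCoeff_expZ, constantCoeff_expZ, D.ser0, hinv]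
    norm_num
  refine ⟨_, _, hc1, hc2, ?_⟩
  intro A _
  have e1 : D.G1 A q = ofZ A (expZ q D.ser * D.ser.invOfUnit 1) := by
    rw [G1, G, thS, thInv, Vz_ofZ A hq, ofZ_mul]
  have e2 : D.G2 A q =
      ofZ A ((expZ (q ^ 2) D.ser * D.ser.invOfUnit 1) * (D.ser * expZ q (D.ser.invOfUnit 1))) := by
    rw [G2, G, Gi, thS, thInv, Vz_ofZ A hq2, Vz_ofZ A hq, ofZ_mul, ofZ_mul, ofZ_mul]
  refine ⟨e1, e2, ?_, ?_⟩
  · have h1 := D.G1_mul_G1i A q
    have h2 := ofZ_mul_inv A _ hc1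
    rw [← e1] at h2
    calc D.G1i A q = D.G1i A q * (D.G1 A q * ofZ A _) := by rw [h2, mul_one]
      _ = (D.G1 A q * D.G1i A q) * ofZ A _ := by ring
      _ = _ := by rw [h1, one_mul]
  · have h1 := D.G2_mul_G2i A q
    have h2 := ofZ_mul_inv A _ hc2
    rw [← e2] at h2
    calc D.G2i A q = D.G2i A q * (D.G2 A q * ofZ A _) := by rw [h2, mul_one]
      _ = (D.G2 A q * D.G2i A q) * ofZ A _ := by ring
      _ = _ := by rw [h1, one_mul]

section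

variable (hr : 0 < r) (K : Type) [Field K] [CharZero K] {q M : ℕ} (hq : q.Prime) (hM : 0 < M) (hrM : r ∣ M)

include hr hq hM hrM

theorem G1_mem_old [NeZero (q * M)] : D.G1 K q ∈ FK K (q * M) :=
  D.G_mem hr K hq.pos (by rw [mul_comm q M]; exact Nat.mul_dvd_mul_right hrM q)

theorem G1_mem [NeZero (q ^ 2 * M)] : D.G1 K q ∈ FK K (q ^ 2 * M) :=
  D.G_mem hr K hq.pos (by
    rw [mul_comm (q ^ 2) M]; exact Nat.mul_dvd_mul hrM (Dvd.intro_left q (by ring)))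

theorem G2_mem [NeZero (q ^ 2 * M)] : D.G2 K q ∈ FK K (q ^ 2 * M) :=
  mul_mem (D.G_mem hr K (pow_pos hq.pos 2) (by rw [mul_comm (q ^ 2) M]; exact Nat.mul_dvd_mul_right hrM _))
    (D.Gi_mem hr K hq.pos (by
      rw [mul_comm (q ^ 2) M]; exact Nat.mul_dvd_mul hrM (Dvd.intro_left q (by ring))))

omit hr hM hrM in
theorem intOver_G1 : IntOver K (jqModC K) (D.G1 K q) := D.intOver_G K hq.pos

omit hr hM hrM in
theorem intOver_G1i : IntOver K (jqModC K) (D.G1i K q) := D.intOver_Gi K hq.pos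

omit hr hM hrM in
theorem intOver_G2 : IntOver K (jqModC K) (D.G2 K q) :=
  (D.intOver_G K (pow_pos hq.pos 2)).mul (D.intOver_Gi K hq.pos)

omit hr hM hrM in
theorem intOver_G2i : IntOver K (jqModC K) (D.G2i K q) :=
  (D.intOver_Gi K (pow_pos hq.pos 2)).mul (D.intOver_G K hq.pos)

variable {K}

/-- **Atkin-Lehner**: `w(G1) = χ(q)/(q G2)`, `w(G2) = χ(q)/(q G1)`. -/
theorem W_G12 (hqM : ¬ q ∣ M) [NeZero (q ^ 2 * M)] (φ : FK K (q ^ 2 * M) →+* LaurentSeries K)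
    (hφ : ∀ d (hd : d ∣ q ^ 2 * M), φ (jF K _ d hd) = jS K (alPerm (q ^ 2) d)) :
    φ ⟨D.G1 K q, D.G1_mem hr K hq hM hrM⟩ * ((q : LaurentSeries K) * D.G2 K q) =
        ((D.chi q : ℤ) : LaurentSeries K) ∧
      φ ⟨D.G2 K q, D.G2_mem hr K hq hM hrM⟩ * ((q : LaurentSeries K) * D.G1 K q) =
        ((D.chi q : ℤ) : LaurentSeries K) := by
  have hG1 := D.G1_mem hr K hq hM hrM
  have hG2 := D.G2_mem hr K hq hM hrM
  have hGq2 : D.G K (q ^ 2) ∈ FK K (q ^ 2 * M) :=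
    D.G_mem hr K (pow_pos hq.pos 2) (by rw [mul_comm (q ^ 2) M]; exact Nat.mul_dvd_mul_right hrM _)
  obtain ⟨w1, w2⟩ := W_G D hr hq hqM hM hrM φ hφ hG1 hGq2
  have hχ : ((D.chi q : ℤ) : LaurentSeries K) * ((D.chi q : ℤ) : LaurentSeries K) = 1 := by
    have hc : IsCoprime (q : ℤ) (r : ℤ) := by
      rw [Nat.isCoprime_iff_coprime, Nat.Prime.coprime_iff_not_dvd hq]
      exact fun h => hqM (h.trans hrM)
    rw [← Int.cast_mul, D.chi_sq _ hc, Int.cast_one]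
  have a1 := D.G_mul_Gi K q
  have a2 := D.G_mul_Gi K (q ^ 2)
  have hmul : φ ⟨D.G2 K q, hG2⟩ * φ ⟨D.G K q, hG1⟩ = φ ⟨D.G K (q ^ 2), hGq2⟩ := by
    rw [← map_mul]
    congr 1
    apply Subtype.ext
    show D.G2 K q * D.G K q = D.G K (q ^ 2)
    rw [G2, mul_assoc, mul_comm (D.Gi K q), a1, mul_one]
  constructor
  · show φ ⟨D.G K q, hG1⟩ * _ = _
    calc φ ⟨D.G K q, hG1⟩ * ((q : LaurentSeries K) * D.G2 K q)
        = (φ ⟨D.G K q, hG1⟩ * (q : LaurentSeries K)) * D.G2 K q := by ring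
      _ = ((D.chi q : ℤ) : LaurentSeries K) * ((D.G K q * D.Gi K q) *
            (D.G K (q ^ 2) * D.Gi K (q ^ 2))) := by rw [w1, G2]; ring
      _ = _ := by rw [a1, a2, one_mul, mul_one]
  · have h3 : φ ⟨D.G2 K q, hG2⟩ * ((q : LaurentSeries K) * D.G K q) *
        ((D.chi q : ℤ) : LaurentSeries K) = 1 := by
      calc φ ⟨D.G2 K q, hG2⟩ * ((q : LaurentSeries K) * D.G K q) * ((D.chi q : ℤ) : LaurentSeries K)
          = φ ⟨D.G2 K q, hG2⟩ * ((q : LaurentSeries K) * D.G K q) *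
              ((D.chi q : ℤ) : LaurentSeries K) * (D.G K (q ^ 2) * D.Gi K (q ^ 2)) := by
            rw [a2, mul_one]
        _ = φ ⟨D.G2 K q, hG2⟩ * (((D.chi q : ℤ) : LaurentSeries K) *
              (D.G K q * D.Gi K (q ^ 2))) * (q : LaurentSeries K) * D.G K (q ^ 2) := by ring
        _ = (φ ⟨D.G2 K q, hG2⟩ * φ ⟨D.G K q, hG1⟩) * (q : LaurentSeries K) ^ 2 *
              D.G K (q ^ 2) := by rw [← w1]; ring
        _ = 1 := by rw [hmul, w2, mul_comm, a2]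
    calc φ ⟨D.G2 K q, hG2⟩ * ((q : LaurentSeries K) * D.G1 K q)
        = (φ ⟨D.G2 K q, hG2⟩ * ((q : LaurentSeries K) * D.G K q) *
            ((D.chi q : ℤ) : LaurentSeries K)) * ((D.chi q : ℤ) : LaurentSeries K) := by
          rw [mul_assoc _ ((D.chi q : ℤ) : LaurentSeries K), hχ, mul_one, G1]
      _ = _ := by rw [h3, one_mul]

/-- **middle cusp**: `θ_mid(G1) = G1`, `θ_mid(G2) = χ(q) q⁻¹ Θ(ζ Q)/Θ(Q^q)`. -/
theorem Mid_G12 (hqM : ¬ q ∣ M) [NeZero (q ^ 2 * M)] (ζ : Kˣ) (hζ : IsPrimitiveRoot ζ q)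
    (φ : FK K (q ^ 2 * M) →+* LaurentSeries K)
    (hφ1 : ∀ d (hd : d ∣ q ^ 2 * M), d ∣ q * M → φ (jF K _ d hd) = jS K d)
    (hφ2 : ∀ d (hd : q ^ 2 * d ∣ q ^ 2 * M), φ (jF K _ (q ^ 2 * d) hd) = S28.twist ζ (jS K d)) :
    φ ⟨D.G1 K q, D.G1_mem hr K hq hM hrM⟩ = D.G1 K q ∧
      φ ⟨D.G2 K q, D.G2_mem hr K hq hM hrM⟩ * ((q : LaurentSeries K) * Vz K q (D.thS K)) =
        ((D.chi q : ℤ) : LaurentSeries K) * S28.twist ζ (D.thS K) := by
  have hG1 := D.G1_mem hr K hq hM hrM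
  have hG2 := D.G2_mem hr K hq hM hrM
  have hGq2 : D.G K (q ^ 2) ∈ FK K (q ^ 2 * M) :=
    D.G_mem hr K (pow_pos hq.pos 2) (by rw [mul_comm (q ^ 2) M]; exact Nat.mul_dvd_mul_right hrM _)
  obtain ⟨w1, w2⟩ := Mid_G D hr hq hqM hM hrM ζ hζ φ hφ1 hφ2 hG1 hGq2
  have a1 := D.G_mul_Gi K q
  have a0 := D.thS_mul_thInv K
  have hmul : φ ⟨D.G2 K q, hG2⟩ * φ ⟨D.G K q, hG1⟩ = φ ⟨D.G K (q ^ 2), hGq2⟩ := by
    rw [← map_mul]
    congr 1
    apply Subtype.ext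
    show D.G2 K q * D.G K q = D.G K (q ^ 2)
    rw [G2, mul_assoc, mul_comm (D.Gi K q), a1, mul_one]
  refine ⟨w1, ?_⟩
  calc φ ⟨D.G2 K q, hG2⟩ * ((q : LaurentSeries K) * Vz K q (D.thS K))
      = φ ⟨D.G2 K q, hG2⟩ * ((q : LaurentSeries K) * Vz K q (D.thS K)) *
          (D.thS K * D.thInv K) := by rw [a0, mul_one]
    _ = (φ ⟨D.G2 K q, hG2⟩ * D.G K q) * (q : LaurentSeries K) * D.thS K := by rw [G]; ring
    _ = φ ⟨D.G K (q ^ 2), hGq2⟩ * (q : LaurentSeries K) * D.thS K := by rw [← hmul, w1]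
    _ = ((D.chi q : ℤ) : LaurentSeries K) * S28.twist ζ (D.thS K) * (D.thS K * D.thInv K) := by
        rw [w2]; ring
    _ = _ := by rw [a0, mul_one]

omit hM in
theorem chi_q_sq (hqM : ¬ q ∣ M) : D.chi q * D.chi q = 1 := by
  have hc : IsCoprime (q : ℤ) (r : ℤ) := by
    rw [Nat.isCoprime_iff_coprime, Nat.Prime.coprime_iff_not_dvd hq]
    exact fun h => hqM (h.trans hrM)
  exact D.chi_sq _ hc

end

end WtOne

end Fermat.Agent.S36.ModA
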