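import Fermat.Agent.S36.ModA.Poly
import Fermat.Agent.S34.Mod.BC

set_option autoImplicit false

/-!
# MOD36-A / task A-Transfer : the TRANSFER lemma

`x ∈ F_{N,ℚ}` has the analytic representative `y` (`TInf 1 y = x`).  Let `μ : ℍ → ℍ` be any map such that the `j(d μ z)`, `d ∣ N`, and `y (μ z)` are `L`-periodic, meromorphic at `i∞`, with
expansions (in `Q = Q_L^L`) `ψ d`, `X`, defined over a field `E ⊆ ℂ`.  Then EVERY ring hom `φ : F_{N,K} → K((Q))` with `φ (j_d) = ψ d` (via `τ : E → K`) satisfies `φ x = X`.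

## A-Transfer
1. `FK_eq_adjoin ℚ N`, `IntermediateField.mem_adjoin_range_iff` (`x = aeval (jFam ℚ N) Pu / aeval (jFam ℚ N) Pw`); if `aeval _ Pw = 0` replace `(Pu, Pw)` by `(0, 1)` (then `x = 0`).  So `x * W = U`, `W ≠ 0`.
2. ANALYTIC RELATION `∀ z, y z * aeval (fun d => jd d z) Pw = aeval (fun d => jd d z) Pu`: `TInf_aeval` with `L = N`, `f d = jd d`, `s d = qExpand ℂ N (coeffMap (algebraMap ℚ ℂ) (jS ℚ d))`
   (`S24.TInf_jd N hd : TInf N ⟨jd d, _⟩ = qExpand ℂ (d * N) (jqModC ℂ)`, `qExpand_qExpand`, `coeffMap_jS`, `jS_of_ne`), `NV.TInf_level` for `y`, `aeval_map`, `TInf_injective N`.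
   (`(aeval (fun d => jd d) P) z = aeval (fun d => jd d z) P` : apply the ring hom `Pi.evalRingHom`, `aeval_map`-style.)
3. Substitute `z := μ z`, apply `TInf L` + `TInf_aeval` with `f d = fun z => jd d (μ z)`: `qExpand ℂ L (coeffMap σ (X * aeval ψ Pw)) = qExpand ℂ L (coeffMap σ (aeval ψ Pu))`; `qExpand_injective`, `coeffMap σ` injective (`S28.coeffMap_injective σ.injective`): `X * aeval ψ Pw = aeval ψ Pu` over `E`.
4. Apply `coeffMap τ`: `coeffMap τ X * φ W_K = φ U_K`, where `W_K = ⟨aeval (jFam K N) Pw', _⟩`; `φ (x_K) * φ W_K = φ U_K`; `φ W_K ≠ 0` because `φ` is injective (`RingHom.injective`, `FK K N` is a field) and `W_K = coeffMap (algebraMap ℚ K) W ≠ 0`.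
   All ring homs are `ℚ`-algebra homs (`RingHom.toRatAlgHom`, `map_ratCast`, `eq_ratCast`; `MvPolynomial.aeval_def`, `MvPolynomial.eval₂_comp_left`/`MvPolynomial.map_aeval`).
-/

open UpperHalfPlane ModularForm CongruenceSubgroup
open scoped MatrixGroups Manifold

noncomputable section

namespace Fermat.Agent.S36.ModA

open ModularCurve Fermat.Agent.S24 Fermat.Agent.NV Fermat.Agent.Mod

theorem transfer_eval {I : Type*} (f : I → ℍ → ℂ) (P : MvPolynomial I ℚ) (z : ℍ) :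
    (MvPolynomial.aeval f P : ℍ → ℂ) z = MvPolynomial.aeval (fun d => f d z) P :=
  aeval_map (Pi.evalRingHom (fun _ : ℍ => ℂ) z) f P

theorem transfer_TInf_jd (N : ℕ) [NeZero N] (d : Dv N) :
    ∃ hi : jd d.1 ∈ perSub N, TInf N ⟨jd d.1, hi⟩ =
      qExpand ℂ N (coeffMap (algebraMap ℚ ℂ) (jFam ℚ N d)) := by
  obtain ⟨d, hd⟩ := d
  have hd0 : NeZero d := ⟨fun h => NeZero.ne N (by subst h; simpa using hd)⟩
  have : NeZero (d * N) := ⟨Nat.mul_ne_zero (NeZero.ne d) (NeZero.ne N)⟩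
  have : NeZero (N * d) := ⟨Nat.mul_ne_zero (NeZero.ne N) (NeZero.ne d)⟩
  refine ⟨Btil_le_perSub N (jd_mem_Btil hd), ?_⟩
  rw [TInf_jd N hd]
  show _ = qExpand ℂ N (coeffMap (algebraMap ℚ ℂ) (jS ℚ d))
  rw [coeffMap_jS, jS_of_ne, qExpand_qExpand]
  exact qExpand_congr (Nat.mul_comm d N) _

/-- the analytic relation attached to an algebraic one. -/
theorem relation_of_series {N : ℕ} [NeZero N] {x : LaurentSeries ℚ} {y : ℍ → ℂ} (hy : y ∈ perSub 1)
    (hxy : TInf 1 ⟨y, hy⟩ = coeffMap (algebraMap ℚ ℂ) x) (Pu Pw : MvPolynomial (Dv N) ℚ)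
    (h : x * MvPolynomial.aeval (jFam ℚ N) Pw = MvPolynomial.aeval (jFam ℚ N) Pu) (z : ℍ) :
    y z * MvPolynomial.aeval (fun d : Dv N => jd d.1 z) Pw =
      MvPolynomial.aeval (fun d : Dv N => jd d.1 z) Pu := by
  have hs : ∀ P : MvPolynomial (Dv N) ℚ,
      MvPolynomial.aeval (fun d : Dv N => qExpand ℂ N (coeffMap (algebraMap ℚ ℂ) (jFam ℚ N d))) P =
        qExpand ℂ N (coeffMap (algebraMap ℚ ℂ) (MvPolynomial.aeval (jFam ℚ N) P)) := by
    intro P
    rw [aeval_map (coeffMap (algebraMap ℚ ℂ)), aeval_map (qExpand ℂ N)]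
  obtain ⟨hw1, hw2⟩ := TInf_aeval N (fun d : Dv N => jd d.1) _ (transfer_TInf_jd N) Pw
  obtain ⟨hu1, hu2⟩ := TInf_aeval N (fun d : Dv N => jd d.1) _ (transfer_TInf_jd N) Pu
  rw [hs] at hw2 hu2
  have : NeZero (N / 1) := ⟨by rw [Nat.div_one]; exact NeZero.ne N⟩
  have hyN := TInf_level (one_dvd N) ⟨y, hy⟩
  rw [hxy, qExpand_congr (Nat.div_one N)] at hyN
  have key : (⟨y, perSub_le_of_dvd (one_dvd N) hy⟩ : perSub N) * ⟨_, hw1⟩ = ⟨_, hu1⟩ := by
    apply TInf_injective N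
    rw [map_mul, hyN, hw2, hu2, ← map_mul, ← map_mul, h]
  have h2 := congrFun (congrArg Subtype.val key) z
  rw [← transfer_eval, ← transfer_eval]
  exact h2

theorem transfer {N : ℕ} [NeZero N] {x : LaurentSeries ℚ} (hx : x ∈ FK ℚ N)
    {y : ℍ → ℂ} (hy : y ∈ perSub 1) (hxy : TInf 1 ⟨y, hy⟩ = coeffMap (algebraMap ℚ ℂ) x)
    (μ : ℍ → ℍ) (L : ℕ) [NeZero L]
    {E : Type} [Field E] (σ : E →+* ℂ) (ψ : ℕ → LaurentSeries E) (X : LaurentSeries E)
    (hj : ∀ d, d ∣ N → ∃ h : (fun z => jd d (μ z)) ∈ perSub L,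
      TInf L ⟨_, h⟩ = qExpand ℂ L (coeffMap σ (ψ d)))
    (hX : ∃ h : (fun z => y (μ z)) ∈ perSub L, TInf L ⟨_, h⟩ = qExpand ℂ L (coeffMap σ X))
    {K : Type} [Field K] [CharZero K] (τ : E →+* K) (φ : FK K N →+* LaurentSeries K)
    (hφ : ∀ d (hd : d ∣ N), φ (jF K N d hd) = coeffMap τ (ψ d))
    (hxK : coeffMap (algebraMap ℚ K) x ∈ FK K N) :
    φ ⟨coeffMap (algebraMap ℚ K) x, hxK⟩ = coeffMap τ X := by
  have : CharZero E := σ.charZero
  -- 1.
  obtain ⟨Pu, Pw, hW, hrel⟩ : ∃ Pu Pw : MvPolynomial (Dv N) ℚ,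
      MvPolynomial.aeval (jFam ℚ N) Pw ≠ 0 ∧
      x * MvPolynomial.aeval (jFam ℚ N) Pw = MvPolynomial.aeval (jFam ℚ N) Pu := by
    rw [FK_eq_adjoin, IntermediateField.mem_adjoin_range_iff] at hx
    obtain ⟨Pu, Pw, h⟩ := hx
    by_cases h0 : MvPolynomial.aeval (jFam ℚ N) Pw = 0
    · refine ⟨0, 1, by rw [map_one]; exact one_ne_zero, ?_⟩
      rw [h, h0, div_zero, zero_mul, map_zero]
    · exact ⟨Pu, Pw, h0, by rw [h, div_mul_cancel₀ _ h0]⟩
  -- 2., 3.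
  have hrelμ := fun z => relation_of_series hy hxy Pu Pw hrel (μ z)
  have hj' : ∀ d : Dv N, ∃ h : (fun z => jd d.1 (μ z)) ∈ perSub L,
      TInf L ⟨_, h⟩ = qExpand ℂ L (coeffMap σ (ψ d.1)) := fun d => hj d.1 d.2
  have hs : ∀ P : MvPolynomial (Dv N) ℚ,
      MvPolynomial.aeval (fun d : Dv N => qExpand ℂ L (coeffMap σ (ψ d.1))) P =
        qExpand ℂ L (coeffMap σ (MvPolynomial.aeval (fun d : Dv N => ψ d.1) P)) := by
    intro P
    rw [aeval_map (coeffMap σ), aeval_map (qExpand ℂ L)]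
  obtain ⟨hw1, hw2⟩ := TInf_aeval L (fun (d : Dv N) z => jd d.1 (μ z)) _ hj' Pw
  obtain ⟨hu1, hu2⟩ := TInf_aeval L (fun (d : Dv N) z => jd d.1 (μ z)) _ hj' Pu
  rw [hs] at hw2 hu2
  obtain ⟨hX1, hX2⟩ := hX
  have key : (⟨_, hX1⟩ : perSub L) * ⟨_, hw1⟩ = ⟨_, hu1⟩ := by
    apply Subtype.ext
    funext z
    show y (μ z) * (MvPolynomial.aeval (fun (d : Dv N) z => jd d.1 (μ z)) Pw : ℍ → ℂ) z =
      (MvPolynomial.aeval (fun (d : Dv N) z => jd d.1 (μ z)) Pu : ℍ → ℂ) z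
    rw [transfer_eval, transfer_eval]
    exact hrelμ z
  have hE : X * MvPolynomial.aeval (fun d : Dv N => ψ d.1) Pw =
      MvPolynomial.aeval (fun d : Dv N => ψ d.1) Pu := by
    apply S28.coeffMap_injective σ.injective
    apply qExpand_injective (R := ℂ) L
    rw [map_mul, map_mul, ← hX2, ← hw2, ← hu2, ← map_mul, key]
  -- 4.
  have hφP : ∀ P : MvPolynomial (Dv N) ℚ,
      coeffMap τ (MvPolynomial.aeval (fun d : Dv N => ψ d.1) P) =
        φ (MvPolynomial.aeval (fun d : Dv N => jF K N d.1 d.2) P) := by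
    intro P
    rw [aeval_map (coeffMap τ), aeval_map φ]
    congr 2
    funext d
    exact (hφ d.1 d.2).symm
  have hcoe : ∀ P : MvPolynomial (Dv N) ℚ,
      ((MvPolynomial.aeval (fun d : Dv N => jF K N d.1 d.2) P : FK K N) : LaurentSeries K) =
        coeffMap (algebraMap ℚ K) (MvPolynomial.aeval (jFam ℚ N) P) := by
    intro P
    have h1 := aeval_map (algebraMap (FK K N) (LaurentSeries K))
      (fun d : Dv N => jF K N d.1 d.2) P
    rw [aeval_map (coeffMap (algebraMap ℚ K))]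
    refine h1.trans ?_
    congr 2
    funext d
    exact (coeffMap_jS (algebraMap ℚ K) d.1).symm
  have hK : (⟨coeffMap (algebraMap ℚ K) x, hxK⟩ : FK K N) *
      MvPolynomial.aeval (fun d : Dv N => jF K N d.1 d.2) Pw =
      MvPolynomial.aeval (fun d : Dv N => jF K N d.1 d.2) Pu := by
    apply Subtype.ext
    show coeffMap (algebraMap ℚ K) x * ((MvPolynomial.aeval (fun d : Dv N => jF K N d.1 d.2) Pw :
      FK K N) : LaurentSeries K) = _
    rw [hcoe, hcoe, ← map_mul, hrel]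
  have hWK : φ (MvPolynomial.aeval (fun d : Dv N => jF K N d.1 d.2) Pw) ≠ 0 := by
    rw [Ne, map_eq_zero_iff φ φ.injective]
    intro h0
    have := congrArg Subtype.val h0
    rw [hcoe] at this
    exact hW (S28.coeffMap_injective (algebraMap ℚ K).injective (this.trans (map_zero _).symm))
  have h1 := congrArg φ hK
  have h2 := congrArg (coeffMap τ) hE
  rw [map_mul] at h1 h2
  rw [hφP, hφP] at h2
  exact mul_right_cancel₀ hWK (h1.trans h2.symm)

end Fermat.Agent.S36.ModA
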