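import Fermat.Agent.S36.ModA.WFun
import Fermat.Agent.S36.ModA.GMem
import Fermat.Agent.S36.ModA.Transfer

set_option autoImplicit false

/-!
# MOD36-A / task A-WFin : `G_q`, `G_{q²}` under the Atkin-Lehner involution `w_{q²}` of level `N = q² M`

Choose `u v : ℤ` with `q² u - M v = 1` (Bezout: `Nat.Coprime (q^2) M`, `Int.gcd_eq_gcd_ab` / `Int.isCoprime_iff_gcd_eq_one`), `μ = muW q M u v h` (file `WFun`).
## A-WFin
`transfer` with `x = D.G ℚ q` (resp. `D.G ℚ (q^2)`), `y = D.y q`, `L = 1`, `E = ℚ`, `σ = algebraMap ℚ ℂ`, `τ = algebraMap ℚ K`, `ψ d = jS ℚ (alPerm (q^2) d)`,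
`X = C (χ(q)/q) * (D.G ℚ q * D.Gi ℚ (q^2))` resp. `C (1/q²) * D.Gi ℚ (q^2)`; `hj` from `jd_mu` + `S24.TInf_jd`-like statement at level one: `jd e ∈ perSub 1`, `TInf 1 (jd e) = jS ℂ e` (`TInf_pre_one` applied to `jFun`, `S24.TInf_pre_jFun`, or `NV.TInf_pre`);
`hX` from `y_mu_q` + `D.TInf_y`, `D.TInf_yI`, `S24.TInf_const`; `qExpand_one_apply`.
-/

open UpperHalfPlane ModularForm CongruenceSubgroup
open scoped MatrixGroups Manifold

noncomputable section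

namespace Fermat.Agent.S36.ModA

open ModularCurve Fermat.Agent.S24 Fermat.Agent.NV Fermat.Agent.Mod

/-- `j(e z)` at level one. -/
theorem TInf_jd_one {e : ℕ} (he : 0 < e) : ∃ h : jd e ∈ perSub 1, TInf 1 ⟨jd e, h⟩ = jS ℂ e := by
  have : NeZero e := ⟨he.ne'⟩
  have hj : jFun ∈ perSub 1 := Btil_le_perSub 1 (jd_one ▸ jd_mem_Btil (one_dvd 1))
  have hT : TInf 1 ⟨jFun, hj⟩ = jqModC ℂ := by
    have h := TInf_jd 1 (one_dvd 1)
    have e1 : (⟨jFun, hj⟩ : perSub 1) = ⟨jd 1, Btil_le_perSub 1 (jd_mem_Btil (one_dvd 1))⟩ :=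
      Subtype.ext jd_one.symm
    rw [e1, h]
    exact qExpand_one_apply _
  refine ⟨pre_mem_perSub hj he one_pos (one_dvd 1), ?_⟩
  have h1 := TInf_pre_one hj he
  rw [hT, Vz_eq, ← jS_of_ne] at h1
  exact h1

namespace WExpAux

/-- `TInf` of `c * f`. -/
theorem TInf_const_mul (c : ℂ) {f : ℍ → ℂ} (hf : f ∈ perSub 1) :
    ∃ h : (fun z => c * f z) ∈ perSub 1, TInf 1 ⟨_, h⟩ = HahnSeries.C c * TInf 1 ⟨f, hf⟩ := by
  have hc : (fun _ : ℍ => c) ∈ perSub 1 := (isBd_const 1 c).isPer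
  have e : (fun z => c * f z) = (fun _ : ℍ => c) * f := rfl
  refine ⟨e ▸ mul_mem hc hf, ?_⟩
  have e2 : (⟨fun z => c * f z, e ▸ mul_mem hc hf⟩ : perSub 1) = ⟨_, hc⟩ * ⟨f, hf⟩ := rfl
  rw [e2, map_mul, TInf_const]

theorem ex_congr {f g : ℍ → ℂ} (e : f = g) {s t : LaurentSeries ℂ} (est : t = s)
    (h : ∃ h' : g ∈ perSub 1, TInf 1 ⟨g, h'⟩ = s) : ∃ h' : f ∈ perSub 1, TInf 1 ⟨f, h'⟩ = t := by
  subst e
  subst est
  exact h

end WExpAux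

/-- **`w_{q²}` on `G_q`, `G_{q²}`.** -/
theorem W_G {r : ℕ} (D : WtOne r) (hr : 0 < r) {q M : ℕ} (hq : q.Prime) (hqM : ¬ q ∣ M) (hM : 0 < M)
    (hrM : r ∣ M) [NeZero (q ^ 2 * M)] {K : Type} [Field K] [CharZero K]
    (φ : FK K (q ^ 2 * M) →+* LaurentSeries K)
    (hφ : ∀ d (hd : d ∣ q ^ 2 * M), φ (jF K _ d hd) = jS K (alPerm (q ^ 2) d))
    (h1 : D.G K q ∈ FK K (q ^ 2 * M)) (h2 : D.G K (q ^ 2) ∈ FK K (q ^ 2 * M)) :
    φ ⟨D.G K q, h1⟩ * (q : LaurentSeries K) =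
        ((D.chi q : ℤ) : LaurentSeries K) * (D.G K q * D.Gi K (q ^ 2)) ∧
      φ ⟨D.G K (q ^ 2), h2⟩ * (q : LaurentSeries K) ^ 2 = D.Gi K (q ^ 2) := by
  have hq2 : 0 < q ^ 2 := pow_pos hq.pos 2
  have hN : 0 < q ^ 2 * M := Nat.mul_pos hq2 hM
  have hcop : Nat.Coprime (q ^ 2) M := ((Nat.Prime.coprime_iff_not_dvd hq).2 hqM).pow_left 2
  obtain ⟨u, v, h⟩ : ∃ u v : ℤ, (q : ℤ) ^ 2 * u - M * v = 1 := by
    obtain ⟨a, b, hab⟩ := Nat.isCoprime_iff_coprime.2 hcop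
    refine ⟨a, -b, ?_⟩
    push_cast at hab
    linear_combination hab
  have hqK : (q : LaurentSeries K) ≠ 0 := by
    rw [← map_natCast (HahnSeries.C : K →+* LaurentSeries K), Ne, map_eq_zero]
    exact_mod_cast hq.ne_zero
  -- the `j_d`
  have hj : ∀ d, d ∣ q ^ 2 * M → ∃ h' : (fun z => jd d (muW q M u v h z)) ∈ perSub 1,
      TInf 1 ⟨_, h'⟩ = qExpand ℂ 1 (coeffMap (algebraMap ℚ ℂ) (jS ℚ (alPerm (q ^ 2) d))) := by
    intro d hd
    have e : (fun z => jd d (muW q M u v h z)) = jd (alPerm (q ^ 2) d) :=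
      funext fun z => jd_muW hq hM u v h hd z
    have hpos : 0 < alPerm (q ^ 2) d :=
      Nat.pos_of_dvd_of_pos (alPerm_dvd hN (Dvd.intro _ rfl)
        (by rw [Nat.mul_div_cancel_left M hq2]; exact hcop) hd) hN
    exact WExpAux.ex_congr e (by rw [qExpand_one_apply, coeffMap_jS]) (TInf_jd_one hpos)
  have hφ' : ∀ d (hd : d ∣ q ^ 2 * M), φ (jF K _ d hd) =
      coeffMap (algebraMap ℚ K) (jS ℚ (alPerm (q ^ 2) d)) := by
    intro d hd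
    rw [hφ d hd, coeffMap_jS]
  have hyI : D.yI (q ^ 2) ∈ perSub 1 := (D.isBd_yI hq2).isPer
  constructor
  · have hx : D.G ℚ q ∈ FK ℚ (q ^ 2 * M) :=
      D.G_mem hr ℚ hq.pos (by rw [mul_comm]; exact mul_dvd_mul (dvd_pow_self q two_ne_zero) hrM)
    have hy : D.y q ∈ perSub 1 := (D.isBd_y hq.pos).isPer
    have hxy : TInf 1 ⟨D.y q, hy⟩ = coeffMap (algebraMap ℚ ℂ) (D.G ℚ q) := by
      rw [D.coeffMap_G]; exact D.TInf_y hq.pos
    have hX : ∃ h' : (fun z => D.y q (muW q M u v h z)) ∈ perSub 1, TInf 1 ⟨_, h'⟩ =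
        qExpand ℂ 1 (coeffMap (algebraMap ℚ ℂ)
          (((D.chi q : ℤ) : LaurentSeries ℚ) / (q : LaurentSeries ℚ) *
            (D.G ℚ q * D.Gi ℚ (q ^ 2)))) := by
      have e : (fun z => D.y q (muW q M u v h z)) =
          fun z => ((D.chi q : ℂ) / q) * ((D.y q * D.yI (q ^ 2)) z) :=
        funext fun z => y_muW_q hq hM u v h D hr hrM z
      refine WExpAux.ex_congr e ?_ (WExpAux.TInf_const_mul ((D.chi q : ℂ) / q) (mul_mem hy hyI))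
      have e3 : (⟨D.y q * D.yI (q ^ 2), mul_mem hy hyI⟩ : perSub 1) = ⟨_, hy⟩ * ⟨_, hyI⟩ := rfl
      have e4 : TInf 1 ⟨D.y q, hy⟩ = D.G ℂ q := D.TInf_y hq.pos
      have e5 : TInf 1 ⟨D.yI (q ^ 2), hyI⟩ = D.Gi ℂ (q ^ 2) := D.TInf_yI hq2
      rw [qExpand_one_apply, map_mul, map_mul, map_div₀, map_intCast, map_natCast, D.coeffMap_G,
        D.coeffMap_Gi, e3, map_mul, map_div₀, map_intCast, map_natCast, e4, e5]
    have hxK : coeffMap (algebraMap ℚ K) (D.G ℚ q) ∈ FK K (q ^ 2 * M) := by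
      rw [D.coeffMap_G]; exact h1
    have key := transfer hx hy hxy (muW q M u v h) 1 (algebraMap ℚ ℂ)
      (fun d => jS ℚ (alPerm (q ^ 2) d)) _ hj hX (algebraMap ℚ K) φ hφ' hxK
    have e6 : (⟨D.G K q, h1⟩ : FK K (q ^ 2 * M)) = ⟨coeffMap (algebraMap ℚ K) (D.G ℚ q), hxK⟩ :=
      Subtype.ext (D.coeffMap_G _ _).symm
    rw [e6, key, map_mul, map_mul, map_div₀, map_intCast, map_natCast, D.coeffMap_G, D.coeffMap_Gi]
    field_simp
  · have hx : D.G ℚ (q ^ 2) ∈ FK ℚ (q ^ 2 * M) :=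
      D.G_mem hr ℚ hq2 (by rw [mul_comm]; exact mul_dvd_mul (dvd_refl _) hrM)
    have hy : D.y (q ^ 2) ∈ perSub 1 := (D.isBd_y hq2).isPer
    have hxy : TInf 1 ⟨D.y (q ^ 2), hy⟩ = coeffMap (algebraMap ℚ ℂ) (D.G ℚ (q ^ 2)) := by
      rw [D.coeffMap_G]; exact D.TInf_y hq2
    have hX : ∃ h' : (fun z => D.y (q ^ 2) (muW q M u v h z)) ∈ perSub 1, TInf 1 ⟨_, h'⟩ =
        qExpand ℂ 1 (coeffMap (algebraMap ℚ ℂ)
          (1 / (q : LaurentSeries ℚ) ^ 2 * D.Gi ℚ (q ^ 2))) := by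
      have e : (fun z => D.y (q ^ 2) (muW q M u v h z)) =
          fun z => (1 / (q : ℂ) ^ 2) * (D.yI (q ^ 2) z) :=
        funext fun z => y_muW_qq hq hM u v h D hr hrM z
      refine WExpAux.ex_congr e ?_ (WExpAux.TInf_const_mul (1 / (q : ℂ) ^ 2) hyI)
      have e5 : TInf 1 ⟨D.yI (q ^ 2), hyI⟩ = D.Gi ℂ (q ^ 2) := D.TInf_yI hq2
      rw [qExpand_one_apply, map_mul, map_div₀, map_one, map_pow, map_natCast, D.coeffMap_Gi,
        map_div₀, map_one, map_pow, map_natCast, e5]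
    have hxK : coeffMap (algebraMap ℚ K) (D.G ℚ (q ^ 2)) ∈ FK K (q ^ 2 * M) := by
      rw [D.coeffMap_G]; exact h2
    have key := transfer hx hy hxy (muW q M u v h) 1 (algebraMap ℚ ℂ)
      (fun d => jS ℚ (alPerm (q ^ 2) d)) _ hj hX (algebraMap ℚ K) φ hφ' hxK
    have e6 : (⟨D.G K (q ^ 2), h2⟩ : FK K (q ^ 2 * M)) =
        ⟨coeffMap (algebraMap ℚ K) (D.G ℚ (q ^ 2)), hxK⟩ :=
      Subtype.ext (D.coeffMap_G _ _).symm
    rw [e6, key, map_mul, map_div₀, map_one, map_pow, map_natCast, D.coeffMap_Gi]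
    field_simp

end Fermat.Agent.S36.ModA
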