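import Fermat.Agent.S36.ModA.MidFun
import Fermat.Agent.S36.ModA.Cyclo
import Fermat.Agent.S36.ModA.WExp

set_option autoImplicit false

/-!
# MOD36-A / task A-MidFin : `G_q`, `G_{q²}` at the middle cusp `1/(qM)` of level `N = q² M`

`γ = UN (q M)`, `μ z = γ • z`; choose `β : ℕ`, `e : ℤ` with `q e + β M = 1` (`β = (M⁻¹ mod q)`: e.g. from `Nat.Coprime`, `Nat.exists_mul_emod_eq_one_of_coprime`, or Bezout and reduce mod `q`), see file `MidFun`.
## A-MidFin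
`transfer` with `L = q`, `E, ζE` from `exists_cyclo_hom`, `σ ζE = rootU q β` (a primitive `q`-th root of unity: `Complex.isPrimitiveRoot_exp_of_coprime`, `β` prime to `q`), `τ ζE = ζ`,
`ψ d = if q^2 ∣ d then S28.twist ζE (jS E (d / q^2)) else jS E d`, `X = D.G E q`, resp. `C (χ(q)/q) * (S28.twist ζE (D.thS E) * D.thInv E)`.
Expansions: `NV.TInf_level` (functions of `perSub 1` seen in `perSub q`), `NV.TInf_pre (M := q) (a := q * d) (b := β * d) (δ := q)`: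
`TInf q (pre (q d) (β d) q f) = qExpand ℂ (q d * (q / q)) (S24.twist (rootU q (β d)) (TInf 1 f))`, and `twist ζ (V_d x) = V_d (twist (ζ^d) x)`, `rootU q (β d) = rootU q β ^ d`;
`S24.twist u = S28.twist u` on `LaurentSeries ℂ` (compare coefficients: `S24.twist_coeff`, `S28.twist_coeff`), `S28.coeffMap_twist`.
A divisor `d` of `q² M` either divides `q M` or is `q² d'` with `d' ∣ M`.
-/

open UpperHalfPlane ModularForm CongruenceSubgroup
open scoped MatrixGroups Manifold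

noncomputable section

namespace Fermat.Agent.S36.ModA

open ModularCurve Fermat.Agent.S24 Fermat.Agent.NV Fermat.Agent.Mod

namespace MidExp

theorem exists_bezout {q M : ℕ} (hq : q.Prime) (hqM : ¬ q ∣ M) :
    ∃ (β : ℕ) (e : ℤ), (q : ℤ) * e + β * M = 1 ∧ Nat.Coprime β q := by
  have hc : Nat.Coprime M q := ((Nat.Prime.coprime_iff_not_dvd hq).2 hqM).symm
  obtain ⟨β, -, hβ⟩ := Nat.exists_mul_mod_eq_one_of_coprime hc hq.one_lt
  refine ⟨β, -((M * β / q : ℕ) : ℤ), ?_, ?_⟩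
  · have h1 := Nat.div_add_mod (M * β) q
    rw [hβ] at h1
    have h2 : ((q * (M * β / q) + 1 : ℕ) : ℤ) = ((M * β : ℕ) : ℤ) := by rw [h1]
    push_cast at h2 ⊢
    linarith
  · by_contra hcon
    have hdvd : q ∣ β := by
      rcases Nat.coprime_or_dvd_of_prime hq β with h | h
      · exact absurd h.symm hcon
      · exact h
    have : M * β % q = 0 := Nat.mod_eq_zero_of_dvd (Dvd.dvd.mul_left hdvd M)
    omega

theorem rootU_prim {q β : ℕ} (hq : q ≠ 0) (hβ : Nat.Coprime β q) :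
    IsPrimitiveRoot (rootU q (β : ℤ)) q := by
  rw [← IsPrimitiveRoot.coe_units_iff]
  have := Complex.isPrimitiveRoot_exp_of_coprime β q hq hβ
  convert this using 1
  show Complex.exp (2 * Real.pi * Complex.I * ((β : ℤ) : ℂ) / q) = _
  congr 1
  push_cast
  ring

theorem rootU_npow (δ : ℕ) (b : ℤ) (d : ℕ) : rootU δ b ^ d = rootU δ (b * d) := by
  apply Units.ext
  rw [Units.val_pow_eq_pow_val]
  show Complex.exp _ ^ d = Complex.exp _
  rw [← Complex.exp_nat_mul]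
  congr 1
  push_cast
  ring

theorem TInf_up {q : ℕ} [NeZero q] {f : ℍ → ℂ} (hf : f ∈ perSub 1) :
    TInf q ⟨f, perSub_le_of_dvd (one_dvd q) hf⟩ = qExpand ℂ q (TInf 1 ⟨f, hf⟩) := by
  have : NeZero (q / 1) := ⟨by rw [Nat.div_one]; exact NeZero.ne q⟩
  rw [TInf_level (one_dvd q) ⟨f, hf⟩]
  exact ModularCurve.qExpand_congr (Nat.div_one q) _

theorem TInf_preq {q : ℕ} [NeZero q] {f : ℍ → ℂ} (hf : f ∈ perSub 1) {a : ℕ} [NeZero a] (b : ℕ) :
    TInf q ⟨pre a b q f, pre_mem_perSub hf (NeZero.pos a) (NeZero.pos q) (dvd_refl q)⟩ =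
      qExpand ℂ a (S28.twist (rootU q b) (TInf 1 ⟨f, hf⟩)) := by
  have : NeZero (a * (q / q)) := ⟨by
    rw [Nat.div_self (NeZero.pos q), mul_one]; exact NeZero.ne a⟩
  rw [NV.TInf_pre hf (NeZero.pos a) (NeZero.pos q) (dvd_refl q), twist_eq]
  exact ModularCurve.qExpand_congr (by rw [Nat.div_self (NeZero.pos q), mul_one]) _

theorem TInf_j_new {q : ℕ} [NeZero q] (β : ℕ) {d : ℕ} (hd : 0 < d) :
    ∃ h : pre (q * d) (β * d) q jFun ∈ perSub q,
      TInf q ⟨_, h⟩ = qExpand ℂ q (S28.twist (rootU q β) (jS ℂ d)) := by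
  have : NeZero d := ⟨hd.ne'⟩
  have hqd : 0 < q * d := Nat.mul_pos (NeZero.pos q) hd
  have : NeZero (q * d) := ⟨hqd.ne'⟩
  have : NeZero (q * d * (q / q)) := ⟨by
    rw [Nat.div_self (NeZero.pos q), mul_one]; exact hqd.ne'⟩
  refine ⟨pre_jFun_mem_perSub hqd (NeZero.pos q) (dvd_refl q), ?_⟩
  rw [TInf_pre_jFun hqd (NeZero.pos q) (dvd_refl q), twist_eq, jS_of_ne, ← Vz_eq ℂ d,
    twist_Vz _ hd, Vz_eq, qExpand_qExpand, rootU_npow]
  have e : (((β * d : ℕ) : ℤ)) = (β : ℤ) * d := by push_cast; ring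
  rw [e]
  exact ModularCurve.qExpand_congr (by rw [Nat.div_self (NeZero.pos q), mul_one]) _

theorem dvd_of_not_sq {q M d : ℕ} (hq : q.Prime) (hd : d ∣ q ^ 2 * M) (h2 : ¬ q ^ 2 ∣ d) :
    d ∣ q * M := by
  by_cases h1 : q ∣ d
  · obtain ⟨d₁, rfl⟩ := h1
    have h3 : ¬ q ∣ d₁ := by
      rintro ⟨d₂, rfl⟩
      exact h2 ⟨d₂, by ring⟩
    have h4 : d₁ ∣ q * M := by
      apply Nat.dvd_of_mul_dvd_mul_left hq.pos
      convert hd using 1
      ring
    have h5 : Nat.Coprime d₁ q := ((Nat.Prime.coprime_iff_not_dvd hq).2 h3).symm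
    exact Nat.mul_dvd_mul_left q (h5.dvd_of_dvd_mul_left h4)
  · have h5 : Nat.Coprime d (q ^ 2) :=
      Nat.Coprime.pow_right 2 ((Nat.Prime.coprime_iff_not_dvd hq).2 h1).symm
    exact Dvd.dvd.mul_left (h5.dvd_of_dvd_mul_left hd) q

theorem coeffMap_C' {A B : Type*} [CommRing A] [CommRing B] (f : A →+* B) (a : A) :
    coeffMap f (HahnSeries.C a) = HahnSeries.C (f a) :=
  coeffMap_single f 0 a

theorem TInf_congr {L : ℕ} [NeZero L] {f g : ℍ → ℂ} (h : f = g) (hg : g ∈ perSub L) :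
    ∃ hf : f ∈ perSub L, TInf L ⟨f, hf⟩ = TInf L ⟨g, hg⟩ := by
  subst h
  exact ⟨hg, rfl⟩

end MidExp

/-- **the expansion at the middle cusp of `G_q`, `G_{q²}`.** -/
theorem Mid_G {r : ℕ} (D : WtOne r) (hr : 0 < r) {q M : ℕ} (hq : q.Prime) (hqM : ¬ q ∣ M) (hM : 0 < M)
    (hrM : r ∣ M) [NeZero (q ^ 2 * M)] {K : Type} [Field K] [CharZero K] (ζ : Kˣ)
    (hζ : IsPrimitiveRoot ζ q) (φ : FK K (q ^ 2 * M) →+* LaurentSeries K)
    (hφ1 : ∀ d (hd : d ∣ q ^ 2 * M), d ∣ q * M → φ (jF K _ d hd) = jS K d)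
    (hφ2 : ∀ d (hd : q ^ 2 * d ∣ q ^ 2 * M), φ (jF K _ (q ^ 2 * d) hd) = S28.twist ζ (jS K d))
    (h1 : D.G K q ∈ FK K (q ^ 2 * M)) (h2 : D.G K (q ^ 2) ∈ FK K (q ^ 2 * M)) :
    φ ⟨D.G K q, h1⟩ = D.G K q ∧
      φ ⟨D.G K (q ^ 2), h2⟩ * (q : LaurentSeries K) =
        ((D.chi q : ℤ) : LaurentSeries K) * (S28.twist ζ (D.thS K) * D.thInv K) := by
  have hq0 : 0 < q := hq.pos
  have : NeZero q := ⟨hq.ne_zero⟩
  obtain ⟨β, e, hbe, hβq⟩ := MidExp.exists_bezout hq hqM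
  obtain ⟨E, _, ζE, hζE, huniv⟩ := exists_cyclo_hom q
  obtain ⟨σ, hσ⟩ := huniv ℂ (rootU q β) (MidExp.rootU_prim hq.ne_zero hβq)
  obtain ⟨τ, hτ⟩ := huniv K ζ hζ
  have hσu : Units.map (σ : E →* ℂ) ζE = rootU q β := Units.ext hσ
  have hτu : Units.map (τ : E →* K) ζE = ζ := Units.ext hτ
  set μ : ℍ → ℍ := fun z => UN ((q * M : ℕ) : ℤ) • z with hμ
  set ψ : ℕ → LaurentSeries E := fun d =>
    if q ^ 2 ∣ d then S28.twist ζE (jS E (d / q ^ 2)) else jS E d with hψ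
  have hq2 : 0 < q ^ 2 := pow_pos hq0 2
  have hψ1 : ∀ d', ψ (q ^ 2 * d') = S28.twist ζE (jS E d') := by
    intro d'
    simp only [hψ]
    rw [if_pos (dvd_mul_right _ _), Nat.mul_div_cancel_left _ hq2]
  have hψ2 : ∀ d, ¬ q ^ 2 ∣ d → ψ d = jS E d := by
    intro d h2
    simp only [hψ]
    rw [if_neg h2]
  have hj : ∀ d, d ∣ q ^ 2 * M → ∃ h : (fun z => jd d (μ z)) ∈ perSub q,
      TInf q ⟨_, h⟩ = qExpand ℂ q (coeffMap σ (ψ d)) := by
    intro d hd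
    have hd0 : 0 < d := Nat.pos_of_dvd_of_pos hd (Nat.mul_pos hq2 hM)
    by_cases h2 : q ^ 2 ∣ d
    · obtain ⟨d', rfl⟩ := h2
      have hd' : d' ∣ M := Nat.dvd_of_mul_dvd_mul_left hq2 hd
      have hd'0 : 0 < d' := Nat.pos_of_dvd_of_pos hd' hM
      obtain ⟨h, hT⟩ := MidExp.TInf_j_new (q := q) β hd'0
      have hfun : (fun z => jd (q ^ 2 * d') (μ z)) = pre (q * d') (β * d') q jFun := by
        funext z
        exact jd_mid_new hq hM β e hbe hd' z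
      obtain ⟨h', hT'⟩ := MidExp.TInf_congr hfun h
      refine ⟨h', ?_⟩
      rw [hT', hT, hψ1, S28.coeffMap_twist, hσu, coeffMap_jS]
    · have hdq : d ∣ q * M := MidExp.dvd_of_not_sq hq hd h2
      obtain ⟨h, hT⟩ := TInf_jd_one hd0
      have hfun : (fun z => jd d (μ z)) = jd d := by
        funext z
        exact jd_mid_old hq hM hdq z
      obtain ⟨h', hT'⟩ := MidExp.TInf_congr hfun (perSub_le_of_dvd (one_dvd q) h)
      refine ⟨h', ?_⟩
      rw [hT', MidExp.TInf_up h, hT, hψ2 d h2, coeffMap_jS]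
  have hφ : ∀ d (hd : d ∣ q ^ 2 * M), φ (jF K _ d hd) = coeffMap τ (ψ d) := by
    intro d hd
    by_cases h2 : q ^ 2 ∣ d
    · obtain ⟨d', rfl⟩ := h2
      rw [hφ2 d' hd, hψ1, S28.coeffMap_twist, hτu, coeffMap_jS]
    · rw [hφ1 d hd (MidExp.dvd_of_not_sq hq hd h2), hψ2 d h2, coeffMap_jS]
  have hdvd1 : r * q ∣ q ^ 2 * M := by
    obtain ⟨k, rfl⟩ := hrM
    exact ⟨q * k, by ring⟩
  have hdvd2 : r * q ^ 2 ∣ q ^ 2 * M := by
    obtain ⟨k, rfl⟩ := hrM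
    exact ⟨k, by ring⟩
  constructor
  · have hfun : (fun z => D.y q (μ z)) = D.y q := by
      funext z
      exact y_mid_q hq hM β e hbe D hr hrM z
    have hy1 := (D.isBd_y hq0).isPer
    have hxK : coeffMap (algebraMap ℚ K) (D.G ℚ q) ∈ FK K (q ^ 2 * M) := by
      rw [D.coeffMap_G]; exact h1
    obtain ⟨h', hT'⟩ := MidExp.TInf_congr hfun (perSub_le_of_dvd (one_dvd q) hy1)
    have key := transfer (x := D.G ℚ q) (D.G_mem hr ℚ hq0 hdvd1) hy1
      (by rw [D.TInf_y hq0, D.coeffMap_G]) μ q σ ψ (D.G E q) hj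
      ⟨h', by rw [hT', MidExp.TInf_up hy1, D.TInf_y hq0, D.coeffMap_G]⟩ τ φ hφ hxK
    have e1 : (⟨D.G K q, h1⟩ : FK K (q ^ 2 * M)) = ⟨coeffMap (algebraMap ℚ K) (D.G ℚ q), hxK⟩ :=
      Subtype.ext (D.coeffMap_G _ q).symm
    rw [e1, key, D.coeffMap_G τ q]
  · set c : ℂ := ((D.chi q : ℤ) : ℂ) / q with hc
    set cE : E := ((D.chi q : ℤ) : E) / q with hcE
    have hfun : (fun z => D.y (q ^ 2) (μ z)) = (fun _ => c) * (pre q β q D.Th * D.ThI) := by
      funext z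
      exact y_mid_qq hq hM β e hbe D hr hrM z
    have hy1 := (D.isBd_y hq2).isPer
    have hxK : coeffMap (algebraMap ℚ K) (D.G ℚ (q ^ 2)) ∈ FK K (q ^ 2 * M) := by
      rw [D.coeffMap_G]; exact h2
    have hcm : (fun _ : ℍ => c) ∈ perSub q := (isBd_const q c).isPer
    have hP : pre q β q D.Th ∈ perSub q :=
      pre_mem_perSub D.bd.isPer (NeZero.pos q) (NeZero.pos q) (dvd_refl q)
    have hI : D.ThI ∈ perSub q := perSub_le_of_dvd (one_dvd q) D.bdI.isPer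
    obtain ⟨hmem, hT'⟩ := MidExp.TInf_congr hfun (mul_mem hcm (mul_mem hP hI))
    have hσc : σ cE = c := by
      rw [hcE, hc, map_div₀, map_intCast, map_natCast]
    have hτc : τ cE = ((D.chi q : ℤ) : K) / q := by
      rw [hcE, map_div₀, map_intCast, map_natCast]
    have key := transfer (x := D.G ℚ (q ^ 2)) (D.G_mem hr ℚ hq2 hdvd2) hy1
      (by rw [D.TInf_y hq2, D.coeffMap_G]) μ q σ ψ
      (HahnSeries.C cE * (S28.twist ζE (D.thS E) * D.thInv E)) hj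
      ⟨hmem, by
        have e : (⟨_, mul_mem hcm (mul_mem hP hI)⟩ : perSub q) =
            ⟨_, hcm⟩ * (⟨_, hP⟩ * ⟨_, hI⟩) := rfl
        rw [hT', e, map_mul, map_mul, TInf_const, MidExp.TInf_preq D.bd.isPer β, D.tinf,
          MidExp.TInf_up D.bdI.isPer, D.TInf_ThI]
        simp only [map_mul, MidExp.coeffMap_C', S28.coeffMap_twist, hσu, D.coeffMap_thS,
          D.coeffMap_thInv, qExpand_C, hσc]
        rfl⟩ τ φ hφ hxK
    have e1 : (⟨D.G K (q ^ 2), h2⟩ : FK K (q ^ 2 * M)) =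
        ⟨coeffMap (algebraMap ℚ K) (D.G ℚ (q ^ 2)), hxK⟩ :=
      Subtype.ext (D.coeffMap_G _ (q ^ 2)).symm
    rw [e1, key, map_mul, map_mul, MidExp.coeffMap_C', S28.coeffMap_twist, hτu, D.coeffMap_thS,
      D.coeffMap_thInv, hτc]
    have hqK : (q : K) ≠ 0 := by exact_mod_cast hq.ne_zero
    have e2 : (HahnSeries.C (((D.chi q : ℤ) : K) / q) : LaurentSeries K) * (q : LaurentSeries K) =
        ((D.chi q : ℤ) : LaurentSeries K) := by
      rw [← map_natCast (HahnSeries.C : K →+* LaurentSeries K) q,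
        ← map_intCast (HahnSeries.C : K →+* LaurentSeries K), ← map_mul, div_mul_cancel₀ _ hqK]
    rw [← e2]
    ring

end Fermat.Agent.S36.ModA
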