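import Fermat.Agent.S36.ModA.WFun

set_option autoImplicit false

/-!
# MOD36-A / task A-MidFun : `G_q`, `G_{q²}` at the middle cusp `1/(qM)` of level `N = q² M`

`γ = UN (q M) = (1 0; qM 1)`, `μ z = γ • z = z/(qM z + 1)`.  `β : ℕ`, `e : ℤ` with `q e + β M = 1`.

## A-MidFun
* `jd_mid_old`: `d ∣ q M`: `S24.act_jd_of_mem_Gamma0 hd γ⁻¹ _` (`act g f z = f (g⁻¹ • z)`).
* `jd_mid_new`: `d ∣ M`, `τ = (q, -β d; M/d, e) ∈ SL(2,ℤ)`, `w = d (q z + β)/q`, `w' = q² d (γ z)`: `τ₁₀ w + τ₁₁ = (qM z + 1)/q`, `τ₀₀ w + τ₀₁ = d q z`; `S24.expandB_jFun_eq_of_coe τ`.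
* `Th_mid_0`: `D.slash γ`;  `Th_mid_1`: `τ = (1 0; M 1)`, `w = q z`;  `Th_mid_2`: `τ = (q, -β; M, e) ∈ Γ₀(M) ≤ Γ₀(r)`, `w = (q z + β)/q`: `Aut1.of_coe`.
* `chi_e`: `χ(e) χ(q) = χ(e q) = χ(1 - β M) = χ(1) = 1` (`D.chi_mul`, `D.chi_add`, `r ∣ M`), `χ(q)² = 1` (`D.chi_sq`).

-/

open UpperHalfPlane ModularForm CongruenceSubgroup
open scoped MatrixGroups Manifold

noncomputable section

namespace Fermat.Agent.S36.ModA

open ModularCurve Fermat.Agent.S24 Fermat.Agent.NV Fermat.Agent.Mod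

theorem mid_UN_mem {N r : ℕ} (h : r ∣ N) : UN ((N : ℕ) : ℤ) ∈ Gamma0 r := by
  rw [Gamma0_mem]
  show (((N : ℕ) : ℤ) : ZMod r) = 0
  rw [Int.cast_natCast]
  exact (ZMod.natCast_eq_zero_iff N r).2 h

theorem mid_ThI_eq {r : ℕ} (D : WtOne r) (w : ℍ) : D.ThI w = (D.Th w)⁻¹ :=
  eq_inv_of_mul_eq_one_right (D.mul_inv w)

theorem mid_Th_ne {r : ℕ} (D : WtOne r) (w : ℍ) : D.Th w ≠ 0 :=
  left_ne_zero_of_mul_eq_one (D.mul_inv w)

theorem mid_denom_ne (N : ℕ) (z : ℍ) : (N : ℂ) * (z : ℂ) + 1 ≠ 0 := by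
  have := expandB_denom_ne (UN (N : ℤ)) z
  have e10 : (UN (N : ℤ)) 1 0 = (N : ℤ) := rfl
  have e11 : (UN (N : ℤ)) 1 1 = 1 := rfl
  rw [e10, e11] at this
  simpa using this

theorem mid_coe_UN (N : ℕ) (z : ℍ) : ((UN (N : ℤ) • z : ℍ) : ℂ) =
    (z : ℂ) / ((N : ℂ) * (z : ℂ) + 1) := by
  rw [expandB_coe_smul]
  have e00 : (UN (N : ℤ)) 0 0 = 1 := rfl
  have e01 : (UN (N : ℤ)) 0 1 = 0 := rfl
  have e10 : (UN (N : ℤ)) 1 0 = (N : ℤ) := rfl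
  have e11 : (UN (N : ℤ)) 1 1 = 1 := rfl
  rw [e00, e01, e10, e11]
  simp

theorem mid_alg1 (q d m β e z : ℂ) (hq : q ≠ 0) (hD : q * (d * m) * z + 1 ≠ 0)
    (hC : q * e + β * (d * m) = 1) :
    (q ^ 2 * d * (z / (q * (d * m) * z + 1)) + 0) / 1 * (m * ((q * d * z + β * d) / q) + e) =
      q * ((q * d * z + β * d) / q) + -(β * d) := by
  have h1 : m * ((q * d * z + β * d) / q) + e = (q * (d * m) * z + 1) / q := by
    field_simp
    linear_combination hC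
  rw [h1]
  generalize q * (d * m) * z + 1 = Dn at hD ⊢
  field_simp
  ring

theorem mid_alg2 (q M z : ℂ) (hD : q * M * z + 1 ≠ 0) :
    (q * (z / (q * M * z + 1)) + 0) / 1 * (M * ((q * z + 0) / 1) + 1) =
      1 * ((q * z + 0) / 1) + 0 := by
  have h1 : M * ((q * z + 0) / 1) + 1 = q * M * z + 1 := by
    ring
  rw [h1]
  generalize q * M * z + 1 = Dn at hD ⊢
  field_simp
  ring

section

variable {q M : ℕ} (hq : q.Prime) (hM : 0 < M)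

include hq hM

theorem coe_mid (z : ℍ) : ((UN ((q * M : ℕ) : ℤ) • z : ℍ) : ℂ) =
    (z : ℂ) / ((q : ℂ) * M * (z : ℂ) + 1) := by
  rw [mid_coe_UN, Nat.cast_mul]

theorem jd_mid_old {d : ℕ} (hd : d ∣ q * M) (z : ℍ) :
    jd d (UN ((q * M : ℕ) : ℤ) • z) = jd d z := by
  have h1 := act_jd_of_mem_Gamma0 hd (UN ((q * M : ℕ) : ℤ))⁻¹ (inv_mem (mid_UN_mem dvd_rfl))
  have h2 := congrFun h1 z
  rwa [act_apply, inv_inv] at h2

variable (β : ℕ) (e : ℤ) (h : (q : ℤ) * e + β * M = 1)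

include h

theorem jd_mid_new {d : ℕ} (hd : d ∣ M) (z : ℍ) :
    jd (q ^ 2 * d) (UN ((q * M : ℕ) : ℤ) • z) = pre (q * d) (β * d) q jFun z := by
  obtain ⟨m, rfl⟩ := hd
  have hd0 : 0 < d := Nat.pos_of_mul_pos_right hM
  have hq0 : 0 < q := hq.pos
  have hqc : (q : ℂ) ≠ 0 := by exact_mod_cast hq0.ne'
  have hden := mid_denom_ne (q * (d * m)) z
  have hC : (q : ℂ) * e + β * ((d : ℂ) * m) = 1 := by exact_mod_cast h
  let τ : SL(2, ℤ) := ⟨!![(q : ℤ), -((β : ℤ) * d); (m : ℤ), e], by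
    rw [Matrix.det_fin_two_of]; push_cast at h; linarith⟩
  have t00 : τ 0 0 = (q : ℤ) := rfl
  have t01 : τ 0 1 = -((β : ℤ) * d) := rfl
  have t10 : τ 1 0 = (m : ℤ) := rfl
  have t11 : τ 1 1 = e := rfl
  unfold jd pre
  apply expandB_jFun_eq_of_coe τ
  rw [expandB_coe_ofComplex _ _ _ (Nat.mul_pos (pow_pos hq0 2) hd0) one_pos,
    expandB_coe_ofComplex _ _ _ (Nat.mul_pos hq0 hd0) hq0, mid_coe_UN, t00, t01, t10, t11]
  push_cast at hden ⊢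
  exact mid_alg1 q d m β e z hqc hden hC

variable {r : ℕ} (D : WtOne r) (hr : 0 < r) (hrM : r ∣ M)

include hr hrM

theorem Th_mid_0 (z : ℍ) :
    D.Th (UN ((q * M : ℕ) : ℤ) • z) = ((q : ℂ) * M * (z : ℂ) + 1) * D.Th z := by
  have h1 := D.slash (UN ((q * M : ℕ) : ℤ)) (mid_UN_mem (Dvd.dvd.mul_left hrM q)) z
  have e10 : (UN ((q * M : ℕ) : ℤ)) 1 0 = ((q * M : ℕ) : ℤ) := rfl
  have e11 : (UN ((q * M : ℕ) : ℤ)) 1 1 = 1 := rfl
  rw [e10, e11, D.chi_one hr] at h1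
  rw [h1]
  push_cast
  ring

theorem Th_mid_1 (z : ℍ) :
    pre q 0 1 D.Th (UN ((q * M : ℕ) : ℤ) • z) = ((q : ℂ) * M * (z : ℂ) + 1) * pre q 0 1 D.Th z := by
  have hq0 : 0 < q := hq.pos
  have hden := mid_denom_ne (q * M) z
  have e00 : (UN ((M : ℕ) : ℤ)) 0 0 = 1 := rfl
  have e01 : (UN ((M : ℕ) : ℤ)) 0 1 = 0 := rfl
  have e10 : (UN ((M : ℕ) : ℤ)) 1 0 = ((M : ℕ) : ℤ) := rfl
  have e11 : (UN ((M : ℕ) : ℤ)) 1 1 = 1 := rfl
  unfold pre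
  have h1 := Aut1.of_coe (D.slash (UN ((M : ℕ) : ℤ)) (mid_UN_mem hrM))
    (w := ofComplex (((q : ℂ) * z + (0 : ℕ)) / (1 : ℕ)))
    (w' := ofComplex (((q : ℂ) * (UN ((q * M : ℕ) : ℤ) • z : ℍ) + (0 : ℕ)) / (1 : ℕ))) (by
      rw [expandB_coe_ofComplex _ _ _ hq0 one_pos, expandB_coe_ofComplex _ _ _ hq0 one_pos,
        mid_coe_UN, e00, e01, e10, e11]
      push_cast at hden ⊢
      exact mid_alg2 q M z hden)
  rw [h1, e10, e11, D.chi_one hr, expandB_coe_ofComplex _ _ _ hq0 one_pos]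
  push_cast
  ring

theorem chi_e : D.chi e = D.chi q := by
  obtain ⟨m, rfl⟩ := hrM
  have h1 : D.chi (e * q) = 1 := by
    have : e * q = 1 + r * (-(β * m)) := by push_cast at h; linarith
    rw [this, D.chi_add, D.chi_one hr]
  have h2 : D.chi q * D.chi q = 1 := by
    apply D.chi_sq
    exact ⟨e, β * m, by push_cast at h; linarith⟩
  rw [D.chi_mul] at h1
  calc D.chi e = D.chi e * (D.chi q * D.chi q) := by rw [h2, mul_one]
    _ = (D.chi e * D.chi q) * D.chi q := by ring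
    _ = D.chi q := by rw [h1, one_mul]

theorem Th_mid_2 (z : ℍ) :
    pre (q ^ 2) 0 1 D.Th (UN ((q * M : ℕ) : ℤ) • z) =
      (D.chi q : ℂ) * (((q : ℂ) * M * (z : ℂ) + 1) / q) * pre q β q D.Th z := by
  have hq0 : 0 < q := hq.pos
  have hqc : (q : ℂ) ≠ 0 := by exact_mod_cast hq0.ne'
  have hden := mid_denom_ne (q * M) z
  have hC : (q : ℂ) * e + β * (M : ℂ) = 1 := by exact_mod_cast h
  let τ : SL(2, ℤ) := ⟨!![(q : ℤ), -(β : ℤ); (M : ℤ), e], by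
    rw [Matrix.det_fin_two_of]; linarith⟩
  have t00 : τ 0 0 = (q : ℤ) := rfl
  have t01 : τ 0 1 = -(β : ℤ) := rfl
  have t10 : τ 1 0 = (M : ℤ) := rfl
  have t11 : τ 1 1 = e := rfl
  have hτ : τ ∈ Gamma0 r := by
    rw [Gamma0_mem, t10, Int.cast_natCast]
    exact (ZMod.natCast_eq_zero_iff M r).2 hrM
  unfold pre
  have h1 := Aut1.of_coe (D.slash τ hτ)
    (w := ofComplex (((q : ℂ) * z + (β : ℕ)) / (q : ℕ)))
    (w' := ofComplex ((((q ^ 2 : ℕ) : ℂ) * (UN ((q * M : ℕ) : ℤ) • z : ℍ) + (0 : ℕ)) / (1 : ℕ))) (by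
      rw [expandB_coe_ofComplex _ _ _ hq0 hq0, expandB_coe_ofComplex _ _ _ (pow_pos hq0 2) one_pos,
        mid_coe_UN, t00, t01, t10, t11]
      push_cast at hden ⊢
      have := mid_alg1 q 1 M β e z hqc (by rwa [one_mul]) (by rwa [one_mul])
      simpa only [one_mul, mul_one] using this)
  rw [h1, t10, t11, chi_e hq hM β e h D hr hrM, expandB_coe_ofComplex _ _ _ hq0 hq0]
  congr 2
  push_cast
  field_simp
  linear_combination hC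

theorem y_mid_q (z : ℍ) : D.y q (UN ((q * M : ℕ) : ℤ) • z) = D.y q z := by
  have hden := mid_denom_ne (q * M) z
  rw [Nat.cast_mul] at hden
  show pre q 0 1 D.Th _ * D.ThI _ = pre q 0 1 D.Th z * D.ThI z
  rw [Th_mid_1 hq hM β e h D hr hrM, mid_ThI_eq, mid_ThI_eq, Th_mid_0 hq hM β e h D hr hrM]
  have := mid_Th_ne D z
  field_simp

theorem y_mid_qq (z : ℍ) :
    D.y (q ^ 2) (UN ((q * M : ℕ) : ℤ) • z) = ((D.chi q : ℂ) / q) * (pre q β q D.Th z * D.ThI z) := by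
  have hden := mid_denom_ne (q * M) z
  rw [Nat.cast_mul] at hden
  have hqc : (q : ℂ) ≠ 0 := by exact_mod_cast hq.pos.ne'
  show pre (q ^ 2) 0 1 D.Th _ * D.ThI _ = _
  rw [Th_mid_2 hq hM β e h D hr hrM, mid_ThI_eq, mid_ThI_eq, Th_mid_0 hq hM β e h D hr hrM]
  have := mid_Th_ne D z
  field_simp

end

end Fermat.Agent.S36.ModA
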