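import Fermat.Agent.S36.ModA.Defs
import Fermat.Agent.S28.DeltaQExp
import Fermat.Agent.S34.Mod.EtaExp

set_option autoImplicit false

/-!
# MOD36-A / task A-Pf : `Pf z = ∏ (1 - qⁿ)` and its inverse are holomorphic, `1`-periodic, bounded at `i∞`; `q`-expansion

`IsBd 1 f := Periodic (f ∘ ofComplex) ((1:ℕ):ℝ):ℂ) ∧ MDiff f ∧ IsBoundedAtImInfty f`.
* periodicity: `eta_q n (z+1) = eta_q n z`; for `im z ≤ 0` both sides are the junk value (`ofComplex_apply_of_im_nonpos`), see `NV.level_periodic_one`, which reduces it to `act T f = f` (`S24.expA_act_T_apply`).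
* holomorphy: `ModularForm.differentiableAt_eta_tprod` + `UpperHalfPlane.mdifferentiable_iff`; `Pf z ≠ 0` is `ModularForm.eta_tprod_ne_zero z.2`.
* `Pf z = F (𝕢 1 z)`, `F q = ∏' n, (1 - q ^ (n+1))`, `F` is differentiable (so continuous) on the unit ball (`ModularForm.differentiableOn_tprod_one_sub_pow`), `F 0 = 1`; `𝕢 1 z → 0` as `im z → ∞`
  (`UpperHalfPlane.qParam_tendsto_atImInfty` or `Function.Periodic.qParam_tendsto`), so `Pf → 1`, `PfI → 1`: both bounded (`Filter.Tendsto.isBigO_one`, `IsBoundedAtImInfty` unfolds to `BoundedAtFilter atImInfty`).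
* `TInf_Pf`: `S24.TInf_of_isBd` : `TInf 1 f = ofPowerSeries (qExpansion 1 f)`; copy the proof of `S28.qExpansion_discriminant` (`qExpansion_eq_tay`, `tay_congr`, `tay_tprod_one_sub_pow`):
  `cuspFunction 1 Pf =ᶠ[𝓝 0] F` (for `q ≠ 0` in the ball: `Function.Periodic.cuspFunction_eq_of_nonzero` + `𝕢 1 (invQParam 1 q) = q`; at `q = 0`: the limit, `Function.Periodic.cuspFunction_zero_eq_limUnder_nhds_ne` and continuity of `F`; compare Mathlib's `discriminant_cuspFunction_eqOn`).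
-/

open UpperHalfPlane ModularForm
open scoped MatrixGroups Manifold

noncomputable section

namespace Fermat.Agent.S36.ModA

open ModularCurve Fermat.Agent.S24 Fermat.Agent.NV

theorem Pf_ne_zero (z : ℍ) : Pf z ≠ 0 := eta_tprod_ne_zero z.2

theorem Pf_mul_PfI (z : ℍ) : Pf z * PfI z = 1 := mul_inv_cancel₀ (Pf_ne_zero z)

theorem isBd_Pf : IsBd 1 Pf := Mod.EtaExp.isBd_e

theorem isBd_PfI : IsBd 1 PfI := by
  refine ⟨?_, Mod.Eta.mdiff_inv isBd_Pf.2.1 Pf_ne_zero, ?_⟩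
  · intro w
    have := isBd_Pf.1 w
    simp only [Function.comp_apply, PfI] at this ⊢
    rw [this]
  · have h0 : Mod.EtaExp.G0 0 = 1 := by simp [Mod.EtaExp.G0]
    have h1 : Filter.Tendsto Pf atImInfty (nhds (Mod.EtaExp.G0 0)) :=
      Mod.EtaExp.tendsto_cmp (G := Mod.EtaExp.G0) differentiableOn_tprod_one_sub_pow
    have h2 : Filter.Tendsto PfI atImInfty (nhds (Mod.EtaExp.G0 0)⁻¹) :=
      h1.inv₀ (by rw [h0]; exact one_ne_zero)
    exact h2.isBigO_one ℝ

theorem TInf_Pf : TInf 1 ⟨Pf, isBd_Pf.isPer⟩ = ofZ ℂ etaProd := Mod.EtaExp.TInf_e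

theorem ofZ_mul (A : Type*) [CommRing A] (f g : PowerSeries ℤ) : ofZ A (f * g) = ofZ A f * ofZ A g := by
  simp [ofZ]

theorem ofZ_one (A : Type*) [CommRing A] : ofZ A 1 = 1 := by
  simp [ofZ]

theorem ofZ_pow (A : Type*) [CommRing A] (f : PowerSeries ℤ) (k : ℕ) : ofZ A (f ^ k) = ofZ A f ^ k := by
  simp [ofZ]

theorem ofZ_mul_inv (A : Type*) [CommRing A] (f : PowerSeries ℤ) (hf : PowerSeries.constantCoeff f = 1) :
    ofZ A f * ofZ A (f.invOfUnit 1) = 1 := by
  rw [← ofZ_mul, PowerSeries.mul_invOfUnit f 1 (by simpa using hf), ofZ_one]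

theorem TInf_PfI : TInf 1 ⟨PfI, isBd_PfI.isPer⟩ = ofZ ℂ (etaProd.invOfUnit 1) :=
  Mod.EtaExp.TInf_einv

/-- `f(Q^d)` for integral power series. -/
theorem Vz_ofZ (A : Type*) [CommRing A] {d : ℕ} (hd : 0 < d) (f : PowerSeries ℤ) :
    Vz A d (ofZ A f) = ofZ A (expZ d f) := by
  have : NeZero d := ⟨hd.ne'⟩
  have h1 : expZ d f = f.expand d hd.ne' := by
    ext k
    rw [expZ, PowerSeries.coeff_mk, PowerSeries.coeff_expand]
  rw [Vz_eq, h1]
  exact Mod.Coef.qExpand_ph A d f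

theorem coeffMap_ofZ {A B : Type*} [CommRing A] [CommRing B] (σ : A →+* B) (f : PowerSeries ℤ) :
    coeffMap σ (ofZ A f) = ofZ B f :=
  Mod.Coef.coeffMap_ph σ f

theorem coeffMap_Vz {A B : Type*} [CommRing A] [CommRing B] (σ : A →+* B) (d : ℕ) (x : LaurentSeries A) :
    coeffMap σ (Vz A d x) = Vz B d (coeffMap σ x) := by
  rw [Vz, Vz, coeffMap_qExpand]

theorem constantCoeff_expZ {d : ℕ} (f : PowerSeries ℤ) :
    PowerSeries.constantCoeff (expZ d f) = PowerSeries.constantCoeff f := by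
  rw [← PowerSeries.coeff_zero_eq_constantCoeff_apply, ← PowerSeries.coeff_zero_eq_constantCoeff_apply,
    expZ, PowerSeries.coeff_mk, if_pos (dvd_zero d), Nat.zero_div]

end Fermat.Agent.S36.ModA
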