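import Fermat.Agent.S36.ModA.Defs

set_option autoImplicit false

/-!
# MOD36-A / task A-Poly : rational polynomial expressions in elements of `perSub L`

## A-Poly (`TInf_aeval`, `aeval_map`)
`MvPolynomial.induction_on P` (constants, sums, `p * X i`); `TInf L` is a ring hom on the subring `perSub L` (`map_add`, `map_mul` applied to subtype elements; equalities of subtypes are `rfl`/`Subtype.ext rfl`);
constants: `S24.TInf_const L c h : TInf L ⟨fun _ => c, h⟩ = C c`-like (look at its statement), `S24.isBd_const`; `algebraMap ℚ (ℍ → ℂ) c = fun _ => (c : ℂ)`.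

-/

open UpperHalfPlane ModularForm CongruenceSubgroup
open scoped MatrixGroups Manifold

noncomputable section

namespace Fermat.Agent.S36.ModA

open ModularCurve Fermat.Agent.S24 Fermat.Agent.NV Fermat.Agent.Mod

/-- polynomial expressions in elements of `perSub L`. -/
theorem TInf_aeval {I : Type*} (L : ℕ) [NeZero L] (f : I → ℍ → ℂ) (s : I → LaurentSeries ℂ)
    (h : ∀ i, ∃ hi : f i ∈ perSub L, TInf L ⟨f i, hi⟩ = s i) (P : MvPolynomial I ℚ) :
    ∃ hP : MvPolynomial.aeval f P ∈ perSub L, TInf L ⟨MvPolynomial.aeval f P, hP⟩ = MvPolynomial.aeval s P := by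
  induction P using MvPolynomial.induction_on with
  | C c =>
    have e : MvPolynomial.aeval f (MvPolynomial.C c) = fun _ : ℍ => (c : ℂ) := by
      rw [MvPolynomial.aeval_C]
      funext z
      simp
    rw [e, MvPolynomial.aeval_C]
    have hm : (fun _ : ℍ => (c : ℂ)) ∈ perSub L := (isBd_const L c).isPer
    refine ⟨hm, ?_⟩
    rw [TInf_const, eq_ratCast, map_ratCast]
  | add p q hp hq =>
    obtain ⟨hp1, hp2⟩ := hp
    obtain ⟨hq1, hq2⟩ := hq
    rw [map_add, map_add]
    refine ⟨add_mem hp1 hq1, ?_⟩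
    rw [← hp2, ← hq2]
    exact map_add (TInf L) ⟨_, hp1⟩ ⟨_, hq1⟩
  | mul_X p i hp =>
    obtain ⟨hp1, hp2⟩ := hp
    obtain ⟨hi1, hi2⟩ := h i
    rw [map_mul, map_mul, MvPolynomial.aeval_X, MvPolynomial.aeval_X]
    refine ⟨mul_mem hp1 hi1, ?_⟩
    rw [← hp2, ← hi2]
    exact map_mul (TInf L) ⟨_, hp1⟩ ⟨_, hi1⟩

/-- ring homs commute with `aeval` of rational polynomials. -/
theorem aeval_map {I A B : Type*} [CommRing A] [CommRing B] [Algebra ℚ A] [Algebra ℚ B] (g : A →+* B)
    (s : I → A) (P : MvPolynomial I ℚ) :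
    g (MvPolynomial.aeval s P) = MvPolynomial.aeval (fun i => g (s i)) P :=
  MvPolynomial.comp_aeval_apply (φ := g.toRatAlgHom) s P

end Fermat.Agent.S36.ModA
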