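import Fermat.Agent.S36.ModA.Aut
import Fermat.Agent.S36.ModA.Gen
import Fermat.Agent.S36.ModA.Chi

set_option autoImplicit false

/-!
# MOD36-A / task A-Slash9 : the character of `Θ₉ = η(z)³/η(3z)` on `Γ₀(3)` and `Γ₀(9)`

`Θ = EQ par9`, `Θs = EQ par9s`, `ω = om := exp (2πi/3)`.  `EQ_T par9 0`; `EQ_fricke par9 3` (dual parameters `⟨3,3,1,1,3,0⟩`: the same function as `par9s`, the last exponent is `0`);
`EQ_T par9s 8` : `Θs(z+1) = exp (2πi 8/24) Θs(z) = ω Θs(z)`.  So `aut1_UN` gives `Aut1 Θ (UN 3) ω⁻¹`.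
`Gamma0_induction 3` with `P γ := Aut1 Θ γ (psi3 γ)`, `psi3 γ = chiR 9 d * ω ^ (-(c/3) * d)` (`zpow`), using `Aut1.mul`, `Aut1.inv`, `Aut1.neg`.
Needed (with `3 ∣ c`, `3 ∤ d` from the determinant, `ω ^ 3 = 1`, so `ω ^ n` depends on `n mod 3`: `om_zpow_congr`):
`γ T^{±1}`: `d' = d ± c`, `(c/3)(d ± c) ≡ (c/3) d`;  `γ U^{±1}`: `c' = c ± 3 d`, `(c'/3) d = (c/3) d ± d² ≡ (c/3) d ± 1`;  `-γ`: `(c/3) d` unchanged, `chiR_neg`; `chiR9_add`.
Entries: `Matrix.SpecialLinearGroup.coe_mul`, `Matrix.mul_apply`, `Fin.sum_univ_two`, `ModularGroup.coe_T`, `ModularGroup.coe_T_inv`, `Matrix.SpecialLinearGroup.SL2_inv_expl`; `Gamma0_mem`, `ZMod.intCast_zmod_eq_zero_iff_dvd`.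
`slash9`: `Γ₀(9) ≤ Γ₀(3)`; `9 ∣ c` gives `3 ∣ (c/3) d`, `ω ^ _ = 1`.
-/

open UpperHalfPlane ModularForm CongruenceSubgroup
open scoped MatrixGroups Real

noncomputable section

namespace Fermat.Agent.S36.ModA

/-- `exp (2πi/3)`. -/
def om : ℂ := Complex.exp (2 * π * Complex.I / 3)

theorem om_pow_three : om ^ 3 = 1 := by
  rw [om, ← Complex.exp_nat_mul]
  have : ((3 : ℕ) : ℂ) * (2 * π * Complex.I / 3) = 2 * π * Complex.I := by
    push_cast; ring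
  rw [this, Complex.exp_two_pi_mul_I]

theorem om_ne_zero : om ≠ 0 := Complex.exp_ne_zero _

theorem om_zpow_congr {a b : ℤ} (h : (3 : ℤ) ∣ a - b) : om ^ a = om ^ b := by
  obtain ⟨k, hk⟩ := h
  have ha : a = b + 3 * k := by linarith
  rw [ha, zpow_add₀ om_ne_zero, zpow_mul]
  have : om ^ (3 : ℤ) = 1 := by exact_mod_cast om_pow_three
  rw [this, one_zpow, mul_one]

/-- the multiplier of `Θ₉` on `Γ₀(3)`. -/
def psi3 (γ : SL(2, ℤ)) : ℂ := (chiR 9 (γ 1 1) : ℂ) * om ^ (-(γ 1 0 / 3) * γ 1 1)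

theorem slash9_EQ_dual (z : ℍ) : EQ ⟨3 / par9.d1, par9.p, 3 / par9.d2, par9.m, 3 / par9.d3, par9.n⟩ z =
    EQ par9s z := by
  simp [EQ, par9, par9s]

theorem aut1_par9_U : Aut1 (EQ par9) (UN 3) om⁻¹ := by
  obtain ⟨κ, hκ, hF⟩ := EQ_fricke par9 3 (by norm_num) (by norm_num [par9]) (by norm_num [par9])
    (by norm_num [par9]) (by norm_num [par9])
  have hF' : ∀ z : ℍ, EQ par9 (frk 3 z) = κ * (z : ℂ) * EQ par9s z := by
    intro z
    rw [hF z, slash9_EQ_dual]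
  have hT : ∀ z w : ℍ, (w : ℂ) = z + 1 → EQ par9s w = om * EQ par9s z := by
    intro z w h
    rw [EQ_T par9s 8 (by norm_num [par9s]) z w h, om]
    congr 2
    push_cast
    ring
  have := aut1_UN (N := 3) (by norm_num) hκ om_ne_zero hF' hT
  simpa using this

theorem aut1_par9_T : Aut1 (EQ par9) ModularGroup.T 1 := by
  apply aut1_T
  intro z w h
  rw [EQ_T par9 0 (by norm_num [par9]) z w h]
  simp

theorem slash9_psi3_eq {γ γ' : SL(2, ℤ)} (e : ℤ) (hχ : chiR 9 (γ' 1 1) = chiR 9 (γ 1 1))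
    (he : (3 : ℤ) ∣ (-(γ' 1 0 / 3) * γ' 1 1) - (-(γ 1 0 / 3) * γ 1 1 + e)) :
    psi3 γ' = psi3 γ * om ^ e := by
  rw [psi3, psi3, hχ, om_zpow_congr he, zpow_add₀ om_ne_zero, mul_assoc]

theorem slash9_dvd {N : ℕ} {γ : SL(2, ℤ)} (h : γ ∈ Gamma0 N) : (N : ℤ) ∣ γ 1 0 := by
  rw [Gamma0_mem] at h
  exact (ZMod.intCast_zmod_eq_zero_iff_dvd _ _).1 h

theorem slash9_sq {γ : SL(2, ℤ)} (h : (3 : ℤ) ∣ γ 1 0) : (3 : ℤ) ∣ γ 1 1 * γ 1 1 - 1 := by
  have hdet := Matrix.SpecialLinearGroup.det_coe γ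
  rw [Matrix.det_fin_two] at hdet
  obtain ⟨c, hc⟩ := h
  rw [hc] at hdet
  have h3 : γ 1 1 % 3 = 0 ∨ γ 1 1 % 3 = 1 ∨ γ 1 1 % 3 = 2 := by omega
  rcases h3 with h3 | h3 | h3
  · exfalso
    obtain ⟨d, hd⟩ : (3 : ℤ) ∣ γ 1 1 := Int.dvd_of_emod_eq_zero h3
    rw [hd] at hdet
    have : (3 : ℤ) ∣ 1 := ⟨γ 0 0 * d - γ 0 1 * c, by linarith⟩
    omega
  · obtain ⟨d, hd⟩ : (3 : ℤ) ∣ γ 1 1 - 1 := Int.dvd_self_sub_of_emod_eq h3 |> fun h => by omega
    have : γ 1 1 = 1 + 3 * d := by linarith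
    rw [this]
    exact ⟨2 * d + 3 * d * d, by ring⟩
  · obtain ⟨d, hd⟩ : (3 : ℤ) ∣ γ 1 1 - 2 := by omega
    have : γ 1 1 = 2 + 3 * d := by linarith
    rw [this]
    exact ⟨1 + 4 * d + 3 * d * d, by ring⟩

theorem slash9_T10 (γ : SL(2, ℤ)) : (γ * ModularGroup.T) 1 0 = γ 1 0 := by
  simp [Matrix.SpecialLinearGroup.coe_mul, Matrix.mul_apply, Fin.sum_univ_two, ModularGroup.coe_T]

theorem slash9_T11 (γ : SL(2, ℤ)) : (γ * ModularGroup.T) 1 1 = γ 1 0 + γ 1 1 := by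
  simp [Matrix.SpecialLinearGroup.coe_mul, Matrix.mul_apply, Fin.sum_univ_two, ModularGroup.coe_T]

theorem slash9_Ti10 (γ : SL(2, ℤ)) : (γ * ModularGroup.T⁻¹) 1 0 = γ 1 0 := by
  simp [Matrix.SpecialLinearGroup.coe_mul, Matrix.mul_apply, Fin.sum_univ_two]

theorem slash9_Ti11 (γ : SL(2, ℤ)) : (γ * ModularGroup.T⁻¹) 1 1 = - γ 1 0 + γ 1 1 := by
  simp [Matrix.SpecialLinearGroup.coe_mul, Matrix.mul_apply, Fin.sum_univ_two]

theorem slash9_coe_UN (N : ℤ) : ((UN N : SL(2, ℤ)) : Matrix (Fin 2) (Fin 2) ℤ) = !![1, 0; N, 1] := rfl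

theorem slash9_coe_UN_inv (N : ℤ) :
    (((UN N)⁻¹ : SL(2, ℤ)) : Matrix (Fin 2) (Fin 2) ℤ) = !![1, 0; -N, 1] := by
  rw [Matrix.SpecialLinearGroup.SL2_inv_expl]
  simp [slash9_coe_UN]
  rfl

theorem slash9_U10 (γ : SL(2, ℤ)) (N : ℤ) : (γ * UN N) 1 0 = γ 1 0 + γ 1 1 * N := by
  rw [Matrix.SpecialLinearGroup.coe_mul, slash9_coe_UN, Matrix.mul_apply, Fin.sum_univ_two]
  simp

theorem slash9_U11 (γ : SL(2, ℤ)) (N : ℤ) : (γ * UN N) 1 1 = γ 1 1 := by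
  rw [Matrix.SpecialLinearGroup.coe_mul, slash9_coe_UN, Matrix.mul_apply, Fin.sum_univ_two]
  simp

theorem slash9_Ui10 (γ : SL(2, ℤ)) (N : ℤ) : (γ * (UN N)⁻¹) 1 0 = γ 1 0 - γ 1 1 * N := by
  rw [Matrix.SpecialLinearGroup.coe_mul, slash9_coe_UN_inv, Matrix.mul_apply, Fin.sum_univ_two]
  simp
  ring

theorem slash9_Ui11 (γ : SL(2, ℤ)) (N : ℤ) : (γ * (UN N)⁻¹) 1 1 = γ 1 1 := by
  rw [Matrix.SpecialLinearGroup.coe_mul, slash9_coe_UN_inv, Matrix.mul_apply, Fin.sum_univ_two]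
  simp

theorem slash3 : ∀ γ ∈ Gamma0 3, Aut1 (EQ par9) γ (psi3 γ) := by
  apply Gamma0_induction 3 (Or.inl rfl) (fun γ => Aut1 (EQ par9) γ (psi3 γ))
  · have : psi3 1 = 1 := by simp [psi3, chiR]
    rw [this]
    exact aut1_one _
  · intro γ hγ h
    obtain ⟨c, hc⟩ := slash9_dvd hγ
    have e : psi3 (-γ) = - psi3 γ := by
      have h10 : (-γ) 1 0 = - γ 1 0 := by simp
      have h11 : (-γ) 1 1 = - γ 1 1 := by simp
      rw [psi3, psi3, h10, h11, chiR_neg, hc]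
      have : -(-((3 : ℕ) * c) / 3) * -γ 1 1 = -((3 : ℕ) * c / 3) * γ 1 1 := by
        have h1 : (-(((3 : ℕ) : ℤ) * c)) / 3 = -c := by
          push_cast; omega
        have h2 : (((3 : ℕ) : ℤ) * c) / 3 = c := by
          push_cast; omega
        rw [h1, h2]; ring
      rw [this]
      push_cast
      ring
    rw [e]
    exact h.neg
  · intro γ hγ h
    obtain ⟨c, hc⟩ := slash9_dvd hγ
    push_cast at hc
    have e : psi3 (γ * ModularGroup.T) = psi3 γ * om ^ (0 : ℤ) := by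
      apply slash9_psi3_eq
      · rw [slash9_T11, hc, add_comm, chiR9_add]
      · rw [slash9_T10, slash9_T11, hc]
        have h2 : (3 * c) / 3 = c := by omega
        rw [h2]
        exact ⟨- c * c, by ring⟩
    rw [zpow_zero] at e
    rw [e]
    exact h.mul aut1_par9_T
  · intro γ hγ h
    obtain ⟨c, hc⟩ := slash9_dvd hγ
    push_cast at hc
    have e : psi3 (γ * ModularGroup.T⁻¹) = psi3 γ * om ^ (0 : ℤ) := by
      apply slash9_psi3_eq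
      · rw [slash9_Ti11, hc, add_comm]
        have := chiR9_add (γ 1 1) (-c)
        rw [← this]
        congr 1
        ring
      · rw [slash9_Ti10, slash9_Ti11, hc]
        have h2 : (3 * c) / 3 = c := by omega
        rw [h2]
        exact ⟨c * c, by ring⟩
    rw [zpow_zero] at e
    rw [e]
    have := h.mul (aut1_par9_T.inv one_ne_zero)
    rwa [inv_one] at this
  · intro γ hγ h
    obtain ⟨c, hc⟩ := slash9_dvd hγ
    obtain ⟨s, hs⟩ := slash9_sq (slash9_dvd hγ)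
    push_cast at hc
    have e : psi3 (γ * UN (3 : ℕ)) = psi3 γ * om ^ (-1 : ℤ) := by
      apply slash9_psi3_eq
      · rw [slash9_U11]
      · rw [slash9_U10, slash9_U11, hc]
        have h2 : (3 * c) / 3 = c := by omega
        have h3 : (3 * c + γ 1 1 * ((3 : ℕ) : ℤ)) / 3 = c + γ 1 1 := by push_cast; omega
        rw [h2, h3]
        exact ⟨- s, by linear_combination - hs⟩
    rw [e, zpow_neg_one]
    have hU := aut1_par9_U
    exact h.mul (by simpa using hU)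
  · intro γ hγ h
    obtain ⟨c, hc⟩ := slash9_dvd hγ
    obtain ⟨s, hs⟩ := slash9_sq (slash9_dvd hγ)
    push_cast at hc
    have e : psi3 (γ * (UN (3 : ℕ))⁻¹) = psi3 γ * om ^ (1 : ℤ) := by
      apply slash9_psi3_eq
      · rw [slash9_Ui11]
      · rw [slash9_Ui10, slash9_Ui11, hc]
        have h2 : (3 * c) / 3 = c := by omega
        have h3 : (3 * c - γ 1 1 * ((3 : ℕ) : ℤ)) / 3 = c - γ 1 1 := by push_cast; omega
        rw [h2, h3]
        exact ⟨s, by linear_combination hs⟩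
    rw [e, zpow_one]
    have hU := aut1_par9_U.inv (inv_ne_zero om_ne_zero)
    rw [inv_inv] at hU
    exact h.mul (by simpa using hU)

theorem slash9 : ∀ γ ∈ Gamma0 9, Aut1 (EQ par9) γ (chiR 9 (γ 1 1)) := by
  intro γ hγ
  obtain ⟨c, hc⟩ := slash9_dvd hγ
  push_cast at hc
  have h3 : γ ∈ Gamma0 3 := by
    rw [Gamma0_mem, ZMod.intCast_zmod_eq_zero_iff_dvd]
    exact ⟨3 * c, by rw [hc]; push_cast; ring⟩
  have h := slash3 γ h3
  have e : psi3 γ = (chiR 9 (γ 1 1) : ℂ) := by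
    rw [psi3, hc]
    have h2 : (9 * c) / 3 = 3 * c := by omega
    rw [h2, om_zpow_congr (b := 0) ⟨- c * γ 1 1, by ring⟩, zpow_zero, mul_one]
  rwa [e] at h

end Fermat.Agent.S36.ModA
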