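import Fermat.Agent.S36.ModA.Slash4
import Fermat.Agent.S36.ModA.Slash9

/-! # MOD36-A : `slash4`, `slash9` (aggregator) -/
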