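import Fermat.Agent.S36.ModA.Aut
import Fermat.Agent.S36.ModA.Gen
import Fermat.Agent.S36.ModA.Chi
import Fermat.Agent.S36.ModA.Slash9

set_option autoImplicit false

/-!
# MOD36-A / task A-Slash4 : the character of `Θ₄ = η(2z)¹⁰/(η(z)⁴η(4z)⁴)` on `Γ₀(4)`

`Θ = EQ par4`.  `EQ_T par4 0` : `Θ(z+1) = Θ(z)` (`2*10 = 1*4 + 4*4`), `EQ_fricke par4 4` : `Θ(F z) = κ z Θ(z)` (the dual parameters
`⟨4/2, 10, 4/1, 4, 4/4, 4⟩ = ⟨2,10,4,4,1,4⟩` give the same function: `mul_comm` in the denominator).  So `aut1_T`, `aut1_UN` (`ω = 1`): `Aut1 Θ (UN 4) 1`.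
`Gamma0_induction 4` with `P γ := Aut1 Θ γ (chiR 4 (γ 1 1))`, using `Aut1.mul`, `Aut1.inv`, `Aut1.neg`; entries of `γ T^{±1}`: `d' = d ± c`, of `γ U^{±1}`: `d' = d`, of `-γ`: `d' = -d`
(`Matrix.SpecialLinearGroup.coe_mul`, `Matrix.mul_apply`, `Fin.sum_univ_two`, `ModularGroup.coe_T`, `ModularGroup.coe_T_inv`, `Matrix.SpecialLinearGroup.SL2_inv_expl`);
`4 ∣ c` (`Gamma0_mem`, `ZMod.intCast_zmod_eq_zero_iff_dvd`): `chiR_add 4`, `chiR_neg`.
-/

open UpperHalfPlane ModularForm CongruenceSubgroup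
open scoped MatrixGroups Real

noncomputable section

namespace Fermat.Agent.S36.ModA

theorem slash4_EQ_dual (z : ℍ) : EQ ⟨4 / par4.d1, par4.p, 4 / par4.d2, par4.m, 4 / par4.d3, par4.n⟩ z =
    EQ par4 z := by
  simp [EQ, par4, mul_comm]

theorem aut1_par4_U : Aut1 (EQ par4) (UN 4) 1 := by
  obtain ⟨κ, hκ, hF⟩ := EQ_fricke par4 4 (by norm_num) (by norm_num [par4]) (by norm_num [par4])
    (by norm_num [par4]) (by norm_num [par4])
  have hF' : ∀ z : ℍ, EQ par4 (frk 4 z) = κ * (z : ℂ) * EQ par4 z := by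
    intro z
    rw [hF z, slash4_EQ_dual]
  have hT : ∀ z w : ℍ, (w : ℂ) = z + 1 → EQ par4 w = 1 * EQ par4 z := by
    intro z w h
    rw [EQ_T par4 0 (by norm_num [par4]) z w h]
    simp
  have := aut1_UN (N := 4) (by norm_num) hκ one_ne_zero hF' hT
  simpa using this

theorem aut1_par4_T : Aut1 (EQ par4) ModularGroup.T 1 := by
  apply aut1_T
  intro z w h
  rw [EQ_T par4 0 (by norm_num [par4]) z w h]
  simp

theorem slash4 : ∀ γ ∈ Gamma0 4, Aut1 (EQ par4) γ (chiR 4 (γ 1 1)) := by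
  apply Gamma0_induction 4 (Or.inr rfl) (fun γ => Aut1 (EQ par4) γ (chiR 4 (γ 1 1)))
  · have : ((chiR 4 ((1 : SL(2, ℤ)) 1 1) : ℤ) : ℂ) = 1 := by simp [chiR]
    rw [this]
    exact aut1_one _
  · intro γ hγ h
    have h11 : (-γ) 1 1 = - γ 1 1 := by simp
    rw [h11, chiR_neg]
    push_cast
    exact h.neg
  · intro γ hγ h
    obtain ⟨c, hc⟩ := slash9_dvd hγ
    rw [slash9_T11, hc, add_comm, chiR_add 4 (Or.inr rfl)]
    have := h.mul aut1_par4_T
    rwa [mul_one] at this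
  · intro γ hγ h
    obtain ⟨c, hc⟩ := slash9_dvd hγ
    have e : - γ 1 0 + γ 1 1 = γ 1 1 + ((4 : ℕ) : ℤ) * (-c) := by rw [hc]; ring
    rw [slash9_Ti11, e, chiR_add 4 (Or.inr rfl)]
    have := h.mul (aut1_par4_T.inv one_ne_zero)
    rwa [inv_one, mul_one] at this
  · intro γ hγ h
    rw [slash9_U11]
    have hU := aut1_par4_U
    have := h.mul (γ' := UN (4 : ℕ)) (by simpa using hU)
    rwa [mul_one] at this
  · intro γ hγ h
    rw [slash9_Ui11]
    have hU := aut1_par4_U.inv one_ne_zero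
    have := h.mul (γ' := (UN (4 : ℕ))⁻¹) (by simpa using hU)
    rwa [mul_one] at this

end Fermat.Agent.S36.ModA
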