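import Fermat.Agent.S36.ModA.GMem
import Fermat.Agent.S36.ModA.DeltaQ

set_option autoImplicit false

/-!
# MOD36-A / task A-U : the unit `U = Θ¹²/Δ ∈ F_r` (used by LOCGEN (d): `j = h4³ U`, `j - 1728 = h6² U`, `h4 = E4/Θ⁴`, `h6 = E6/Θ⁶`)

* `uFun z = Θ(z)¹²/Δ(z)`.  `Γ₀(r)`-invariance: `D.slash γ hγ z`, `S24.expandB_discriminant_smul γ z : Δ(γ z) = denom γ z ^ (12:ℤ) * Δ z` (`denom γ z = c z + d`: `simp [denom]` as in `S24.expandB_denom_ne`),
  `χ(d)^12 = 1` (`D.chi_sq`, `d` prime to `r` by the determinant).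
* `uFun ∈ Wh r`: `NV.mem_Wh_of_pow (m := 2) (χ := 1)`, `uFun ^ 2 = fun z => Th z ^ 24 / Δ z ^ 2` is `D.whU`.  `MDiff uFun`: `D.bd.2.1`, `Δ` holomorphic and `≠ 0` (`(S24.isBd_discriminant 1).2.1`, `discriminant_ne_zero`; see how `S24.expandC_isBd_quot` proves `MDiff` of a quotient).
* `uFun ∈ perSub 1` (`IsPer`: `uFun * Δ^1 = Th^12` is `IsBd 1`), and `TInf 1 uFun * TInf 1 Δ = TInf 1 (Th^12)`, `TInf 1 Δ = dS ℂ` (`S24.TInf_of_isBd`, `S28.qExpansion_discriminant`, `S28.dS`: `X * f ↦ single 1 1 * ofPowerSeries f`), `S28.dS_mul_dInv`.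
* `U_mem_rat`: `mem_FK_of_fun r (D.U ℚ) D.uFun`.  Then as in `GMem.lean` (`full_degeneracyC_le`, `Mod.coeffMap_mem_FK`, `S28.coeffMap_dInv`, `S28.coeffMap_dS`, `D.coeffMap_thS`), `Ui = U⁻¹`.
* integrality: `D.intU` + square root (`IsIntegral.of_pow`) + `Mod.IntOver.up`.
-/

open UpperHalfPlane ModularForm CongruenceSubgroup
open scoped MatrixGroups Manifold

noncomputable section

namespace Fermat.Agent.S36.ModA

open ModularCurve Fermat.Agent.S24 Fermat.Agent.NV Fermat.Agent.Mod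

theorem intOver_of_pow {K L : Type*} [CommRing K] [CommRing L] [Algebra K L] {t z : L} {n : ℕ} (hn : 0 < n)
    (h : IntOver K t (z ^ n)) : IntOver K t z := by
  let _ := ((Polynomial.aeval t : Polynomial K →ₐ[K] L) : Polynomial K →+* L).toAlgebra
  exact IsIntegral.of_pow hn h

namespace WtOne
variable {r : ℕ} (D : WtOne r)

/-- `Θ¹²/Δ`. -/
def U (A : Type*) [CommRing A] : LaurentSeries A := D.thS A ^ 12 * S28.dInv A

/-- `Δ/Θ¹²`. -/
def Ui (A : Type*) [CommRing A] : LaurentSeries A := D.thInv A ^ 12 * S28.dS A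

/-- `z ↦ Θ(z)¹²/Δ(z)`. -/
def uFun : ℍ → ℂ := fun z => D.Th z ^ 12 / discriminant z
theorem U_mul_Ui (A : Type*) [CommRing A] : D.U A * D.Ui A = 1 := by
  have h1 := D.thS_mul_thInv A
  have h2 := S28.dS_mul_dInv A
  calc D.U A * D.Ui A = (D.thS A * D.thInv A) ^ 12 * (S28.dS A * S28.dInv A) := by rw [U, Ui]; ring
    _ = 1 := by rw [h1, h2]; simp

theorem coeffMap_U {A B : Type*} [CommRing A] [CommRing B] (σ : A →+* B) :
    coeffMap σ (D.U A) = D.U B := by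
  rw [U, U, map_mul, map_pow, D.coeffMap_thS, S28.coeffMap_dInv]

theorem coeffMap_Ui {A B : Type*} [CommRing A] [CommRing B] (σ : A →+* B) :
    coeffMap σ (D.Ui A) = D.Ui B := by
  rw [Ui, Ui, map_mul, map_pow, D.coeffMap_thInv, S28.coeffMap_dS]

theorem uFun_eqv : IsEqv r 1 D.uFun := by
  intro γ z
  obtain ⟨γ, hγ⟩ := γ
  have hc : ((r : ℕ) : ℤ) ∣ γ 1 0 := by
    rw [Gamma0_mem] at hγ
    exact (ZMod.intCast_zmod_eq_zero_iff_dvd _ _).1 hγ
  obtain ⟨k, hk⟩ := hc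
  have hdet : γ 0 0 * γ 1 1 - γ 0 1 * γ 1 0 = 1 := by
    have := γ.det_coe
    rwa [Matrix.det_fin_two] at this
  have hcop : IsCoprime (γ 1 1) (r : ℤ) := ⟨γ 0 0, -(γ 0 1 * k), by rw [hk] at hdet; linear_combination hdet⟩
  have hχ : ((D.chi (γ 1 1) : ℤ) : ℂ) * ((D.chi (γ 1 1) : ℤ) : ℂ) = 1 := by
    exact_mod_cast D.chi_sq _ hcop
  have e2 := D.slash γ hγ z
  have e3 := disc_smul γ z
  have hden := expandB_denom_ne γ z
  have hΔ := discriminant_ne_zero z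
  show D.Th (γ • z) ^ 12 / discriminant (γ • z) = ((1 : ℂˣ) : ℂ) * (D.Th z ^ 12 / discriminant z)
  rw [Units.val_one, one_mul, e2, e3]
  generalize ((γ 1 0 : ℤ) : ℂ) * (z : ℂ) + ((γ 1 1 : ℤ) : ℂ) = Q at *
  generalize ((D.chi (γ 1 1) : ℤ) : ℂ) = c at *
  have hc12 : c ^ 12 = 1 := by
    calc c ^ 12 = (c * c) ^ 6 := by ring
      _ = 1 := by rw [hχ, one_pow]
  rw [mul_pow, mul_pow, hc12]
  field_simp

theorem uFun_mdiff : MDiff D.uFun := by
  have h1 := UpperHalfPlane.mdifferentiable_iff.mp (D.bd.pow 12).2.1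
  have h2 := UpperHalfPlane.mdifferentiable_iff.mp (isBd_discriminant 1).2.1
  rw [UpperHalfPlane.mdifferentiable_iff]
  refine h1.div h2 ?_
  intro z _
  exact discriminant_ne_zero _

theorem uFun_mem_Wh : D.uFun ∈ Wh r := by
  refine NV.mem_Wh_of_pow (m := 2) (by norm_num) (χ := 1) (fun _ _ => rfl) D.uFun_mdiff D.uFun_eqv ?_
  convert D.whU using 1
  funext z
  simp only [Pi.pow_apply, uFun]
  rw [div_pow, ← pow_mul]

theorem uFun_mem_perSub : D.uFun ∈ perSub 1 := by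
  refine ⟨1, ?_⟩
  convert D.bd.pow 12 using 1
  funext z
  simp only [Pi.mul_apply, Pi.pow_apply, uFun, pow_one]
  exact div_mul_cancel₀ _ (discriminant_ne_zero z)

theorem TInf_disc : TInf 1 ⟨discriminant, (isBd_discriminant 1).isPer⟩ = S28.dS ℂ := by
  rw [TInf_of_isBd 1 _ (isBd_discriminant 1)]
  have := S28.qExpansion_discriminant
  simp only [Nat.cast_one]
  rw [this, S28.dS, map_mul]
  congr 1
  simp

theorem TInf_uFun : TInf 1 ⟨D.uFun, D.uFun_mem_perSub⟩ = D.U ℂ := by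
  have h1 : (⟨D.uFun, D.uFun_mem_perSub⟩ : perSub 1) * ⟨discriminant, (isBd_discriminant 1).isPer⟩ =
      ⟨D.Th, D.bd.isPer⟩ ^ 12 := by
    apply Subtype.ext
    funext z
    show D.Th z ^ 12 / discriminant z * discriminant z = D.Th z ^ 12
    exact div_mul_cancel₀ _ (discriminant_ne_zero z)
  have h2 := congrArg (TInf 1) h1
  rw [map_mul, map_pow, D.tinf, TInf_disc] at h2
  have h3 := S28.dS_mul_dInv ℂ
  calc TInf 1 ⟨D.uFun, D.uFun_mem_perSub⟩
      = (TInf 1 ⟨D.uFun, D.uFun_mem_perSub⟩ * S28.dS ℂ) * S28.dInv ℂ := by rw [mul_assoc, h3, mul_one]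
    _ = D.U ℂ := by rw [h2, U, thS]

theorem U_mem_rat (hr : 0 < r) : D.U ℚ ∈ FK ℚ r := by
  have : NeZero r := ⟨hr.ne'⟩
  exact mem_FK_of_fun r (D.U ℚ) D.uFun D.uFun_mem_Wh D.uFun_eqv D.uFun_mem_perSub
    (by rw [D.TInf_uFun, coeffMap_U])

theorem U_mem (hr : 0 < r) (K : Type) [Field K] [CharZero K] {N : ℕ} [NeZero N] (h : r ∣ N) :
    D.U K ∈ FK K N := by
  have : NeZero r := ⟨hr.ne'⟩
  have h1 : D.U ℚ ∈ FK ℚ N := full_degeneracyC_le ℚ h (D.U_mem_rat hr)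
  have h2 := coeffMap_mem_FK (algebraMap ℚ K) N h1
  rwa [coeffMap_U] at h2

theorem Ui_mem (hr : 0 < r) (K : Type) [Field K] [CharZero K] {N : ℕ} [NeZero N] (h : r ∣ N) :
    D.Ui K ∈ FK K N := by
  rw [eq_inv_of_mul_eq_one_right (D.U_mul_Ui K)]
  exact inv_mem (D.U_mem hr K h)

theorem intOver_U (K : Type) [Field K] [CharZero K] : IntOver K (jqModC K) (D.U K) := by
  have h1 : IntOver ℚ (jqModC ℚ) (D.U ℚ) := intOver_of_pow (n := 2) (by norm_num) D.intU.1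
  have h2 := IntOver.up (algebraMap ℚ K) h1
  rwa [coeffMap_U, coeffMap_jqModC] at h2

theorem intOver_Ui (K : Type) [Field K] [CharZero K] : IntOver K (jqModC K) (D.Ui K) := by
  have h1 : IntOver ℚ (jqModC ℚ) (D.Ui ℚ) := intOver_of_pow (n := 2) (by norm_num) D.intU.2
  have h2 := IntOver.up (algebraMap ℚ K) h1
  rwa [coeffMap_Ui, coeffMap_jqModC] at h2

end WtOne
end Fermat.Agent.S36.ModA
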