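import Fermat.Agent.S36.ModA.GFun
import Fermat.Agent.S34.Mod.AlPerm

set_option autoImplicit false

/-!
# MOD36-A / task A-WFun : `G_q`, `G_{q²}` under the Atkin-Lehner involution `w_{q²}` of level `N = q² M`

`u, v : ℤ` with `q² u - M v = 1`;  `σ₀ = (u v; M q²) ∈ SL(2,ℤ)`,  `μ z = σ₀ • (q² z)`, i.e. `μ = W = (q² u, v; q² M, q²)` of determinant `q²`:
`↑(μ z) = (q² u z + v)/(q² (M z + 1))`.

## A-WFun
For `i ≤ 2`, `δ ∣ M`:  `τ = (q^i u, δ v; M/δ, q^(2-i)) ∈ SL(2,ℤ)`, `w = δ q^(2-i) z`, `w' = q^i δ (μ z)`:  `τ₁₀ w + τ₁₁ = q^(2-i) (M z + 1)`, `w' (τ₁₀ w + τ₁₁) = δ (q² u z + v) = τ₀₀ w + τ₀₁`.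
* `jd_mu`: `S24.expandB_jFun_eq_of_coe τ`;  every `d ∣ q² M` is `q^i δ` with `i ≤ 2`, `δ ∣ M`, `q ∤ δ` (`Nat.Coprime`, e.g. `(Nat.dvd_mul).mp` / `Nat.Coprime.dvd_mul..`, `(Nat.dvd_prime_pow hq).mp`), `gcd (q^i δ) (q²) = q^i`, so `alPerm (q²) d = q^(2-i) δ`.
  `jd d z = jFun (ofComplex ((d z + 0)/1))` (`jd`, `pre`), `S24.expandB_coe_ofComplex`.
* `Th_mu` (`δ = 1`, `τ ∈ Γ₀(M) ≤ Γ₀(r)`): `Aut1.of_coe (D.slash τ _)`.
* `y_mu_q`, `y_mu_qq`: divide (`D.mul_inv`; `ThI = 1/Th`); `χ(q²) = χ(q)² = 1`, `χ(1) = 1` (`chi_one`), `M z + 1 ≠ 0` (imaginary part), `q ≠ 0`.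

-/

open UpperHalfPlane ModularForm CongruenceSubgroup
open scoped MatrixGroups Manifold

noncomputable section

namespace Fermat.Agent.S36.ModA

open ModularCurve Fermat.Agent.S24 Fermat.Agent.NV Fermat.Agent.Mod

/-- `(u v; M q²)`. -/
def sig0 (q M : ℕ) (u v : ℤ) (h : (q : ℤ) ^ 2 * u - M * v = 1) : SL(2, ℤ) :=
  ⟨!![u, v; (M : ℤ), (q : ℤ) ^ 2], by rw [Matrix.det_fin_two_of]; linarith⟩

/-- the Atkin-Lehner map `z ↦ W z`, `W = (q² u, v; q² M, q²)`. -/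
def muW (q M : ℕ) (u v : ℤ) (h : (q : ℤ) ^ 2 * u - M * v = 1) (z : ℍ) : ℍ :=
  sig0 q M u v h • ofComplex (((q ^ 2 : ℕ) : ℂ) * (z : ℂ))

namespace WtOne

variable {r : ℕ} (D : WtOne r)

theorem chi_one (hr : 0 < r) : D.chi 1 = 1 := by
  have h1 := D.chi_sq 1 isCoprime_one_left
  have h2 := D.chi_mul 1 1
  rw [mul_one] at h2
  rw [h2, h1]

end WtOne

namespace WFunAux

/-- `(a u, δ v; M', b)`. -/
def tau (a b δ M' : ℕ) (u v : ℤ) (hdet : (a : ℤ) * u * b - δ * v * M' = 1) : SL(2, ℤ) :=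
  ⟨!![(a : ℤ) * u, (δ : ℤ) * v; (M' : ℤ), (b : ℤ)], by rw [Matrix.det_fin_two_of]; exact hdet⟩

theorem denom_ne {M : ℕ} (hM : 0 < M) (z : ℍ) : (M : ℂ) * (z : ℂ) + 1 ≠ 0 := by
  intro h0
  have h1 := congrArg Complex.im h0
  rw [Complex.add_im, Complex.one_im, add_zero, Complex.zero_im] at h1
  have h2 : ((M : ℂ) * (z : ℂ)).im = (M : ℝ) * z.im := by
    rw [show (M : ℂ) = ((M : ℝ) : ℂ) by push_cast; rfl, Complex.im_ofReal_mul]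
    rfl
  rw [h2] at h1
  have h3 := z.im_pos
  have h4 : (0 : ℝ) < M := by exact_mod_cast hM
  have := mul_pos h4 h3
  linarith

theorem tau_rel {a b δ M' : ℕ} (ha : 0 < a) (hb : 0 < b) (hδ : 0 < δ) (hM' : 0 < M') (u v : ℤ)
    (hdet : (a : ℤ) * u * b - δ * v * M' = 1) (z μz : ℍ)
    (hμ : (μz : ℂ) = ((a : ℂ) * b * u * (z : ℂ) + v) / ((a : ℂ) * b * (((δ : ℂ) * M') * (z : ℂ) + 1))) :
    ((ofComplex ((((a * δ : ℕ) : ℂ) * (μz : ℂ) + (0 : ℕ)) / (1 : ℕ)) : ℍ) : ℂ) *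
      (((tau a b δ M' u v hdet 1 0 : ℤ) : ℂ) *
        ((ofComplex ((((b * δ : ℕ) : ℂ) * (z : ℂ) + (0 : ℕ)) / (1 : ℕ)) : ℍ) : ℂ) +
          ((tau a b δ M' u v hdet 1 1 : ℤ) : ℂ)) =
      ((tau a b δ M' u v hdet 0 0 : ℤ) : ℂ) *
        ((ofComplex ((((b * δ : ℕ) : ℂ) * (z : ℂ) + (0 : ℕ)) / (1 : ℕ)) : ℍ) : ℂ) +
          ((tau a b δ M' u v hdet 0 1 : ℤ) : ℂ) := by
  rw [expandB_coe_ofComplex _ 0 1 (Nat.mul_pos ha hδ) one_pos,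
    expandB_coe_ofComplex _ 0 1 (Nat.mul_pos hb hδ) one_pos, hμ]
  have e00 : tau a b δ M' u v hdet 0 0 = (a : ℤ) * u := rfl
  have e01 : tau a b δ M' u v hdet 0 1 = (δ : ℤ) * v := rfl
  have e10 : tau a b δ M' u v hdet 1 0 = (M' : ℤ) := rfl
  have e11 : tau a b δ M' u v hdet 1 1 = (b : ℤ) := rfl
  rw [e00, e01, e10, e11]
  have hden : ((δ : ℂ) * M') * (z : ℂ) + 1 ≠ 0 := by
    have := denom_ne (Nat.mul_pos hδ hM') z
    push_cast at this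
    exact this
  have ha' : (a : ℂ) ≠ 0 := by exact_mod_cast ha.ne'
  have hb' : (b : ℂ) ≠ 0 := by exact_mod_cast hb.ne'
  push_cast
  generalize hDn : ((δ : ℂ) * M') * (z : ℂ) + 1 = Dn at hden
  have e1 : (M' : ℂ) * (((b : ℂ) * δ * (z : ℂ) + 0) / 1) + b = b * Dn := by
    rw [← hDn]; ring
  rw [e1]
  field_simp
  ring

end WFunAux

section

variable {q M : ℕ} (hq : q.Prime) (hM : 0 < M) (u v : ℤ) (h : (q : ℤ) ^ 2 * u - M * v = 1)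

include hq hM

theorem coe_muW (z : ℍ) : ((muW q M u v h z : ℍ) : ℂ) =
    ((q : ℂ) ^ 2 * u * (z : ℂ) + v) / ((q : ℂ) ^ 2 * ((M : ℂ) * (z : ℂ) + 1)) := by
  have hq2 : 0 < q ^ 2 := pow_pos hq.pos 2
  have e0 : (((q ^ 2 : ℕ) : ℂ) * (z : ℂ)) = (((q ^ 2 : ℕ) : ℂ) * (z : ℂ) + (0 : ℕ)) / (1 : ℕ) := by
    push_cast; ring
  rw [muW, expandB_coe_smul, e0, expandB_coe_ofComplex _ 0 1 hq2 one_pos]
  have e00 : sig0 q M u v h 0 0 = u := rfl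
  have e01 : sig0 q M u v h 0 1 = v := rfl
  have e10 : sig0 q M u v h 1 0 = (M : ℤ) := rfl
  have e11 : sig0 q M u v h 1 1 = (q : ℤ) ^ 2 := rfl
  rw [e00, e01, e10, e11]
  push_cast
  congr 1 <;> ring

omit hq hM in
include h in
theorem WFunAux.coprime_qM : Nat.Coprime q M := by
  have h1 : IsCoprime (q : ℤ) (M : ℤ) := ⟨(q : ℤ) * u, -v, by linear_combination h⟩
  exact Nat.isCoprime_iff_coprime.1 h1

/-- the common computation: `i ≤ 2`, `M = δ M'`. -/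
theorem WFunAux.rel (i : ℕ) (hi : i ≤ 2) {δ M' : ℕ} (hMδ : M = δ * M') (z : ℍ) :
    ∃ hdet : ((q ^ i : ℕ) : ℤ) * u * ((q ^ (2 - i) : ℕ) : ℤ) - δ * v * M' = 1,
    ((ofComplex ((((q ^ i * δ : ℕ) : ℂ) * (muW q M u v h z : ℂ) + (0 : ℕ)) / (1 : ℕ)) : ℍ) : ℂ) *
      (((WFunAux.tau (q ^ i) (q ^ (2 - i)) δ M' u v hdet 1 0 : ℤ) : ℂ) *
        ((ofComplex ((((q ^ (2 - i) * δ : ℕ) : ℂ) * (z : ℂ) + (0 : ℕ)) / (1 : ℕ)) : ℍ) : ℂ) +
          ((WFunAux.tau (q ^ i) (q ^ (2 - i)) δ M' u v hdet 1 1 : ℤ) : ℂ)) =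
      ((WFunAux.tau (q ^ i) (q ^ (2 - i)) δ M' u v hdet 0 0 : ℤ) : ℂ) *
        ((ofComplex ((((q ^ (2 - i) * δ : ℕ) : ℂ) * (z : ℂ) + (0 : ℕ)) / (1 : ℕ)) : ℍ) : ℂ) +
          ((WFunAux.tau (q ^ i) (q ^ (2 - i)) δ M' u v hdet 0 1 : ℤ) : ℂ) := by
  have hpow : q ^ i * q ^ (2 - i) = q ^ 2 := by rw [← pow_add]; congr 1; omega
  have hpowZ : (q : ℤ) ^ i * (q : ℤ) ^ (2 - i) = (q : ℤ) ^ 2 := by exact_mod_cast hpow
  have hpowC : (q : ℂ) ^ i * (q : ℂ) ^ (2 - i) = (q : ℂ) ^ 2 := by exact_mod_cast hpow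
  have hδ : 0 < δ := Nat.pos_of_ne_zero (by rintro rfl; simp at hMδ; omega)
  have hM' : 0 < M' := Nat.pos_of_ne_zero (by rintro rfl; simp at hMδ; omega)
  have hdet : ((q ^ i : ℕ) : ℤ) * u * ((q ^ (2 - i) : ℕ) : ℤ) - δ * v * M' = 1 := by
    have hMZ : (M : ℤ) = δ * M' := by exact_mod_cast hMδ
    rw [hMZ] at h
    push_cast
    linear_combination h + u * hpowZ
  refine ⟨hdet, WFunAux.tau_rel (pow_pos hq.pos _) (pow_pos hq.pos _) hδ hM' u v hdet z _ ?_⟩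
  rw [coe_muW hq hM u v h z]
  have hMC : (M : ℂ) = δ * M' := by exact_mod_cast hMδ
  push_cast
  rw [hpowC, hMC]

theorem jd_muW {d : ℕ} (hd : d ∣ q ^ 2 * M) (z : ℍ) :
    jd d (muW q M u v h z) = jd (alPerm (q ^ 2) d) z := by
  have hcop : Nat.Coprime q M := WFunAux.coprime_qM u v h
  obtain ⟨e, δ, he, hδ, rfl⟩ := (Nat.dvd_mul).1 hd
  obtain ⟨i, hi, rfl⟩ := (Nat.dvd_prime_pow hq).1 he
  obtain ⟨M', hMδ⟩ := hδ
  have hδc : Nat.Coprime δ (q ^ 2) :=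
    (Nat.Coprime.pow_left 2 (hcop.coprime_dvd_right ⟨M', hMδ⟩)).symm
  rw [alPerm_mul (pow_pos hq.pos 2) he hδc, Nat.pow_div hi hq.pos]
  obtain ⟨hdet, hrel⟩ := WFunAux.rel hq hM u v h i hi hMδ z
  exact expandB_jFun_eq_of_coe _ hrel

variable {r : ℕ} (D : WtOne r) (hr : 0 < r) (hrM : r ∣ M)

include hr hrM

theorem Th_muW (i : ℕ) (hi : i ≤ 2) (z : ℍ) :
    pre (q ^ i) 0 1 D.Th (muW q M u v h z) =
      (D.chi ((q : ℤ) ^ (2 - i)) : ℂ) * ((q : ℂ) ^ (2 - i) * ((M : ℂ) * (z : ℂ) + 1)) *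
        pre (q ^ (2 - i)) 0 1 D.Th z := by
  obtain ⟨hdet, hrel⟩ := WFunAux.rel hq hM u v h i hi (one_mul M).symm z
  rw [mul_one, mul_one] at hrel
  have hmem : WFunAux.tau (q ^ i) (q ^ (2 - i)) 1 M u v hdet ∈ Gamma0 r := by
    rw [Gamma0_mem]
    have e10 : WFunAux.tau (q ^ i) (q ^ (2 - i)) 1 M u v hdet 1 0 = (M : ℤ) := rfl
    rw [e10]
    push_cast
    exact (ZMod.natCast_eq_zero_iff M r).2 hrM
  have key := Aut1.of_coe (D.slash _ hmem) hrel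
  have e10 : WFunAux.tau (q ^ i) (q ^ (2 - i)) 1 M u v hdet 1 0 = (M : ℤ) := rfl
  have e11 : WFunAux.tau (q ^ i) (q ^ (2 - i)) 1 M u v hdet 1 1 = ((q ^ (2 - i) : ℕ) : ℤ) := rfl
  rw [e10, e11, expandB_coe_ofComplex _ 0 1 (pow_pos hq.pos _) one_pos] at key
  rw [pre, pre, key]
  push_cast
  ring

theorem y_muW_q (z : ℍ) :
    D.y q (muW q M u v h z) = ((D.chi q : ℂ) / q) * (D.y q z * D.yI (q ^ 2) z) := by
  have hcop : Nat.Coprime q M := WFunAux.coprime_qM u v h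
  have hqr : IsCoprime (q : ℤ) (r : ℤ) :=
    Nat.isCoprime_iff_coprime.2 (hcop.coprime_dvd_right hrM)
  have hchi : (D.chi q : ℂ) * (D.chi q : ℂ) = 1 := by exact_mod_cast D.chi_sq q hqr
  have h0 := Th_muW hq hM u v h D hr hrM 0 (by omega) z
  have h1 := Th_muW hq hM u v h D hr hrM 1 (by omega) z
  have hden := WFunAux.denom_ne hM z
  have hq0 : (q : ℂ) ≠ 0 := by exact_mod_cast hq.ne_zero
  simp only [pow_zero, pow_one, Nat.sub_zero, show 2 - 1 = 1 from rfl] at h0 h1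
  rw [pow_two, D.chi_mul] at h0
  push_cast at h0
  rw [hchi, one_mul] at h0
  have hpre1 : ∀ (f : ℍ → ℂ) (w : ℍ), pre 1 0 1 f w = f w := by
    intro f w
    rw [pre]
    congr 1
    apply UpperHalfPlane.ext
    rw [expandB_coe_ofComplex 1 0 1 one_pos one_pos]
    push_cast; ring
  rw [hpre1] at h0
  have hI : ∀ w : ℍ, D.ThI w = (D.Th w)⁻¹ := fun w => eq_inv_of_mul_eq_one_right (D.mul_inv w)
  have hne : ∀ w : ℍ, D.Th w ≠ 0 := fun w hw => by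
    have := D.mul_inv w
    rw [hw, zero_mul] at this
    exact zero_ne_one this
  simp only [WtOne.y, WtOne.yI, Pi.mul_apply]
  rw [h1, hI, h0, hI z]
  have e2 : pre (q ^ 2) 0 1 D.ThI z = (pre (q ^ 2) 0 1 D.Th z)⁻¹ := by
    rw [pre, pre, hI]
  rw [e2]
  have hn1 : pre (q ^ 2) 0 1 D.Th z ≠ 0 := hne _
  have hn2 := hne z
  field_simp

theorem y_muW_qq (z : ℍ) :
    D.y (q ^ 2) (muW q M u v h z) = (1 / (q : ℂ) ^ 2) * D.yI (q ^ 2) z := by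
  have hcop : Nat.Coprime q M := WFunAux.coprime_qM u v h
  have hqr : IsCoprime (q : ℤ) (r : ℤ) :=
    Nat.isCoprime_iff_coprime.2 (hcop.coprime_dvd_right hrM)
  have hchi : (D.chi q : ℂ) * (D.chi q : ℂ) = 1 := by exact_mod_cast D.chi_sq q hqr
  have h0 := Th_muW hq hM u v h D hr hrM 0 (by omega) z
  have h2 := Th_muW hq hM u v h D hr hrM 2 (by omega) z
  have hden := WFunAux.denom_ne hM z
  have hq0 : (q : ℂ) ≠ 0 := by exact_mod_cast hq.ne_zero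
  simp only [pow_zero, Nat.sub_zero, Nat.sub_self] at h0 h2
  rw [pow_two, D.chi_mul] at h0
  push_cast at h0
  rw [hchi, one_mul] at h0
  rw [D.chi_one hr] at h2
  have hpre1 : ∀ (f : ℍ → ℂ) (w : ℍ), pre 1 0 1 f w = f w := by
    intro f w
    rw [pre]
    congr 1
    apply UpperHalfPlane.ext
    rw [expandB_coe_ofComplex 1 0 1 one_pos one_pos]
    push_cast; ring
  rw [hpre1] at h0 h2
  have hI : ∀ w : ℍ, D.ThI w = (D.Th w)⁻¹ := fun w => eq_inv_of_mul_eq_one_right (D.mul_inv w)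
  have hne : ∀ w : ℍ, D.Th w ≠ 0 := fun w hw => by
    have := D.mul_inv w
    rw [hw, zero_mul] at this
    exact zero_ne_one this
  simp only [WtOne.y, WtOne.yI, Pi.mul_apply]
  rw [h2, hI, h0]
  have e2 : pre (q ^ 2) 0 1 D.ThI z = (pre (q ^ 2) 0 1 D.Th z)⁻¹ := by
    rw [pre, pre, hI]
  rw [e2]
  have hn1 : pre (q ^ 2) 0 1 D.Th z ≠ 0 := hne _
  have hn2 := hne z
  push_cast
  field_simp

end

end Fermat.Agent.S36.ModA
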